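/-
CAR, wall (ELL): the wiring bricks that do not depend on the `V3` instance.

* (W2) bridge between the Prelude `Place` (its `ord`) and `Formal.IsUnif` (its `ord`);
* (W1) `dJ k N = d/dJ̄` on the mod-`ℓ` function field `κ = modularFunctionFieldFullC k N`,
  as an `EllOrder.IsDeriv`, from the chain rule `θ y = (dy/dJ) · θ J` (`ThetaChain`), and
  `dX k N x = d/dx̄` for any base function `x̄` (Hauptmodul cases `q = 2, 3`);
* (W3) the order of `G = (x - z)^a (x - z')^b` at a place over `x = z`, and the packaged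
  form of `EllOrder.le_and_unit_certificate` for such a `G` (`e₀ * a = 12 (e₀ - 1)`:
  `(e₀, a) = (3, 8)` over `J = 0`, `(2, 6)` over `J = 1728`).
-/
import Mathlib
import Fermat.Agent.CAR.Local.EllOrder
import Fermat.Agent.CAR.Local.ThetaChain

set_option autoImplicit false

noncomputable section

namespace Fermat.Agent.CAR.Ell.Deriv

open Fermat.Agent.CAR.Formal Fermat.Agent.CAR.Local.EllOrder Fermat.Agent.CAR.Local.ThetaJ
open ModularCurve

/-! ### (W2) Prelude places and `IsUnif` -/

section Bridge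

open AlgebraicCurve

variable {K F : Type*} [Field K] [Field F] [Algebra K F]

/-- An irreducible element of the valuation ring of a place is a uniformiser in the sense of
`Formal.IsUnif`. -/
theorem isUnif_of_irreducible (s : Place K F) {π : s.toValuationSubring} (hπ : Irreducible π) :
    IsUnif s.toValuationSubring (π : F) := by
  refine ⟨π.2, ?_, ?_⟩
  · intro hinv
    apply hπ.not_isUnit
    refine IsUnit.of_mul_eq_one (⟨(π : F)⁻¹, hinv⟩ : s.toValuationSubring) ?_
    apply Subtype.ext
    have hπ0 : (π : F) ≠ 0 := by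
      simpa [ne_eq, ZeroMemClass.coe_eq_zero] using hπ.ne_zero
    show (π : F) * (π : F)⁻¹ = 1
    exact mul_inv_cancel₀ hπ0
  · intro x hx
    obtain ⟨u, hu⟩ := s.exists_unit_mul_zpow hx hπ
    refine ⟨s.ord x, ((u : s.toValuationSubring) : F), (u : s.toValuationSubring).2, ?_, ?_⟩
    · have h1 : (((u⁻¹ : s.toValuationSubringˣ) : s.toValuationSubring) : F)
          = (((u : s.toValuationSubring) : F))⁻¹ := by
        have h2 : (((u : s.toValuationSubring) : F))
            * (((u⁻¹ : s.toValuationSubringˣ) : s.toValuationSubring) : F) = 1 := by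
          have h3 : (((u : s.toValuationSubring) * ((u⁻¹ : s.toValuationSubringˣ) :
              s.toValuationSubring) : s.toValuationSubring) : F)
              = ((1 : s.toValuationSubring) : F) := by rw [Units.mul_inv]
          exact h3
        exact eq_inv_of_mul_eq_one_right h2
      rw [← h1]
      exact ((u⁻¹ : s.toValuationSubringˣ) : s.toValuationSubring).2
    · rw [hu]
      rw [s.ord_unit_smul_zpow u hπ]
      ring

/-- The two order functions agree. -/
theorem ord_eq_place_ord (s : Place K F) {π : s.toValuationSubring} (hπ : Irreducible π)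
    (f : F) : (isUnif_of_irreducible s hπ).ord f = s.ord f := by
  by_cases hf : f = 0
  · subst hf
    simp
  · obtain ⟨u, hu⟩ := s.exists_unit_mul_zpow hf hπ
    have hu0 : ((u : s.toValuationSubring) : F) ≠ 0 := by
      simp [ne_eq, ZeroMemClass.coe_eq_zero]
    have h1 : (((u⁻¹ : s.toValuationSubringˣ) : s.toValuationSubring) : F)
        = (((u : s.toValuationSubring) : F))⁻¹ := by
      have h2 : (((u : s.toValuationSubring) : F))
          * (((u⁻¹ : s.toValuationSubringˣ) : s.toValuationSubring) : F) = 1 := by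
        have h3 : (((u : s.toValuationSubring) * ((u⁻¹ : s.toValuationSubringˣ) :
            s.toValuationSubring) : s.toValuationSubring) : F)
            = ((1 : s.toValuationSubring) : F) := by rw [Units.mul_inv]
        exact h3
      exact eq_inv_of_mul_eq_one_right h2
    refine (isUnif_of_irreducible s hπ).ord_eq (u := ((u : s.toValuationSubring) : F))
      (u : s.toValuationSubring).2 ?_ hu0 ?_
    · rw [← h1]
      exact ((u⁻¹ : s.toValuationSubringˣ) : s.toValuationSubring).2
    · rw [mul_comm]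
      exact hu

/-- Every place has a uniformiser in the sense of `IsUnif`, with the same order function. -/
theorem exists_isUnif (s : Place K F) :
    ∃ (τ : F) (h : IsUnif s.toValuationSubring τ), ∀ f : F, h.ord f = s.ord f := by
  obtain ⟨π, hπ⟩ := IsDiscreteValuationRing.exists_irreducible s.toValuationSubring
  exact ⟨(π : F), isUnif_of_irreducible s hπ, ord_eq_place_ord s hπ⟩

/-- Nonzero constants have order `0` (for `IsUnif` on the valuation ring of a place). -/
theorem ord_algebraMap (s : Place K F) {τ : F} (h : IsUnif s.toValuationSubring τ) (c : K) :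
    h.ord (algebraMap K F c) = 0 := by
  by_cases hc : c = 0
  · subst hc
    simp
  · refine h.ord_unit (s.algebraMap_mem' c) ?_ ?_
    · rw [← map_inv₀]
      exact s.algebraMap_mem' c⁻¹
    · simpa using hc

end Bridge

/-! ### (W3) the order of `G = (x - z)^a (x - z')^b` -/

section OrdG

variable {κ : Type*} [Field κ] {Vs : ValuationSubring κ} {τ : κ}

/-- At a place over `x = z`, with `z - z'` a unit, `G = (x - z)^a (x - z')^b` is nonzero of
order `a * ord (x - z)`. -/
theorem ord_pow_mul_pow (hτ : IsUnif Vs τ) {x z z' : κ} (hxz0 : x - z ≠ 0)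
    (hxz : x - z ∈ Vs.nonunits) (hzz0 : z - z' ≠ 0) (hzz : hτ.ord (z - z') = 0) (a b : ℕ) :
    (x - z) ^ a * (x - z') ^ b ≠ 0 ∧
      hτ.ord ((x - z) ^ a * (x - z') ^ b) = a * hτ.ord (x - z) := by
  have hpos : 0 < hτ.ord (x - z) := (hτ.ord_pos_iff hxz0).mpr hxz
  have h1 : x - z' = (z - z') + (x - z) := by ring
  have h2 : hτ.ord (x - z') = 0 := by
    rw [h1, hτ.ord_add_eq_of_lt hzz0 hxz0 (by omega), hzz]
  have h3 : x - z' ≠ 0 := by
    rw [h1]
    exact hτ.add_ne_zero_of_lt hzz0 hxz0 (by omega)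
  refine ⟨mul_ne_zero (pow_ne_zero _ hxz0) (pow_ne_zero _ h3), ?_⟩
  rw [hτ.ord_mul (pow_ne_zero _ hxz0) (pow_ne_zero _ h3), hτ.ord_pow, hτ.ord_pow, h2]
  ring

/-- **(E-c) + (E-d) for `G = (x - z)^a (x - z')^b`**, `e₀ * a = 12 (e₀ - 1)`
(`(e₀, a) = (3, 8)` or `(2, 6)`). -/
theorem le_and_unit_certificate_pair {D : κ → κ} (hD : IsDeriv D) (hτ : IsUnif Vs τ)
    (S : Subring κ) (hS : ∀ y ∈ S, y ∈ Vs)
    (hlift : ∀ c ∈ Vs, ∃ a ∈ S, ∃ b ∈ S, b ∉ Vs.nonunits ∧ a = c * b)
    {x z z' : κ} {e₀ a b : ℕ} (hea : e₀ * a = 12 * (e₀ - 1)) (he₀ : 0 < e₀)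
    (hx : D x = 1) (hz : D z = 0)
    (hxz0 : x - z ≠ 0) (hxz : x - z ∈ Vs.nonunits) (hzz0 : z - z' ≠ 0)
    (hzz : hτ.ord (z - z') = 0)
    (hbd : ∀ y ∈ S, D y = 0 ∨
      0 ≤ 12 * hτ.ord (D y) + hτ.ord ((x - z) ^ a * (x - z') ^ b)) :
    hτ.ord (x - z) ≤ e₀ ∧ ((hτ.ord (x - z)).toNat : κ) ≠ 0 ∧
      (hτ.ord (x - z) = e₀ → ∀ t ∈ S, hτ.ord t = 1 →
        D t ≠ 0 ∧ (D t) ^ 12 * ((x - z) ^ a * (x - z') ^ b) ∈ Vs ∧
          ((D t) ^ 12 * ((x - z) ^ a * (x - z') ^ b))⁻¹ ∈ Vs) := by
  obtain ⟨hG0, hGord⟩ := ord_pow_mul_pow hτ hxz0 hxz hzz0 hzz a b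
  refine le_and_unit_certificate hD hτ S hS hlift hx hz hxz0 hxz hG0 ?_ hbd
  rw [hGord]
  have h1 : ((e₀ : ℤ)) * (a : ℤ) = 12 * ((e₀ : ℤ) - 1) := by
    have h2 : ((e₀ * a : ℕ) : ℤ) = ((12 * (e₀ - 1) : ℕ) : ℤ) := by rw [hea]
    push_cast [Nat.cast_sub he₀] at h2
    linarith
  calc (e₀ : ℤ) * ((a : ℤ) * hτ.ord (x - z)) = ((e₀ : ℤ) * (a : ℤ)) * hτ.ord (x - z) := by ring
    _ = 12 * ((e₀ : ℤ) - 1) * hτ.ord (x - z) := by rw [h1]

end OrdG

/-! ### (W1) `d/dJ̄` and `d/dx̄` on the mod-`ℓ` function field -/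

section DJ

variable (k : Type*) [Field k] [IsAlgClosed k] (N : ℕ) [NeZero N]

/-- `dy/dJ̄` for `y` in the mod-`ℓ` function field of level `N`: the `c` with
`θ y = c · θ J̄`. -/
def dJ (y : modularFunctionFieldFullC k N) : modularFunctionFieldFullC k N :=
  (exists_thetaL_eq_mul_modular k N y).choose

theorem thetaL_eq_dJ_mul (y : modularFunctionFieldFullC k N) :
    thetaL k (y : LaurentSeries k) = (dJ k N y : LaurentSeries k) * thetaL k (jqModC k) :=
  (exists_thetaL_eq_mul_modular k N y).choose_spec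

/-- characterisation of `dJ` -/
theorem dJ_eq_of_thetaL_eq {y c : modularFunctionFieldFullC k N}
    (h : thetaL k (y : LaurentSeries k) = (c : LaurentSeries k) * thetaL k (jqModC k)) :
    dJ k N y = c := by
  apply Subtype.ext
  have h1 := thetaL_eq_dJ_mul k N y
  rw [h] at h1
  exact (mul_right_cancel₀ (thetaL_jq_ne_zero k) h1).symm

theorem isDeriv_dJ : IsDeriv (dJ k N) :=
  isDeriv_of_theta (Λ := LaurentSeries k)
    ((algebraMap (modularFunctionFieldFullC k N) (LaurentSeries k)))
    (algebraMap (modularFunctionFieldFullC k N) (LaurentSeries k)).injective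
    (fun f => thetaL k f) (fun a b => map_add _ a b)
    (fun a b => by
      show thetaL k (a * b) = a * thetaL k b + thetaL k a * b
      rw [Derivation.leibniz, smul_eq_mul, smul_eq_mul]
      ring)
    (thetaL k (jqModC k)) (thetaL_jq_ne_zero k) (dJ k N) (thetaL_eq_dJ_mul k N)

theorem dJ_Jbar : dJ k N (Fermat.Agent.Lib.FF.ModL.Jbar k N) = 1 :=
  dJ_eq_of_thetaL_eq k N (by simp)

theorem dJ_algebraMap (c : k) : dJ k N (algebraMap k (modularFunctionFieldFullC k N) c) = 0 :=
  dJ_eq_of_thetaL_eq k N (by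
    have h1 : ((algebraMap k (modularFunctionFieldFullC k N) c : modularFunctionFieldFullC k N)
        : LaurentSeries k) = algebraMap k (LaurentSeries k) c := rfl
    rw [h1, Derivation.map_algebraMap]
    simp)

/-- `dJ y = 0 ↔ θ y = 0`. -/
theorem dJ_eq_zero_iff (y : modularFunctionFieldFullC k N) :
    dJ k N y = 0 ↔ thetaL k (y : LaurentSeries k) = 0 := by
  rw [thetaL_eq_dJ_mul k N y]
  constructor
  · intro h
    rw [h]
    simp
  · intro h
    rcases mul_eq_zero.mp h with h | h
    · exact Subtype.ext h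
    · exact absurd h (thetaL_jq_ne_zero k)

/-- `dy/dx̄` for a base function `x̄` (junk if `θ x̄ = 0`). -/
def dX (x y : modularFunctionFieldFullC k N) : modularFunctionFieldFullC k N :=
  dJ k N y / dJ k N x

theorem isDeriv_dX (x : modularFunctionFieldFullC k N) : IsDeriv (dX k N x) := by
  have h := isDeriv_dJ k N
  constructor
  · intro a b
    simp only [dX]
    rw [h.add]
    ring
  · intro a b
    simp only [dX]
    rw [h.mul]
    ring

theorem dX_self {x : modularFunctionFieldFullC k N} (hx : thetaL k (x : LaurentSeries k) ≠ 0) :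
    dX k N x x = 1 := by
  have h1 : dJ k N x ≠ 0 := fun h => hx ((dJ_eq_zero_iff k N x).mp h)
  simp only [dX]
  exact div_self h1

theorem dX_algebraMap (x : modularFunctionFieldFullC k N) (c : k) :
    dX k N x (algebraMap k (modularFunctionFieldFullC k N) c) = 0 := by
  simp only [dX]
  rw [dJ_algebraMap]
  simp

/-- the chain rule for `dX`: `θ y = (dy/dx̄) · θ x̄` -/
theorem thetaL_eq_dX_mul {x : modularFunctionFieldFullC k N}
    (hx : thetaL k (x : LaurentSeries k) ≠ 0) (y : modularFunctionFieldFullC k N) :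
    thetaL k (y : LaurentSeries k)
      = (dX k N x y : LaurentSeries k) * thetaL k (x : LaurentSeries k) := by
  have h1 : dJ k N x ≠ 0 := fun h => hx ((dJ_eq_zero_iff k N x).mp h)
  have h2 : dX k N x y * dJ k N x = dJ k N y := by
    simp only [dX]
    field_simp
  have h3 : ((dX k N x y : modularFunctionFieldFullC k N) : LaurentSeries k)
      * ((dJ k N x : modularFunctionFieldFullC k N) : LaurentSeries k)
      = ((dJ k N y : modularFunctionFieldFullC k N) : LaurentSeries k) := by
    rw [← h2]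
    rfl
  rw [thetaL_eq_dJ_mul k N y, thetaL_eq_dJ_mul k N x, ← h3]
  ring

theorem dX_Jbar : dX k N (Fermat.Agent.Lib.FF.ModL.Jbar k N) = dJ k N := by
  funext y
  simp only [dX]
  rw [dJ_Jbar]
  simp

/-- `dX` does not vanish exactly where `θ` does not. -/
theorem dX_eq_zero_iff {x : modularFunctionFieldFullC k N}
    (hx : thetaL k (x : LaurentSeries k) ≠ 0) (y : modularFunctionFieldFullC k N) :
    dX k N x y = 0 ↔ thetaL k (y : LaurentSeries k) = 0 := by
  have h1 : dJ k N x ≠ 0 := fun h => hx ((dJ_eq_zero_iff k N x).mp h)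
  simp only [dX]
  rw [div_eq_zero_iff, dJ_eq_zero_iff]
  simp [h1]

end DJ

end Fermat.Agent.CAR.Ell.Deriv

end
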