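/-
CAR, wall (ELL), step (E-a): the elliptic orders in characteristic `0`.

If a prime `r ≡ 11 (mod 12)` divides `N`, then `S` and `S * T` act freely on
`SL₂(ℤ) / Γ₀(N)`, so in `ℚ̄·F_N / ℚ̄(J_N)` EVERY place over `1728` has index exactly `2` and
EVERY place over `0` has index exactly `3`.

* `nuTwo_eq_zero`, `nuThree_eq_zero` : no square root of `-1` (resp. no primitive cube root of
  unity) modulo `N` when a prime `r ≡ 3 (mod 4)` (resp. `r ≡ 2 (mod 3)`) divides `N`;
* `ord_xL_sub_1728_eq_two`, `ord_xL_eq_three` : the exact indices for `x = J(q^N)`;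
* `ord_ofHaupt2_add_64_eq_two` : for `x = y₂(q^m)`, `N = m * 2`: every place over `x = -64` has
  index exactly `2` (there `J_N - 1728 = (x + 64)(x - 512)² / x²`);
* `ord_ofHaupt3_add_27_eq_three` : for `x = t₃(q^m)`, `N = m * 3`: every place over `x = -27` has
  index exactly `3` (there `J_N x³ = (x + 27)(x + 243)³`).
-/
import Mathlib
import Fermat.Agent.Lib.Red.BranchInst
import Fermat.Agent.Lib.Red.HauptBranchInst
import Fermat.Agent.S20.CountOrbits

set_option autoImplicit false
set_option linter.unusedSectionVars false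

namespace Fermat.Agent.CAR.Ell

open ModularCurve AlgebraicCurve Fermat.Agent.S28 Fermat.Agent.S24 Fermat.Agent.Lib.Red
open CongruenceSubgroup
open scoped MatrixGroups IntermediateField

noncomputable section

/-! ### Arithmetic: no elliptic fixed points -/

/-- No square root of `-1` modulo `N` if a prime `r ≡ 3 (mod 4)` divides `N`. -/
theorem nuTwo_eq_zero (N r : ℕ) (hr : r.Prime) (hr4 : r % 4 = 3) (hrN : r ∣ N) :
    nuTwo N = 0 := by
  have : Fact r.Prime := ⟨hr⟩
  have hempty : IsEmpty {x : ZMod N // x ^ 2 + 1 = 0} := by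
    refine ⟨fun ⟨x, hx⟩ => ?_⟩
    have h1 := congrArg (ZMod.castHom hrN (ZMod r)) hx
    rw [map_add, map_pow, map_one, map_zero] at h1
    have h2 : IsSquare (-1 : ZMod r) :=
      ⟨ZMod.castHom hrN (ZMod r) x, by linear_combination -h1⟩
    exact (ZMod.exists_sq_eq_neg_one_iff.mp h2) hr4
  rw [nuTwo]
  exact Nat.card_of_isEmpty

/-- No primitive cube root of unity modulo `N` if a prime `r ≡ 2 (mod 3)` divides `N`. -/
theorem nuThree_eq_zero (N r : ℕ) (hr : r.Prime) (hr3 : r % 3 = 2) (hrN : r ∣ N) :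
    nuThree N = 0 := by
  have : Fact r.Prime := ⟨hr⟩
  have hempty : IsEmpty {x : ZMod N // x ^ 2 + x + 1 = 0} := by
    refine ⟨fun ⟨x, hx⟩ => ?_⟩
    have h1 := congrArg (ZMod.castHom hrN (ZMod r)) hx
    rw [map_add, map_add, map_pow, map_one, map_zero] at h1
    set y : ZMod r := ZMod.castHom hrN (ZMod r) x with hy
    have hy3 : y ^ 3 = 1 := by linear_combination (y - 1) * h1
    have hy1 : y ≠ 1 := by
      intro h
      rw [h] at h1
      have h3 : ((3 : ℕ) : ZMod r) = 0 := by
        push_cast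
        linear_combination h1
      rw [ZMod.natCast_eq_zero_iff] at h3
      have := (Nat.prime_dvd_prime_iff_eq hr Nat.prime_three).mp h3
      omega
    have hy0 : y ≠ 0 := by
      intro h
      rw [h] at hy3
      simp at hy3
    have hord : orderOf y = 3 := orderOf_eq_prime hy3 hy1
    have hdvd : orderOf y ∣ r - 1 := orderOf_dvd_of_pow_eq_one (ZMod.pow_card_sub_one_eq_one hy0)
    rw [hord] at hdvd
    have hr2 : 2 ≤ r := hr.two_le
    omega
  rw [nuThree]
  exact Nat.card_of_isEmpty

/-- `2 · #(⟨S⟩-orbits) = [SL₂(ℤ) : Γ₀(N)]` when `S` has no fixed point. -/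
theorem two_mul_card_orbits_S_eq (N r : ℕ) [NeZero N] (hr : r.Prime) (hr4 : r % 4 = 3)
    (hrN : r ∣ N) :
    2 * Nat.card (MulAction.orbitRel.Quotient (Subgroup.zpowers ModularGroup.S) (XN N)) =
      Nat.card (XN N) := by
  have h := Fermat.Agent.S20.Count.two_mul_card_orbits_S_Gamma0 N
  rw [nuTwo_eq_zero N r hr hr4 hrN, add_zero, ← Fermat.Agent.S20.Count.index_Gamma0 N] at h
  exact h

/-- `3 · #(⟨ST⟩-orbits) = [SL₂(ℤ) : Γ₀(N)]` when `S T` has no fixed point. -/
theorem three_mul_card_orbits_ST_eq (N r : ℕ) [NeZero N] (hr : r.Prime) (hr3 : r % 3 = 2)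
    (hrN : r ∣ N) :
    3 * Nat.card (MulAction.orbitRel.Quotient
        (Subgroup.zpowers (ModularGroup.S * ModularGroup.T)) (XN N)) = Nat.card (XN N) := by
  have h := Fermat.Agent.S20.Count.three_mul_card_orbits_ST_Gamma0 N
  rw [nuThree_eq_zero N r hr hr3 hrN, mul_zero, add_zero, ← Fermat.Agent.S20.Count.index_Gamma0 N] at h
  exact h

/-! ### A counting lemma -/

/-- If finitely many integers `≤ e` indexed by a set of cardinality `c` add up to `e * c`,
they are all equal to `e`. -/
theorem eq_of_sum_eq_mul_card {ι : Type*} (s : Finset ι) (f : ι → ℤ) (e : ℤ)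
    (hle : ∀ i ∈ s, f i ≤ e) (hsum : ∑ i ∈ s, f i = e * s.card) : ∀ i ∈ s, f i = e := by
  have h0 : ∑ i ∈ s, (e - f i) = 0 := by
    rw [Finset.sum_sub_distrib, hsum, Finset.sum_const, nsmul_eq_mul]
    ring
  have h1 := (Finset.sum_eq_zero_iff_of_nonneg (fun i hi => sub_nonneg.mpr (hle i hi))).mp h0
  intro i hi
  have := h1 i hi
  omega

/-- A function with a zero at `v` plus a nonzero constant is a unit at `v`. -/
theorem ord_add_algebraMap_eq_zero {K F : Type*} [Field K] [Field F] [Algebra K F]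
    (v : Place K F) {a : F} (ha : 0 < v.ord a) (c : K) (hc : c ≠ 0) :
    v.ord (a + algebraMap K F c) = 0 := by
  have ha0 : a ≠ 0 := by
    rintro rfl
    simp at ha
  have hb0 : algebraMap K F c ≠ 0 := fun h => hc ((algebraMap K F).injective (by rw [h, map_zero]))
  have hb : v.ord (algebraMap K F c) = 0 := Fermat.Agent.S24.ord_algebraMap v c
  have hab : a + algebraMap K F c ≠ 0 := by
    intro h
    have h1 : a = algebraMap K F (-c) := by
      rw [map_neg]
      linear_combination h
    rw [h1, Fermat.Agent.S24.ord_algebraMap] at ha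
    exact lt_irrefl _ ha
  have h1 := ord_add_ge v ha0 hb0 hab
  have h2 := ord_sub_ge v hab ha0 (by rw [add_sub_cancel_left]; exact hb0)
  rw [add_sub_cancel_left] at h2
  rw [hb] at h1 h2
  rcases le_total (v.ord a) 0 with h | h
  · omega
  · rw [min_eq_right h] at h1
    rcases le_total (v.ord (a + algebraMap K F c)) (v.ord a) with h' | h'
    · rw [min_eq_left h'] at h2
      omega
    · rw [min_eq_right h'] at h2
      omega

/-! ### The exact indices of `J_N` -/

section JN

variable (N : ℕ) [NeZero N]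

/-- **(E-a), `1728`.** If a prime `r ≡ 3 (mod 4)` divides `N`, every place of `ℚ̄·F_N` over
`J_N = 1728` has index exactly `2`. -/
theorem ord_xL_sub_1728_eq_two (r : ℕ) (hr : r.Prime) (hr4 : r % 4 = 3) (hrN : r ∣ N)
    (v : Place KQ ↥(laurentBaseChange KQ (modularFunctionFieldFull N)))
    (hv : 0 < v.ord (xL KQ N - algebraMap KQ _ 1728)) :
    v.ord (xL KQ N - algebraMap KQ _ 1728) = 2 := by
  classical
  have : FiniteDimensional KQ⟮xL KQ N⟯ ↥(laurentBaseChange KQ (modularFunctionFieldFull N)) := by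
    rw [BranchInst.xL_eq_jFormal]
    exact finiteDimensional_JN N
  have htr : Transcendental KQ (xL KQ N) := by
    rw [BranchInst.xL_eq_jFormal]
    exact transcendental_JN N
  obtain ⟨hfin, hsum⟩ := Fermat.Agent.S24.placesOver_finite_sum (xL KQ N) htr (1728 : KQ)
  rw [BranchInst.finrank_xL] at hsum
  have hcard : (2 : ℤ) * (hfin.toFinset.card : ℤ) = (Nat.card (XN N) : ℤ) := by
    have h1 := BranchInst.card_placesOver_xL_1728 N
    have h2 := two_mul_card_orbits_S_eq N r hr hr4 hrN
    rw [← h1, Nat.card_eq_card_finite_toFinset hfin] at h2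
    exact_mod_cast h2
  have hall := eq_of_sum_eq_mul_card hfin.toFinset
    (fun w => w.ord (xL KQ N - algebraMap KQ _ 1728)) 2 ?_ ?_
  · exact hall v (by rw [Set.Finite.mem_toFinset]; exact hv)
  · intro w hw
    rw [Set.Finite.mem_toFinset] at hw
    rcases BranchInst.ord_xL_sub_1728 N w hw with h | h
    · show w.ord (xL KQ N - algebraMap KQ _ 1728) ≤ 2
      rw [h]
      norm_num
    · exact le_of_eq h
  · rw [hsum, ← hcard]

/-- **(E-a), `0`.** If a prime `r ≡ 2 (mod 3)` divides `N`, every place of `ℚ̄·F_N` over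
`J_N = 0` has index exactly `3`. -/
theorem ord_xL_sub_zero_eq_three (r : ℕ) (hr : r.Prime) (hr3 : r % 3 = 2) (hrN : r ∣ N)
    (v : Place KQ ↥(laurentBaseChange KQ (modularFunctionFieldFull N)))
    (hv : 0 < v.ord (xL KQ N - algebraMap KQ _ 0)) :
    v.ord (xL KQ N - algebraMap KQ _ 0) = 3 := by
  classical
  have : FiniteDimensional KQ⟮xL KQ N⟯ ↥(laurentBaseChange KQ (modularFunctionFieldFull N)) := by
    rw [BranchInst.xL_eq_jFormal]
    exact finiteDimensional_JN N
  have htr : Transcendental KQ (xL KQ N) := by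
    rw [BranchInst.xL_eq_jFormal]
    exact transcendental_JN N
  obtain ⟨hfin, hsum⟩ := Fermat.Agent.S24.placesOver_finite_sum (xL KQ N) htr (0 : KQ)
  rw [BranchInst.finrank_xL] at hsum
  have hcard : (3 : ℤ) * (hfin.toFinset.card : ℤ) = (Nat.card (XN N) : ℤ) := by
    have h1 := BranchInst.card_placesOver_xL_zero N
    have h2 := three_mul_card_orbits_ST_eq N r hr hr3 hrN
    rw [← h1, Nat.card_eq_card_finite_toFinset hfin] at h2
    exact_mod_cast h2
  have hall := eq_of_sum_eq_mul_card hfin.toFinset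
    (fun w => w.ord (xL KQ N - algebraMap KQ _ 0)) 3 ?_ ?_
  · exact hall v (by rw [Set.Finite.mem_toFinset]; exact hv)
  · intro w hw
    rw [Set.Finite.mem_toFinset] at hw
    rcases BranchInst.ord_xL_sub_zero N w hw with h | h
    · show w.ord (xL KQ N - algebraMap KQ _ 0) ≤ 3
      rw [h]
      norm_num
    · exact le_of_eq h
  · rw [hsum, ← hcard]

/-- The same without the `- 0`. -/
theorem ord_xL_eq_three (r : ℕ) (hr : r.Prime) (hr3 : r % 3 = 2) (hrN : r ∣ N)
    (v : Place KQ ↥(laurentBaseChange KQ (modularFunctionFieldFull N)))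
    (hv : 0 < v.ord (xL KQ N)) : v.ord (xL KQ N) = 3 := by
  have h := ord_xL_sub_zero_eq_three N r hr hr3 hrN v (by rwa [map_zero, sub_zero])
  rwa [map_zero, sub_zero] at h

end JN

/-- A function with a zero at `v` plus a constant is not zero. -/
theorem add_algebraMap_ne_zero {K F : Type*} [Field K] [Field F] [Algebra K F]
    (v : Place K F) {a : F} (ha : 0 < v.ord a) (c : K) : a + algebraMap K F c ≠ 0 := by
  intro h
  have h1 : a = algebraMap K F (-c) := by
    rw [map_neg]
    linear_combination h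
  rw [h1, Fermat.Agent.S24.ord_algebraMap] at ha
  exact lt_irrefl _ ha

/-! ### The Hauptmodul base functions -/

section Haupt

variable (A : ValuationSubring KQ) {k : Type} [Field k] (π : A →+* k)

/-- **(E-a), level `2`** (residue characteristic `3`): for `x = y₂(q^m)`, `M = m * 2`, if a prime
`r ≡ 3 (mod 4)` divides `M`, every place of `ℚ̄·F_M` over `x = -64` has index exactly `2`. -/
theorem ord_ofHaupt2_add_64_eq_two (M m : ℕ) [NeZero M] [NeZero m] (hM : M = m * 2)
    (h2 : (2 : k) ≠ 0) (r : ℕ) (hr : r.Prime) (hr4 : r % 4 = 3) (hrM : r ∣ M)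
    (v : Place KQ ↥(laurentBaseChange KQ (modularFunctionFieldFull M)))
    (hv : 0 < v.ord ((BaseFn.ofHaupt2 A π M m hM h2).x - algebraMap KQ _ (-64))) :
    v.ord ((BaseFn.ofHaupt2 A π M m hM h2).x - algebraMap KQ _ (-64)) = 2 := by
  have hrel : xL KQ M * (BaseFn.ofHaupt2 A π M m hM h2).x ^ 2 =
      ((BaseFn.ofHaupt2 A π M m hM h2).x + 256) ^ 3 :=
    BaseFn.ofHaupt2_rel (A := A) (π := π) M m hM h2
  generalize (BaseFn.ofHaupt2 A π M m hM h2).x = y at hrel hv ⊢
  set a := y - algebraMap KQ _ (-64) with ha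
  have hy : y = a + algebraMap KQ _ (-64) := by rw [ha, sub_add_cancel]
  have hy512 : y - 512 = a + algebraMap KQ _ (-576) := by
    rw [ha, map_neg, map_neg, map_ofNat, map_ofNat]
    ring
  have hy0 : v.ord y = 0 := by
    rw [hy]
    exact ord_add_algebraMap_eq_zero v hv (-64 : KQ) (by norm_num)
  have hyne : y ≠ 0 := by
    rw [hy]
    exact add_algebraMap_ne_zero v hv _
  have hy512o : v.ord (y - 512) = 0 := by
    rw [hy512]
    exact ord_add_algebraMap_eq_zero v hv (-576 : KQ) (by norm_num)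
  have hy512ne : y - 512 ≠ 0 := by
    rw [hy512]
    exact add_algebraMap_ne_zero v hv _
  have hane : a ≠ 0 := by
    rintro h
    rw [h] at hv
    simp at hv
  have key : (xL KQ M - algebraMap KQ _ 1728) * (y * y) = a * ((y - 512) * (y - 512)) := by
    rw [ha, map_neg, map_ofNat, map_ofNat]
    linear_combination hrel
  have hxne : xL KQ M - algebraMap KQ _ 1728 ≠ 0 := by
    intro h
    rw [h, zero_mul] at key
    exact mul_ne_zero hane (mul_ne_zero hy512ne hy512ne) key.symm
  have hord := congrArg v.ord key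
  rw [v.ord_mul hxne (mul_ne_zero hyne hyne), v.ord_mul hyne hyne,
    v.ord_mul hane (mul_ne_zero hy512ne hy512ne), v.ord_mul hy512ne hy512ne, hy0, hy512o] at hord
  simp only [add_zero] at hord
  rw [← hord]
  exact ord_xL_sub_1728_eq_two M r hr hr4 hrM v (by rw [hord]; exact hv)

/-- **(E-a), level `3`** (residue characteristic `2`): for `x = t₃(q^m)`, `M = m * 3`, if a prime
`r ≡ 2 (mod 3)` divides `M`, every place of `ℚ̄·F_M` over `x = -27` has index exactly `3`. -/
theorem ord_ofHaupt3_add_27_eq_three (M m : ℕ) [NeZero M] [NeZero m] (hM : M = m * 3)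
    (h3 : (3 : k) ≠ 0) (r : ℕ) (hr : r.Prime) (hr3 : r % 3 = 2) (hrM : r ∣ M)
    (v : Place KQ ↥(laurentBaseChange KQ (modularFunctionFieldFull M)))
    (hv : 0 < v.ord ((BaseFn.ofHaupt3 A π M m hM h3).x - algebraMap KQ _ (-27))) :
    v.ord ((BaseFn.ofHaupt3 A π M m hM h3).x - algebraMap KQ _ (-27)) = 3 := by
  have hrel : xL KQ M * (BaseFn.ofHaupt3 A π M m hM h3).x ^ 3 =
      ((BaseFn.ofHaupt3 A π M m hM h3).x + 27) * ((BaseFn.ofHaupt3 A π M m hM h3).x + 243) ^ 3 :=
    BaseFn.ofHaupt3_rel (A := A) (π := π) M m hM h3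
  generalize (BaseFn.ofHaupt3 A π M m hM h3).x = y at hrel hv ⊢
  set a := y - algebraMap KQ _ (-27) with ha
  have hy : y = a + algebraMap KQ _ (-27) := by rw [ha, sub_add_cancel]
  have hy243 : y + 243 = a + algebraMap KQ _ 216 := by
    rw [ha, map_neg, map_ofNat, map_ofNat]
    ring
  have hy0 : v.ord y = 0 := by
    rw [hy]
    exact ord_add_algebraMap_eq_zero v hv (-27 : KQ) (by norm_num)
  have hyne : y ≠ 0 := by
    rw [hy]
    exact add_algebraMap_ne_zero v hv _
  have hy243o : v.ord (y + 243) = 0 := by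
    rw [hy243]
    exact ord_add_algebraMap_eq_zero v hv (216 : KQ) (by norm_num)
  have hy243ne : y + 243 ≠ 0 := by
    rw [hy243]
    exact add_algebraMap_ne_zero v hv _
  have hane : a ≠ 0 := by
    rintro h
    rw [h] at hv
    simp at hv
  have key : xL KQ M * (y * (y * y)) = a * ((y + 243) * ((y + 243) * (y + 243))) := by
    rw [ha, map_neg, map_ofNat]
    linear_combination hrel
  have hxne : xL KQ M ≠ 0 := by
    intro h
    rw [h, zero_mul] at key
    exact mul_ne_zero hane (mul_ne_zero hy243ne (mul_ne_zero hy243ne hy243ne)) key.symm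
  have hord := congrArg v.ord key
  rw [v.ord_mul hxne (mul_ne_zero hyne (mul_ne_zero hyne hyne)),
    v.ord_mul hyne (mul_ne_zero hyne hyne), v.ord_mul hyne hyne,
    v.ord_mul hane (mul_ne_zero hy243ne (mul_ne_zero hy243ne hy243ne)),
    v.ord_mul hy243ne (mul_ne_zero hy243ne hy243ne), v.ord_mul hy243ne hy243ne, hy0, hy243o] at hord
  simp only [add_zero] at hord
  rw [← hord]
  exact ord_xL_eq_three M r hr hr3 hrM v (by rw [hord]; exact hv)

end Haupt

end

end Fermat.Agent.CAR.Ell
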