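/-
CAR, wall (ELL), step (E-a) for the coordinate `J = J(q)` (`jBar N`; the coordinate of the CAR
certificate `G = J⁸ (J - 1728)⁶`).

If a prime `r ≡ 11 (mod 12)` divides `N`, then in `ℚ̄·F_N / ℚ̄(J)` every place over `J = 1728`
has index exactly `2` and every place over `J = 0` has index exactly `3`.

* `ord_jBar_sub_1728_eq_two`, `ord_jBar_sub_zero_eq_three`, `ord_jBar_eq_three`;
* `ord_add_64_eq_two_of_rel` : for ANY `y` with `J y² = (y + 256)³` (Hauptmodul of level `2` at
  the other cusp: `y = Δ(q)/Δ(q²)`): every place over `y = -64` has index exactly `2`, PROVIDED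
  the zeros of `J - 1728` have order `2`; `ord_neg_of_rel_two` : the poles of `y` are poles of `J`;
* `ord_add_27_eq_three_of_rel`, `ord_neg_of_rel_three` : the same for `J y³ = (y + 27)(y + 243)³`
  over `y = -27`, index `3`.
-/
import Mathlib
import Fermat.Agent.CAR.Ell.CharZero

set_option autoImplicit false
set_option linter.unusedSectionVars false

namespace Fermat.Agent.CAR.Ell

open ModularCurve AlgebraicCurve Fermat.Agent.S28 Fermat.Agent.S24 Fermat.Agent.Lib.Red
open Fermat.Agent.S24.Final
open CongruenceSubgroup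
open scoped MatrixGroups IntermediateField

noncomputable section

/-! ### The exact indices of `J` -/

section JBar

variable (N : ℕ) [NeZero N]

/-- **(E-a) for `J(q)`, the value `1728`.** -/
theorem ord_jBar_sub_1728_eq_two (r : ℕ) (hr : r.Prime) (hr4 : r % 4 = 3) (hrN : r ∣ N)
    (v : Place KQ (FN N)) (hv : 0 < v.ord (jBar N - algebraMap KQ (FN N) 1728)) :
    v.ord (jBar N - algebraMap KQ (FN N) 1728) = 2 := by
  classical
  have : FiniteDimensional KQ⟮jBar N⟯ (FN N) := finiteDimensional_jBar N
  obtain ⟨hfin, hsum⟩ := Fermat.Agent.S24.placesOver_finite_sum (jBar N)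
    (transcendental_jBar N) (1728 : KQ)
  rw [finrank_jBar] at hsum
  have hcard : (2 : ℤ) * (hfin.toFinset.card : ℤ) = (Nat.card (XN N) : ℤ) := by
    have h1 := card_placesOver_1728 N
    have h2 := two_mul_card_orbits_S_eq N r hr hr4 hrN
    rw [← h1, Nat.card_eq_card_finite_toFinset hfin] at h2
    exact_mod_cast h2
  have hall := eq_of_sum_eq_mul_card hfin.toFinset
    (fun w => w.ord (jBar N - algebraMap KQ (FN N) 1728)) 2 ?_ ?_
  · exact hall v (by rw [Set.Finite.mem_toFinset]; exact hv)
  · intro w hw
    rw [Set.Finite.mem_toFinset] at hw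
    rcases ord_jBar_sub_1728 N w hw with h | h
    · show w.ord (jBar N - algebraMap KQ (FN N) 1728) ≤ 2
      rw [h]
      norm_num
    · exact le_of_eq h
  · rw [hsum, ← hcard]

/-- **(E-a) for `J(q)`, the value `0`.** -/
theorem ord_jBar_sub_zero_eq_three (r : ℕ) (hr : r.Prime) (hr3 : r % 3 = 2) (hrN : r ∣ N)
    (v : Place KQ (FN N)) (hv : 0 < v.ord (jBar N - algebraMap KQ (FN N) 0)) :
    v.ord (jBar N - algebraMap KQ (FN N) 0) = 3 := by
  classical
  have : FiniteDimensional KQ⟮jBar N⟯ (FN N) := finiteDimensional_jBar N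
  obtain ⟨hfin, hsum⟩ := Fermat.Agent.S24.placesOver_finite_sum (jBar N)
    (transcendental_jBar N) (0 : KQ)
  rw [finrank_jBar] at hsum
  have hcard : (3 : ℤ) * (hfin.toFinset.card : ℤ) = (Nat.card (XN N) : ℤ) := by
    have h1 := card_placesOver_zero N
    have h2 := three_mul_card_orbits_ST_eq N r hr hr3 hrN
    rw [← h1, Nat.card_eq_card_finite_toFinset hfin] at h2
    exact_mod_cast h2
  have hall := eq_of_sum_eq_mul_card hfin.toFinset
    (fun w => w.ord (jBar N - algebraMap KQ (FN N) 0)) 3 ?_ ?_
  · exact hall v (by rw [Set.Finite.mem_toFinset]; exact hv)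
  · intro w hw
    rw [Set.Finite.mem_toFinset] at hw
    rcases ord_jBar_sub_zero N w hw with h | h
    · show w.ord (jBar N - algebraMap KQ (FN N) 0) ≤ 3
      rw [h]
      norm_num
    · exact le_of_eq h
  · rw [hsum, ← hcard]

/-- The same without the `- 0`. -/
theorem ord_jBar_eq_three (r : ℕ) (hr : r.Prime) (hr3 : r % 3 = 2) (hrN : r ∣ N)
    (v : Place KQ (FN N)) (hv : 0 < v.ord (jBar N)) : v.ord (jBar N) = 3 := by
  have h := ord_jBar_sub_zero_eq_three N r hr hr3 hrN v (by rwa [map_zero, sub_zero])
  rwa [map_zero, sub_zero] at h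

end JBar

/-! ### Hauptmodul relations (any field of functions) -/

section Rel

variable {K F : Type*} [Field K] [Field F] [Algebra K F]

/-- A function with a pole at `v` plus a constant has the same pole order. -/
theorem ord_add_algebraMap_of_neg (v : Place K F) {y : F} (hy : v.ord y < 0) (c : K) :
    v.ord (y + algebraMap K F c) = v.ord y := by
  rcases eq_or_ne c 0 with rfl | hc
  · rw [map_zero, add_zero]
  have hy0 : y ≠ 0 := by
    rintro rfl
    simp at hy
  have hb0 : algebraMap K F c ≠ 0 := fun h => hc ((algebraMap K F).injective (by rw [h, map_zero]))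
  have hb : v.ord (algebraMap K F c) = 0 := Fermat.Agent.S24.ord_algebraMap v c
  have hab : y + algebraMap K F c ≠ 0 := by
    intro h
    have h1 : y = algebraMap K F (-c) := by
      rw [map_neg]
      linear_combination h
    rw [h1, Fermat.Agent.S24.ord_algebraMap] at hy
    exact lt_irrefl _ hy
  have h1 := ord_add_ge v hy0 hb0 hab
  have h2 := ord_sub_ge v hab hb0 (by rw [add_sub_cancel_right]; exact hy0)
  rw [add_sub_cancel_right] at h2
  rw [hb] at h1 h2
  rw [min_eq_left hy.le] at h1
  rcases le_total (v.ord (y + algebraMap K F c)) 0 with h | h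
  · rw [min_eq_left h] at h2
    omega
  · rw [min_eq_right h] at h2
    omega

/-- Level `2`: if `J y² = (y + 256)³`, a pole of `y` is a pole of `J`. -/
theorem ord_neg_of_rel_two {J y : F} (hrel : J * y ^ 2 = (y + 256) ^ 3) (v : Place K F)
    (hy : v.ord y < 0) : v.ord J < 0 := by
  have hy0 : y ≠ 0 := by
    rintro rfl
    simp at hy
  have h256 : v.ord (y + 256) = v.ord y := by
    have := ord_add_algebraMap_of_neg v hy (256 : K)
    rwa [map_ofNat] at this
  have hne : y + 256 ≠ 0 := by
    intro h
    rw [h, Place.ord_zero] at h256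
    omega
  have hJ0 : J ≠ 0 := by
    rintro rfl
    rw [zero_mul] at hrel
    exact pow_ne_zero 3 hne hrel.symm
  have hrel' : J * (y * y) = (y + 256) * ((y + 256) * (y + 256)) := by linear_combination hrel
  have hord := congrArg v.ord hrel'
  rw [v.ord_mul hJ0 (mul_ne_zero hy0 hy0), v.ord_mul hy0 hy0,
    v.ord_mul hne (mul_ne_zero hne hne), v.ord_mul hne hne, h256] at hord
  omega

/-- Level `3`: if `J y³ = (y + 27)(y + 243)³`, a pole of `y` is a pole of `J`. -/
theorem ord_neg_of_rel_three {J y : F} (hrel : J * y ^ 3 = (y + 27) * (y + 243) ^ 3)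
    (v : Place K F) (hy : v.ord y < 0) : v.ord J < 0 := by
  have hy0 : y ≠ 0 := by
    rintro rfl
    simp at hy
  have h27 : v.ord (y + 27) = v.ord y := by
    have := ord_add_algebraMap_of_neg v hy (27 : K)
    rwa [map_ofNat] at this
  have h243 : v.ord (y + 243) = v.ord y := by
    have := ord_add_algebraMap_of_neg v hy (243 : K)
    rwa [map_ofNat] at this
  have hne27 : y + 27 ≠ 0 := by
    intro h
    rw [h, Place.ord_zero] at h27
    omega
  have hne243 : y + 243 ≠ 0 := by
    intro h
    rw [h, Place.ord_zero] at h243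
    omega
  have hJ0 : J ≠ 0 := by
    rintro rfl
    rw [zero_mul] at hrel
    exact mul_ne_zero hne27 (pow_ne_zero 3 hne243) hrel.symm
  have hrel' : J * (y * (y * y)) = (y + 27) * ((y + 243) * ((y + 243) * (y + 243))) := by
    linear_combination hrel
  have hord := congrArg v.ord hrel'
  rw [v.ord_mul hJ0 (mul_ne_zero hy0 (mul_ne_zero hy0 hy0)),
    v.ord_mul hy0 (mul_ne_zero hy0 hy0), v.ord_mul hy0 hy0,
    v.ord_mul hne27 (mul_ne_zero hne243 (mul_ne_zero hne243 hne243)),
    v.ord_mul hne243 (mul_ne_zero hne243 hne243), v.ord_mul hne243 hne243, h27, h243] at hord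
  omega

variable [CharZero K]

/-- Level `2`: if `J y² = (y + 256)³` and the zeros of `J - 1728` at `v` have order `2`, then a
zero of `y + 64` at `v` has order `2`. -/
theorem ord_add_64_eq_two_of_rel {J y : F} (hrel : J * y ^ 2 = (y + 256) ^ 3) (v : Place K F)
    (hJ : 0 < v.ord (J - algebraMap K F 1728) → v.ord (J - algebraMap K F 1728) = 2)
    (hv : 0 < v.ord (y - algebraMap K F (-64))) : v.ord (y - algebraMap K F (-64)) = 2 := by
  set a := y - algebraMap K F (-64) with ha
  have hy : y = a + algebraMap K F (-64) := by rw [ha, sub_add_cancel]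
  have hy512 : y - 512 = a + algebraMap K F (-576) := by
    rw [ha, map_neg, map_neg, map_ofNat, map_ofNat]
    ring
  have hy0 : v.ord y = 0 := by
    rw [hy]
    exact ord_add_algebraMap_eq_zero v hv (-64 : K) (by norm_num)
  have hyne : y ≠ 0 := by
    rw [hy]
    exact add_algebraMap_ne_zero v hv _
  have hy512o : v.ord (y - 512) = 0 := by
    rw [hy512]
    exact ord_add_algebraMap_eq_zero v hv (-576 : K) (by norm_num)
  have hy512ne : y - 512 ≠ 0 := by
    rw [hy512]
    exact add_algebraMap_ne_zero v hv _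
  have hane : a ≠ 0 := by
    rintro h
    rw [h] at hv
    simp at hv
  have key : (J - algebraMap K F 1728) * (y * y) = a * ((y - 512) * (y - 512)) := by
    rw [ha, map_neg, map_ofNat, map_ofNat]
    linear_combination hrel
  have hxne : J - algebraMap K F 1728 ≠ 0 := by
    intro h
    rw [h, zero_mul] at key
    exact mul_ne_zero hane (mul_ne_zero hy512ne hy512ne) key.symm
  have hord := congrArg v.ord key
  rw [v.ord_mul hxne (mul_ne_zero hyne hyne), v.ord_mul hyne hyne,
    v.ord_mul hane (mul_ne_zero hy512ne hy512ne), v.ord_mul hy512ne hy512ne, hy0, hy512o] at hord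
  simp only [add_zero] at hord
  rw [← hord]
  exact hJ (by rw [hord]; exact hv)

/-- Level `3`: if `J y³ = (y + 27)(y + 243)³` and the zeros of `J` at `v` have order `3`, then a
zero of `y + 27` at `v` has order `3`. -/
theorem ord_add_27_eq_three_of_rel {J y : F} (hrel : J * y ^ 3 = (y + 27) * (y + 243) ^ 3)
    (v : Place K F) (hJ : 0 < v.ord J → v.ord J = 3)
    (hv : 0 < v.ord (y - algebraMap K F (-27))) : v.ord (y - algebraMap K F (-27)) = 3 := by
  set a := y - algebraMap K F (-27) with ha
  have hy : y = a + algebraMap K F (-27) := by rw [ha, sub_add_cancel]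
  have hy243 : y + 243 = a + algebraMap K F 216 := by
    rw [ha, map_neg, map_ofNat, map_ofNat]
    ring
  have hy0 : v.ord y = 0 := by
    rw [hy]
    exact ord_add_algebraMap_eq_zero v hv (-27 : K) (by norm_num)
  have hyne : y ≠ 0 := by
    rw [hy]
    exact add_algebraMap_ne_zero v hv _
  have hy243o : v.ord (y + 243) = 0 := by
    rw [hy243]
    exact ord_add_algebraMap_eq_zero v hv (216 : K) (by norm_num)
  have hy243ne : y + 243 ≠ 0 := by
    rw [hy243]
    exact add_algebraMap_ne_zero v hv _
  have hane : a ≠ 0 := by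
    rintro h
    rw [h] at hv
    simp at hv
  have key : J * (y * (y * y)) = a * ((y + 243) * ((y + 243) * (y + 243))) := by
    rw [ha, map_neg, map_ofNat]
    linear_combination hrel
  have hxne : J ≠ 0 := by
    intro h
    rw [h, zero_mul] at key
    exact mul_ne_zero hane (mul_ne_zero hy243ne (mul_ne_zero hy243ne hy243ne)) key.symm
  have hord := congrArg v.ord key
  rw [v.ord_mul hxne (mul_ne_zero hyne (mul_ne_zero hyne hyne)),
    v.ord_mul hyne (mul_ne_zero hyne hyne), v.ord_mul hyne hyne,
    v.ord_mul hane (mul_ne_zero hy243ne (mul_ne_zero hy243ne hy243ne)),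
    v.ord_mul hy243ne (mul_ne_zero hy243ne hy243ne), v.ord_mul hy243ne hy243ne, hy0, hy243o] at hord
  simp only [add_zero] at hord
  rw [← hord]
  exact hJ (by rw [hord]; exact hv)

end Rel

end

end Fermat.Agent.CAR.Ell
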