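/-
CAR, wall (ELL), step (E-b): the elliptic orders specialise.

Let `r` be a place reduction (`IsPlaceReductionAlong A π N r`: `r_* (div f) = div (f̄)` for the
integral functions `f` with `f̄ ≠ 0`; R2 of the RED layer) and `B` a base function of the good
level `N`, with reduction `x̄`.  For `z ∈ A`: if every zero of `x - z` in characteristic `0` has
order divisible by `e`, then every zero of `x̄ - z̄` has order divisible by `e`.

Proof: `div (x̄ - z̄) = r_* div (x - z)`; the zero divisors of `x - z` and `x̄ - z̄` have the same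
degree `[F : L(x)] = [F̄ : k(x̄)]` (good basis), hence no pole of `x` specialises to a zero of
`x̄ - z̄` and `ord_Q (x̄ - z̄) = ∑_{P ↦ Q, x(P) = z} ord_P (x - z)`.

* `dvd_of_mapDomain` : the combinatorial core;
* `dvd_ord_xt_sub` : the statement above;
* `ord_xt_sub_eq_sum` : the formula `ord_Q (x̄ - z̄) = ∑_{P ↦ Q, x(P) = z} ord_P (x - z)`.
-/
import Mathlib
import Fermat.Agent.Lib.Red.BaseData
import Fermat.Agent.Lib.FF.CharP.Fund
import Fermat.Prelude.Def_ModularCurve_ReductionModL

set_option autoImplicit false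
set_option linter.unusedSectionVars false

namespace Fermat.Agent.CAR.Ell

open ModularCurve AlgebraicCurve Fermat.Agent.S28 Fermat.Agent.S24 Fermat.Agent.Lib.Red
open scoped IntermediateField

noncomputable section

/-! ### The combinatorial core -/

/-- Let `D` be an integer-valued finitely supported function on `α`, `r : α → β`, and `o` the
push-forward of `D`.  If the total positive mass of `D` is at most the mass of `o` on a finite
set `Zb`, then on `Zb` the function `o` is the push-forward of the positive part of `D`. -/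
theorem eq_sum_of_mapDomain {α β : Type*} [DecidableEq β] (r : α → β) (D : α →₀ ℤ) (o : β → ℤ)
    (hpush : ∀ Q, Finsupp.mapDomain r D Q = o Q)
    (Z : Finset α) (hZ : ∀ P, P ∈ Z ↔ 0 < D P) (Zb : Finset β)
    (hsum : ∑ P ∈ Z, D P ≤ ∑ Q ∈ Zb, o Q) :
    ∀ Q ∈ Zb, o Q = ∑ P ∈ Z, if r P = Q then D P else 0 := by
  classical
  have hle : ∀ Q, o Q ≤ ∑ P ∈ Z, if r P = Q then D P else 0 := by
    intro Q
    rw [← hpush Q, Finsupp.mapDomain, Finsupp.sum_apply]
    simp only [Finsupp.sum, Finsupp.single_apply]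
    have hZsub : Z ⊆ D.support := fun P hP => by
      rw [Finsupp.mem_support_iff]
      have := (hZ P).mp hP
      omega
    rw [← Finset.sum_sdiff hZsub]
    have hneg : ∑ P ∈ D.support \ Z, (if r P = Q then D P else 0) ≤ 0 := by
      apply Finset.sum_nonpos
      intro P hP
      rw [Finset.mem_sdiff, Finsupp.mem_support_iff, hZ] at hP
      split_ifs
      · omega
      · exact le_rfl
    linarith
  have htotal : ∑ Q ∈ Zb, ∑ P ∈ Z, (if r P = Q then D P else 0) ≤ ∑ P ∈ Z, D P := by
    rw [Finset.sum_comm]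
    apply Finset.sum_le_sum
    intro P hP
    have hDP := (hZ P).mp hP
    rw [Finset.sum_ite_eq]
    split_ifs <;> omega
  have h0 : ∑ Q ∈ Zb, ((∑ P ∈ Z, if r P = Q then D P else 0) - o Q) = 0 := by
    have h1 : 0 ≤ ∑ Q ∈ Zb, ((∑ P ∈ Z, if r P = Q then D P else 0) - o Q) :=
      Finset.sum_nonneg fun Q _ => sub_nonneg.mpr (hle Q)
    have h2 : ∑ Q ∈ Zb, ((∑ P ∈ Z, if r P = Q then D P else 0) - o Q) ≤ 0 := by
      rw [Finset.sum_sub_distrib]
      linarith
    omega
  have h1 := (Finset.sum_eq_zero_iff_of_nonneg (fun Q _ => sub_nonneg.mpr (hle Q))).mp h0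
  intro Q hQ
  have := h1 Q hQ
  omega

/-- Divisibility version. -/
theorem dvd_of_mapDomain {α β : Type*} [DecidableEq β] (r : α → β) (D : α →₀ ℤ) (o : β → ℤ)
    (hpush : ∀ Q, Finsupp.mapDomain r D Q = o Q)
    (Z : Finset α) (hZ : ∀ P, P ∈ Z ↔ 0 < D P) (Zb : Finset β)
    (hsum : ∑ P ∈ Z, D P ≤ ∑ Q ∈ Zb, o Q) (e : ℤ) (he : ∀ P ∈ Z, e ∣ D P) :
    ∀ Q ∈ Zb, e ∣ o Q := by
  intro Q hQ
  rw [eq_sum_of_mapDomain r D o hpush Z hZ Zb hsum Q hQ]
  refine Finset.dvd_sum fun P hP => ?_
  split_ifs
  · exact he P hP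
  · exact dvd_zero e

/-! ### The function-field statement -/

section FF

variable {L : Type*} [Field L] [Algebra ℚ L] [IsAlgClosed L] {A : ValuationSubring L}
  {k : Type} [Field k] [IsAlgClosed k] {π : A →+* k} {N : ℕ} [NeZero N]

/-- The constant `c`, as a series. -/
theorem coe_algebraMap_laurentBaseChange (c : L) :
    ((algebraMap L ↥(laurentBaseChange L (modularFunctionFieldFull N)) c :
      ↥(laurentBaseChange L (modularFunctionFieldFull N))) : LaurentSeries L) = HahnSeries.C c := by
  rw [C_eq_algebraMap]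
  rfl

/-- The constant `c`, as a series. -/
theorem coe_algebraMap_fullC (c : k) :
    ((algebraMap k ↥(modularFunctionFieldFullC k N) c : ↥(modularFunctionFieldFullC k N)) :
      LaurentSeries k) = HahnSeries.C c := by
  rw [C_eq_algebraMap]
  rfl

/-- **(E-b), the formula.** Let `r` be a place reduction, `B` a base function, `z ∈ A`.  At a
zero `Q` of `x̄ - z̄`:  `ord_Q (x̄ - z̄) = ∑_{P ↦ Q, x(P) = z} ord_P (x - z)`; `Z` is any finite set
of places of characteristic `0` which is exactly the set of zeros of `x - z`. -/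
theorem ord_xt_sub_eq_sum [DecidableEq (Place k ↥(modularFunctionFieldFullC k N))]
    (hπ : ∀ a : A, ¬ IsUnit a → π a = 0) (hsurj : Function.Surjective π)
    (hNk : (N : k) ≠ 0) (B : BaseFn.Data A π N)
    {r : Place L ↥(laurentBaseChange L (modularFunctionFieldFull N)) →
      Place k ↥(modularFunctionFieldFullC k N)}
    (hr : IsPlaceReductionAlong A π N r) (z : A)
    (Z : Finset (Place L ↥(laurentBaseChange L (modularFunctionFieldFull N))))
    (hZ : ∀ P, P ∈ Z ↔ 0 < P.ord (B.x - algebraMap L _ (z : L)))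
    (Q : Place k ↥(modularFunctionFieldFullC k N))
    (hQ : 0 < Q.ord (B.xt hπ hNk - algebraMap k _ (π z))) :
    Q.ord (B.xt hπ hNk - algebraMap k _ (π z)) =
      ∑ P ∈ Z, if r P = Q then P.ord (B.x - algebraMap L _ (z : L)) else 0 := by
  classical
  have hfinL : Module.Finite ↥(L⟮B.x⟯) ↥(laurentBaseChange L (modularFunctionFieldFull N)) :=
    B.finite_L hπ hsurj hNk
  have hfink : Module.Finite ↥(k⟮B.xt hπ hNk⟯) ↥(modularFunctionFieldFullC k N) :=
    B.finite_k hπ hsurj hNk
  have htrL : Transcendental L B.x := B.transcendental_x hπ hNk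
  have htrk : Transcendental k (B.xt hπ hNk) := B.transcendental_xt hπ hNk
  -- the integral series `X - z`
  set y : LaurentSeries A := B.X - HahnSeries.C z with hy
  have hyL : coeffMap A.subtype y =
      ((B.x - algebraMap L _ (z : L) : ↥(laurentBaseChange L (modularFunctionFieldFull N))) :
        LaurentSeries L) := by
    rw [hy, map_sub]
    show incl A B.X - incl A (HahnSeries.C z) = _
    rw [incl_C, ← coe_algebraMap_laurentBaseChange (N := N) (z : L)]
    rfl
  have hyk : coeffMap π y =
      ((B.xt hπ hNk - algebraMap k _ (π z) : ↥(modularFunctionFieldFullC k N)) :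
        LaurentSeries k) := by
    rw [hy, map_sub]
    show rbar A π B.X - rbar A π (HahnSeries.C z) = _
    rw [rbar_C, ← B.coe_xt hπ hNk, ← coe_algebraMap_fullC (N := N) (π z)]
    rfl
  have hmemL : coeffMap A.subtype y ∈ laurentBaseChange L (modularFunctionFieldFull N) := by
    rw [hyL]
    exact Subtype.property _
  have hmemk : coeffMap π y ∈ modularFunctionFieldFullC k N := by
    rw [hyk]
    exact Subtype.property _
  have heL : (⟨coeffMap A.subtype y, hmemL⟩ : ↥(laurentBaseChange L (modularFunctionFieldFull N)))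
      = B.x - algebraMap L _ (z : L) := Subtype.ext hyL
  have hek : (⟨coeffMap π y, hmemk⟩ : ↥(modularFunctionFieldFullC k N)) =
      B.xt hπ hNk - algebraMap k _ (π z) := Subtype.ext hyk
  have hne : coeffMap π y ≠ 0 := by
    intro h0
    have h1 : B.xt hπ hNk - algebraMap k _ (π z) = 0 := by
      apply Subtype.ext
      rw [← hyk, h0]
      rfl
    exact htrk (by rw [sub_eq_zero.mp h1]; exact isAlgebraic_algebraMap _)
  -- the divisor of `x - z`
  have hfin : {P : Place L ↥(laurentBaseChange L (modularFunctionFieldFull N)) |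
      P.ord (B.x - algebraMap L _ (z : L)) ≠ 0}.Finite :=
    Fermat.Agent.Lib.FF.CharP.finite_ord_ne_zero B.x _
  set D : Divisor L ↥(laurentBaseChange L (modularFunctionFieldFull N)) :=
    Finsupp.ofSupportFinite (fun P => P.ord (B.x - algebraMap L _ (z : L))) hfin with hD
  have hDP : ∀ P, D P = P.ord (B.x - algebraMap L _ (z : L)) := fun P => rfl
  have hpush : ∀ Q', Finsupp.mapDomain r D Q' = Q'.ord (B.xt hπ hNk - algebraMap k _ (π z)) := by
    intro Q'
    have h := hr.2 y hmemL hmemk hne D (fun P => by rw [hDP, heL]) Q'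
    rw [h, hek]
  -- the degrees
  obtain ⟨hZL, hsumL⟩ := Fermat.Agent.Lib.FF.CharP.placesOver_finite_sum B.x htrL (z : L)
  obtain ⟨hZk, hsumk⟩ := Fermat.Agent.Lib.FF.CharP.placesOver_finite_sum (B.xt hπ hNk) htrk (π z)
  have hZeq : Z = hZL.toFinset := by
    ext P
    rw [hZ, Set.Finite.mem_toFinset]
    rfl
  have hsum : ∑ P ∈ Z, D P ≤ ∑ Q' ∈ hZk.toFinset,
      Q'.ord (B.xt hπ hNk - algebraMap k _ (π z)) := by
    rw [hsumk, hZeq, ← B.finrank_eq hπ hsurj hNk, ← hsumL]
    exact le_of_eq (Finset.sum_congr rfl fun P _ => hDP P)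
  have hQmem : Q ∈ hZk.toFinset := by
    rw [Set.Finite.mem_toFinset]
    exact hQ
  exact eq_sum_of_mapDomain r D _ hpush Z (fun P => by rw [hZ, hDP]) hZk.toFinset hsum Q hQmem

/-- **(E-b).** Let `r` be a place reduction, `B` a base function, `z ∈ A`.  If every zero of
`x - z` has order divisible by `e`, then every zero of `x̄ - z̄` has order divisible by `e`. -/
theorem dvd_ord_xt_sub (hπ : ∀ a : A, ¬ IsUnit a → π a = 0) (hsurj : Function.Surjective π)
    (hNk : (N : k) ≠ 0) (B : BaseFn.Data A π N)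
    {r : Place L ↥(laurentBaseChange L (modularFunctionFieldFull N)) →
      Place k ↥(modularFunctionFieldFullC k N)}
    (hr : IsPlaceReductionAlong A π N r) (z : A) (e : ℤ)
    (he : ∀ P : Place L ↥(laurentBaseChange L (modularFunctionFieldFull N)),
      0 < P.ord (B.x - algebraMap L _ (z : L)) → e ∣ P.ord (B.x - algebraMap L _ (z : L)))
    (Q : Place k ↥(modularFunctionFieldFullC k N))
    (hQ : 0 < Q.ord (B.xt hπ hNk - algebraMap k _ (π z))) :
    e ∣ Q.ord (B.xt hπ hNk - algebraMap k _ (π z)) := by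
  classical
  have hfinL : Module.Finite ↥(L⟮B.x⟯) ↥(laurentBaseChange L (modularFunctionFieldFull N)) :=
    B.finite_L hπ hsurj hNk
  obtain ⟨hZL, -⟩ := Fermat.Agent.Lib.FF.CharP.placesOver_finite_sum B.x
    (B.transcendental_x hπ hNk) (z : L)
  have hZ : ∀ P, P ∈ hZL.toFinset ↔ 0 < P.ord (B.x - algebraMap L _ (z : L)) := by
    intro P
    rw [Set.Finite.mem_toFinset]
    rfl
  rw [ord_xt_sub_eq_sum hπ hsurj hNk B hr z hZL.toFinset hZ Q hQ]
  refine Finset.dvd_sum fun P hP => ?_
  split_ifs
  · exact he P ((hZ P).mp hP)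
  · exact dvd_zero e

end FF

end

end Fermat.Agent.CAR.Ell
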