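/-
CAR, wall (ELL): under a place reduction `r` (R2), poles of the base function specialise to
poles and zeros to zeros; and the order of the reduction of an integral function at a place `Q`
is the sum of the orders over the fibre `r⁻¹(Q)`.

* `mapsTo_of_mapDomain` : the combinatorial core (equal total masses ⟹ the positive part of a
  divisor is pushed into the positive part of its push-forward);
* `ord_xt_neg_of_ord_x_neg`, `ord_xt_pos_of_ord_x_pos` : for a base function `B` of the good
  level: `ord_P x < 0 → ord_{r P} x̄ < 0` and `0 < ord_P x → 0 < ord_{r P} x̄`;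
* `dvd_ord_red_of_fibre`, `ord_red_nonneg_of_fibre` : for ANY integral function `f` with `f̄ ≠ 0`:
  if `e ∣ ord_P f` (resp. `0 ≤ ord_P f`) for every `P` with `r P = Q`, then `e ∣ ord_Q f̄`
  (resp. `0 ≤ ord_Q f̄`).
-/
import Mathlib
import Fermat.Agent.CAR.Ell.Spec

set_option autoImplicit false
set_option linter.unusedSectionVars false

namespace Fermat.Agent.CAR.Ell

open ModularCurve AlgebraicCurve Fermat.Agent.S28 Fermat.Agent.S24 Fermat.Agent.Lib.Red
open scoped IntermediateField

noncomputable section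

/-! ### The combinatorial core -/

/-- If the total positive mass of `D` is at most the mass of its push-forward `o` on a finite set
`Zb`, then `r` maps every point of the positive part `Z` of `D` into `Zb`. -/
theorem mapsTo_of_mapDomain {α β : Type*} [DecidableEq β] (r : α → β) (D : α →₀ ℤ) (o : β → ℤ)
    (hpush : ∀ Q, Finsupp.mapDomain r D Q = o Q)
    (Z : Finset α) (hZ : ∀ P, P ∈ Z ↔ 0 < D P) (Zb : Finset β)
    (hsum : ∑ P ∈ Z, D P ≤ ∑ Q ∈ Zb, o Q) :
    ∀ P ∈ Z, r P ∈ Zb := by
  classical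
  have heq := eq_sum_of_mapDomain r D o hpush Z hZ Zb hsum
  have h1 : ∑ Q ∈ Zb, o Q = ∑ P ∈ Z, if r P ∈ Zb then D P else 0 := by
    rw [Finset.sum_congr rfl heq, Finset.sum_comm]
    refine Finset.sum_congr rfl fun P _ => ?_
    rw [Finset.sum_ite_eq]
  have h2 : ∑ P ∈ Z, (D P - if r P ∈ Zb then D P else 0) = 0 := by
    have h3 : 0 ≤ ∑ P ∈ Z, (D P - if r P ∈ Zb then D P else 0) := by
      apply Finset.sum_nonneg
      intro P hP
      have := (hZ P).mp hP
      split_ifs <;> omega
    have h4 : ∑ P ∈ Z, (D P - if r P ∈ Zb then D P else 0) ≤ 0 := by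
      rw [Finset.sum_sub_distrib, ← h1]
      omega
    omega
  have h5 := (Finset.sum_eq_zero_iff_of_nonneg (fun P hP => by
    have := (hZ P).mp hP
    split_ifs <;> omega)).mp h2
  intro P hP
  have h6 := h5 P hP
  have h7 := (hZ P).mp hP
  by_contra hcon
  rw [if_neg hcon] at h6
  omega

/-! ### Poles and zeros of the base function -/

section FF

variable {L : Type*} [Field L] [Algebra ℚ L] [IsAlgClosed L] {A : ValuationSubring L}
  {k : Type} [Field k] [IsAlgClosed k] {π : A →+* k} {N : ℕ} [NeZero N]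

/-- `r_* div (x) = div (x̄)` for the base function. -/
theorem mapDomain_div_x (hπ : ∀ a : A, ¬ IsUnit a → π a = 0) (hsurj : Function.Surjective π)
    (hNk : (N : k) ≠ 0) (B : BaseFn.Data A π N)
    {r : Place L ↥(laurentBaseChange L (modularFunctionFieldFull N)) →
      Place k ↥(modularFunctionFieldFullC k N)}
    (hr : IsPlaceReductionAlong A π N r) :
    ∃ D : Divisor L ↥(laurentBaseChange L (modularFunctionFieldFull N)),
      (∀ P, D P = P.ord B.x) ∧ ∀ Q, Finsupp.mapDomain r D Q = Q.ord (B.xt hπ hNk) := by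
  have hfinL : Module.Finite ↥(L⟮B.x⟯) ↥(laurentBaseChange L (modularFunctionFieldFull N)) :=
    B.finite_L hπ hsurj hNk
  have htrk : Transcendental k (B.xt hπ hNk) := B.transcendental_xt hπ hNk
  have hfin : {P : Place L ↥(laurentBaseChange L (modularFunctionFieldFull N)) |
      P.ord B.x ≠ 0}.Finite :=
    Fermat.Agent.Lib.FF.CharP.finite_ord_ne_zero B.x _
  refine ⟨Finsupp.ofSupportFinite (fun P => P.ord B.x) hfin, fun P => rfl, fun Q => ?_⟩
  have hmemk : coeffMap π B.X ∈ modularFunctionFieldFullC k N := by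
    have h := (B.xt hπ hNk).2
    rwa [B.coe_xt hπ hNk] at h
  have hne : coeffMap π B.X ≠ 0 := by
    intro h0
    have h1 : B.xt hπ hNk = 0 := by
      apply Subtype.ext
      rw [B.coe_xt hπ hNk]
      exact h0
    exact htrk (by rw [h1]; exact isAlgebraic_zero)
  have h := hr.2 B.X B.hX hmemk hne (Finsupp.ofSupportFinite (fun P => P.ord B.x) hfin)
    (fun P => rfl) Q
  rw [h]
  congr 1
  apply Subtype.ext
  exact (B.coe_xt hπ hNk).symm

/-- **Poles specialise to poles**: `ord_P x < 0 → ord_{r P} x̄ < 0`. -/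
theorem ord_xt_neg_of_ord_x_neg (hπ : ∀ a : A, ¬ IsUnit a → π a = 0)
    (hsurj : Function.Surjective π) (hNk : (N : k) ≠ 0) (B : BaseFn.Data A π N)
    {r : Place L ↥(laurentBaseChange L (modularFunctionFieldFull N)) →
      Place k ↥(modularFunctionFieldFullC k N)}
    (hr : IsPlaceReductionAlong A π N r)
    (P : Place L ↥(laurentBaseChange L (modularFunctionFieldFull N))) (hP : P.ord B.x < 0) :
    (r P).ord (B.xt hπ hNk) < 0 := by
  classical
  have hfinL : Module.Finite ↥(L⟮B.x⟯) ↥(laurentBaseChange L (modularFunctionFieldFull N)) :=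
    B.finite_L hπ hsurj hNk
  have hfink : Module.Finite ↥(k⟮B.xt hπ hNk⟯) ↥(modularFunctionFieldFullC k N) :=
    B.finite_k hπ hsurj hNk
  have htrL : Transcendental L B.x := B.transcendental_x hπ hNk
  have htrk : Transcendental k (B.xt hπ hNk) := B.transcendental_xt hπ hNk
  obtain ⟨D, hD, hpush⟩ := mapDomain_div_x hπ hsurj hNk B hr
  obtain ⟨hZL, hsumL⟩ := Fermat.Agent.Lib.FF.CharP.polesOf_finite_sum B.x htrL
  obtain ⟨hZk, hsumk⟩ := Fermat.Agent.Lib.FF.CharP.polesOf_finite_sum (B.xt hπ hNk) htrk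
  have hpush' : ∀ Q, Finsupp.mapDomain r (-D) Q = -Q.ord (B.xt hπ hNk) := by
    intro Q
    rw [← Finsupp.mapDomain.addMonoidHom_apply, map_neg, Finsupp.mapDomain.addMonoidHom_apply,
      Finsupp.neg_apply, hpush Q]
  have hZ : ∀ P', P' ∈ hZL.toFinset ↔ 0 < (-D) P' := by
    intro P'
    rw [Set.Finite.mem_toFinset, Finsupp.neg_apply, hD]
    show P'.ord B.x < 0 ↔ _
    omega
  have hsum : ∑ P' ∈ hZL.toFinset, (-D) P' ≤ ∑ Q ∈ hZk.toFinset, -Q.ord (B.xt hπ hNk) := by
    rw [hsumk, ← B.finrank_eq hπ hsurj hNk, ← hsumL]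
    exact le_of_eq (Finset.sum_congr rfl fun P' _ => by rw [Finsupp.neg_apply, hD])
  have hmem := mapsTo_of_mapDomain r (-D) _ hpush' hZL.toFinset hZ hZk.toFinset hsum P
    ((hZ P).mpr (by rw [Finsupp.neg_apply, hD]; omega))
  rw [Set.Finite.mem_toFinset] at hmem
  exact hmem

/-- **Zeros specialise to zeros**: `0 < ord_P x → 0 < ord_{r P} x̄`. -/
theorem ord_xt_pos_of_ord_x_pos (hπ : ∀ a : A, ¬ IsUnit a → π a = 0)
    (hsurj : Function.Surjective π) (hNk : (N : k) ≠ 0) (B : BaseFn.Data A π N)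
    {r : Place L ↥(laurentBaseChange L (modularFunctionFieldFull N)) →
      Place k ↥(modularFunctionFieldFullC k N)}
    (hr : IsPlaceReductionAlong A π N r)
    (P : Place L ↥(laurentBaseChange L (modularFunctionFieldFull N))) (hP : 0 < P.ord B.x) :
    0 < (r P).ord (B.xt hπ hNk) := by
  classical
  have hfinL : Module.Finite ↥(L⟮B.x⟯) ↥(laurentBaseChange L (modularFunctionFieldFull N)) :=
    B.finite_L hπ hsurj hNk
  have hfink : Module.Finite ↥(k⟮B.xt hπ hNk⟯) ↥(modularFunctionFieldFullC k N) :=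
    B.finite_k hπ hsurj hNk
  have htrL : Transcendental L B.x := B.transcendental_x hπ hNk
  have htrk : Transcendental k (B.xt hπ hNk) := B.transcendental_xt hπ hNk
  obtain ⟨D, hD, hpush⟩ := mapDomain_div_x hπ hsurj hNk B hr
  obtain ⟨hZL, hsumL⟩ := Fermat.Agent.Lib.FF.CharP.zerosOf_finite_sum B.x htrL
  obtain ⟨hZk, hsumk⟩ := Fermat.Agent.Lib.FF.CharP.zerosOf_finite_sum (B.xt hπ hNk) htrk
  have hZ : ∀ P', P' ∈ hZL.toFinset ↔ 0 < D P' := by
    intro P'
    rw [Set.Finite.mem_toFinset, hD]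
    rfl
  have hsum : ∑ P' ∈ hZL.toFinset, D P' ≤ ∑ Q ∈ hZk.toFinset, Q.ord (B.xt hπ hNk) := by
    rw [hsumk, ← B.finrank_eq hπ hsurj hNk, ← hsumL]
    exact le_of_eq (Finset.sum_congr rfl fun P' _ => hD P')
  have hmem := mapsTo_of_mapDomain r D _ hpush hZL.toFinset hZ hZk.toFinset hsum P
    ((hZ P).mpr (by rw [hD]; exact hP))
  rw [Set.Finite.mem_toFinset] at hmem
  exact hmem

/-! ### Integral functions -/

/-- **The order of a reduction is the sum over the fibre.** For an integral series `y` with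
`f = y ∈ L·F_N` and `f̄ ≠ 0`: if `e ∣ ord_P f` for every `P` above `Q`, then `e ∣ ord_Q f̄`.
(`x₀` is any function over which `L·F_N` is finite: it is only used for the finiteness of the
divisor of `f`.) -/
theorem dvd_ord_red_of_fibre
    (x₀ : ↥(laurentBaseChange L (modularFunctionFieldFull N)))
    [FiniteDimensional ↥(L⟮x₀⟯) ↥(laurentBaseChange L (modularFunctionFieldFull N))]
    {r : Place L ↥(laurentBaseChange L (modularFunctionFieldFull N)) →
      Place k ↥(modularFunctionFieldFullC k N)}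
    (hr : IsPlaceReductionAlong A π N r) (y : LaurentSeries A)
    (hy : coeffMap A.subtype y ∈ laurentBaseChange L (modularFunctionFieldFull N))
    (hyk : coeffMap π y ∈ modularFunctionFieldFullC k N) (hne : coeffMap π y ≠ 0)
    (e : ℤ) (Q : Place k ↥(modularFunctionFieldFullC k N))
    (h : ∀ P, r P = Q →
      e ∣ P.ord (⟨coeffMap A.subtype y, hy⟩ : ↥(laurentBaseChange L (modularFunctionFieldFull N)))) :
    e ∣ Q.ord (⟨coeffMap π y, hyk⟩ : ↥(modularFunctionFieldFullC k N)) := by
  classical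
  have hfin : {P : Place L ↥(laurentBaseChange L (modularFunctionFieldFull N)) |
      P.ord (⟨coeffMap A.subtype y, hy⟩ :
        ↥(laurentBaseChange L (modularFunctionFieldFull N))) ≠ 0}.Finite :=
    Fermat.Agent.Lib.FF.CharP.finite_ord_ne_zero x₀ _
  have hpush := hr.2 y hy hyk hne (Finsupp.ofSupportFinite (fun P => P.ord (⟨coeffMap A.subtype y,
    hy⟩ : ↥(laurentBaseChange L (modularFunctionFieldFull N)))) hfin) (fun P => rfl) Q
  rw [← hpush, Finsupp.mapDomain, Finsupp.sum_apply]
  simp only [Finsupp.sum, Finsupp.single_apply]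
  refine Finset.dvd_sum fun P _ => ?_
  split_ifs with hPQ
  · exact h P hPQ
  · exact dvd_zero e

/-- If `0 ≤ ord_P f` for every `P` above `Q`, then `0 ≤ ord_Q f̄`. -/
theorem ord_red_nonneg_of_fibre
    (x₀ : ↥(laurentBaseChange L (modularFunctionFieldFull N)))
    [FiniteDimensional ↥(L⟮x₀⟯) ↥(laurentBaseChange L (modularFunctionFieldFull N))]
    {r : Place L ↥(laurentBaseChange L (modularFunctionFieldFull N)) →
      Place k ↥(modularFunctionFieldFullC k N)}
    (hr : IsPlaceReductionAlong A π N r) (y : LaurentSeries A)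
    (hy : coeffMap A.subtype y ∈ laurentBaseChange L (modularFunctionFieldFull N))
    (hyk : coeffMap π y ∈ modularFunctionFieldFullC k N) (hne : coeffMap π y ≠ 0)
    (Q : Place k ↥(modularFunctionFieldFullC k N))
    (h : ∀ P, r P = Q →
      0 ≤ P.ord (⟨coeffMap A.subtype y, hy⟩ : ↥(laurentBaseChange L (modularFunctionFieldFull N)))) :
    0 ≤ Q.ord (⟨coeffMap π y, hyk⟩ : ↥(modularFunctionFieldFullC k N)) := by
  classical
  have hfin : {P : Place L ↥(laurentBaseChange L (modularFunctionFieldFull N)) |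
      P.ord (⟨coeffMap A.subtype y, hy⟩ :
        ↥(laurentBaseChange L (modularFunctionFieldFull N))) ≠ 0}.Finite :=
    Fermat.Agent.Lib.FF.CharP.finite_ord_ne_zero x₀ _
  have hpush := hr.2 y hy hyk hne (Finsupp.ofSupportFinite (fun P => P.ord (⟨coeffMap A.subtype y,
    hy⟩ : ↥(laurentBaseChange L (modularFunctionFieldFull N)))) hfin) (fun P => rfl) Q
  rw [← hpush, Finsupp.mapDomain, Finsupp.sum_apply]
  simp only [Finsupp.sum, Finsupp.single_apply]
  refine Finset.sum_nonneg fun P _ => ?_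
  split_ifs with hPQ
  · exact h P hPQ
  · exact le_rfl

end FF

end

end Fermat.Agent.CAR.Ell
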