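/-
CAR, wall (ELL): the elliptic orders modulo `ℓ` at the good pairs.

`(M, ℓ)` a good pair (`ℓ ∤ M`; `ℓ ≥ 5`, or `ℓ = 3` and `M = m * 2`, or `ℓ = 2` and `M = m * 3`),
`A` a valuation subring of `ℚ̄` over `ℓ`, `k` its residue field, and a prime `r ≡ 3 (mod 4)`
resp. `r ≡ 2 (mod 3)` dividing `M`.  Then in the mod-`ℓ` function field of level `M`:

* `two_dvd_ord_xk_sub_1728` : `ℓ ≥ 5`: every zero of `J̄ - 1728` has even order;
* `three_dvd_ord_xk` : `ℓ ≥ 5`: every zero of `J̄` has order divisible by `3`;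
* `two_dvd_ord_haupt2_add_64` : `ℓ = 3`, `x̄ = ȳ₂(q^m)`: every zero of `x̄ + 64` has even order;
* `three_dvd_ord_haupt3_add_27` : `ℓ = 2`, `x̄ = t̄₃(q^m)`: every zero of `x̄ + 27` has order
  divisible by `3`.

(With the bound `ord ≤ e₀` of `CAR/Local/EllOrder.lean` the orders are exactly `e₀`.)
-/
import Mathlib
import Fermat.Agent.CAR.Ell.CharZero
import Fermat.Agent.CAR.Ell.Spec
import Fermat.Agent.ESJ.Red.R2Good

set_option autoImplicit false
set_option linter.unusedSectionVars false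

namespace Fermat.Agent.CAR.Ell

open ModularCurve AlgebraicCurve Fermat.Agent.S28 Fermat.Agent.S24 Fermat.Agent.Lib.Red
open Fermat.Agent.ESJ
open scoped IntermediateField

noncomputable section

/-- `r ≡ 11 (mod 12)` gives both congruences. -/
theorem mod_of_modEq_eleven {r : ℕ} (h : r ≡ 11 [MOD 12]) : r % 4 = 3 ∧ r % 3 = 2 := by
  have h1 : r % 12 = 11 := h
  omega

variable (A : ValuationSubring (AlgebraicClosure ℚ))

/-- The reduction of the base function `y₂(q^m)`, as a series. -/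
theorem coe_ofHaupt2_xt {k : Type} [Field k] (π : A →+* k) (M m : ℕ) [NeZero M] [NeZero m]
    (hM : M = m * 2) (h2 : (2 : k) ≠ 0) (hπ : ∀ a : A, ¬ IsUnit a → π a = 0)
    (hNk : (M : k) ≠ 0) :
    (((BaseFn.ofHaupt2 A π M m hM h2).xt hπ hNk : ↥(modularFunctionFieldFullC k M)) :
      LaurentSeries k) = HauptBase.x2S k m := by
  rw [BaseFn.Data.coe_xt]
  exact HauptBase.coeffMap_x2S π m

/-- The reduction of the base function `t₃(q^m)`, as a series. -/
theorem coe_ofHaupt3_xt {k : Type} [Field k] (π : A →+* k) (M m : ℕ) [NeZero M] [NeZero m]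
    (hM : M = m * 3) (h3 : (3 : k) ≠ 0) (hπ : ∀ a : A, ¬ IsUnit a → π a = 0)
    (hNk : (M : k) ≠ 0) :
    (((BaseFn.ofHaupt3 A π M m hM h3).xt hπ hNk : ↥(modularFunctionFieldFullC k M)) :
      LaurentSeries k) = HauptBase.x3S k m := by
  rw [BaseFn.Data.coe_xt]
  exact HauptBase.coeffMap_x3S π m

set_option synthInstance.maxHeartbeats 400000 in
set_option maxHeartbeats 1000000 in
/-- **(ELL), `ℓ ≥ 5`, the value `1728`.** -/
theorem two_dvd_ord_xk_sub_1728 (M ℓ : ℕ) [NeZero M] (hℓ : ℓ.Prime) (hℓM : ¬ ℓ ∣ M)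
    (h5 : 5 ≤ ℓ) (r : ℕ) (hr : r.Prime) (hr4 : r % 4 = 3) (hrM : r ∣ M)
    (hA : A.LiesOverPrime ℓ)
    (Q : Place (IsLocalRing.ResidueField A)
      ↥(modularFunctionFieldFullC (IsLocalRing.ResidueField A) M))
    (hQ : 0 < Q.ord (xk (IsLocalRing.ResidueField A) M -
      algebraMap (IsLocalRing.ResidueField A) _ 1728)) :
    (2 : ℤ) ∣ Q.ord (xk (IsLocalRing.ResidueField A) M -
      algebraMap (IsLocalRing.ResidueField A) _ 1728) := by
  have : IsAlgClosed (IsLocalRing.ResidueField A) :=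
    Fermat.Agent.Lib.FF.CharP.isAlgClosed_residueField A
  have hNk : (M : IsLocalRing.ResidueField A) ≠ 0 := natCast_residue_ne_zero' A hℓ hA M hℓM
  have hπ := residue_eq_zero_of_not_isUnit' A
  have hsurj : Function.Surjective (IsLocalRing.residue A) := IsLocalRing.residue_surjective
  obtain ⟨ρ, hρ, -⟩ := reductionInputsModL_good M ℓ hℓ hℓM (Or.inl h5) A hA
  have key := dvd_ord_xt_sub hπ hsurj hNk (BaseFn.Data.ofJ A (IsLocalRing.residue A) M) hρ
    (1728 : A) 2 ?_ Q ?_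
  · rw [BaseFn.Data.ofJ_xt, map_ofNat] at key
    exact key
  · intro P hP
    rw [BaseFn.Data.ofJ_x] at hP ⊢
    have e : (((1728 : A) : AlgebraicClosure ℚ)) = 1728 := rfl
    rw [e] at hP ⊢
    rw [ord_xL_sub_1728_eq_two M r hr hr4 hrM P hP]
  · rw [BaseFn.Data.ofJ_xt, map_ofNat]
    exact hQ

set_option synthInstance.maxHeartbeats 400000 in
set_option maxHeartbeats 1000000 in
/-- **(ELL), `ℓ ≥ 5`, the value `0`.** -/
theorem three_dvd_ord_xk (M ℓ : ℕ) [NeZero M] (hℓ : ℓ.Prime) (hℓM : ¬ ℓ ∣ M)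
    (h5 : 5 ≤ ℓ) (r : ℕ) (hr : r.Prime) (hr3 : r % 3 = 2) (hrM : r ∣ M)
    (hA : A.LiesOverPrime ℓ)
    (Q : Place (IsLocalRing.ResidueField A)
      ↥(modularFunctionFieldFullC (IsLocalRing.ResidueField A) M))
    (hQ : 0 < Q.ord (xk (IsLocalRing.ResidueField A) M)) :
    (3 : ℤ) ∣ Q.ord (xk (IsLocalRing.ResidueField A) M) := by
  have : IsAlgClosed (IsLocalRing.ResidueField A) :=
    Fermat.Agent.Lib.FF.CharP.isAlgClosed_residueField A
  have hNk : (M : IsLocalRing.ResidueField A) ≠ 0 := natCast_residue_ne_zero' A hℓ hA M hℓM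
  have hπ := residue_eq_zero_of_not_isUnit' A
  have hsurj : Function.Surjective (IsLocalRing.residue A) := IsLocalRing.residue_surjective
  obtain ⟨ρ, hρ, -⟩ := reductionInputsModL_good M ℓ hℓ hℓM (Or.inl h5) A hA
  have key := dvd_ord_xt_sub hπ hsurj hNk (BaseFn.Data.ofJ A (IsLocalRing.residue A) M) hρ
    (0 : A) 3 ?_ Q ?_
  · rw [BaseFn.Data.ofJ_xt, map_zero, map_zero, sub_zero] at key
    exact key
  · intro P hP
    rw [BaseFn.Data.ofJ_x] at hP ⊢
    have e : (((0 : A) : AlgebraicClosure ℚ)) = 0 := rfl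
    rw [e] at hP ⊢
    rw [ord_xL_sub_zero_eq_three M r hr hr3 hrM P hP]
  · rw [BaseFn.Data.ofJ_xt, map_zero, map_zero, sub_zero]
    exact hQ

set_option synthInstance.maxHeartbeats 400000 in
set_option maxHeartbeats 1000000 in
/-- **(ELL), `ℓ = 3`**, base function `x = y₂(q^m)`, `M = m * 2`: the value `-64`. -/
theorem two_dvd_ord_haupt2_add_64 (M m : ℕ) [NeZero M] [NeZero m] (hM : M = m * 2)
    (h3M : ¬ 3 ∣ M) (r : ℕ) (hr : r.Prime) (hr4 : r % 4 = 3) (hrM : r ∣ M)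
    (hA : A.LiesOverPrime 3) (h2 : (2 : IsLocalRing.ResidueField A) ≠ 0)
    (hπ : ∀ a : A, ¬ IsUnit a → IsLocalRing.residue A a = 0)
    (hNk : (M : IsLocalRing.ResidueField A) ≠ 0)
    (Q : Place (IsLocalRing.ResidueField A)
      ↥(modularFunctionFieldFullC (IsLocalRing.ResidueField A) M))
    (hQ : 0 < Q.ord ((BaseFn.ofHaupt2 A (IsLocalRing.residue A) M m hM h2).xt hπ hNk -
      algebraMap (IsLocalRing.ResidueField A) _ (-64))) :
    (2 : ℤ) ∣ Q.ord ((BaseFn.ofHaupt2 A (IsLocalRing.residue A) M m hM h2).xt hπ hNk -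
      algebraMap (IsLocalRing.ResidueField A) _ (-64)) := by
  have : IsAlgClosed (IsLocalRing.ResidueField A) :=
    Fermat.Agent.Lib.FF.CharP.isAlgClosed_residueField A
  have hsurj : Function.Surjective (IsLocalRing.residue A) := IsLocalRing.residue_surjective
  have h2M : 2 ∣ M := ⟨m, by rw [hM, mul_comm]⟩
  obtain ⟨ρ, hρ, -⟩ := reductionInputsModL_good M 3 Nat.prime_three h3M
    (Or.inr (Or.inl ⟨rfl, h2M⟩)) A hA
  have key := dvd_ord_xt_sub hπ hsurj hNk (BaseFn.ofHaupt2 A (IsLocalRing.residue A) M m hM h2)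
    hρ (-64 : A) 2 ?_ Q ?_
  · rw [map_neg, map_ofNat] at key
    exact key
  · intro P hP
    have e : (((-64 : A) : AlgebraicClosure ℚ)) = -64 := rfl
    rw [e] at hP ⊢
    rw [ord_ofHaupt2_add_64_eq_two A (IsLocalRing.residue A) M m hM h2 r hr hr4 hrM P hP]
  · rw [map_neg, map_ofNat]
    exact hQ

set_option synthInstance.maxHeartbeats 400000 in
set_option maxHeartbeats 1000000 in
/-- **(ELL), `ℓ = 2`**, base function `x = t₃(q^m)`, `M = m * 3`: the value `-27`. -/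
theorem three_dvd_ord_haupt3_add_27 (M m : ℕ) [NeZero M] [NeZero m] (hM : M = m * 3)
    (h2M : ¬ 2 ∣ M) (r : ℕ) (hr : r.Prime) (hr3 : r % 3 = 2) (hrM : r ∣ M)
    (hA : A.LiesOverPrime 2) (h3 : (3 : IsLocalRing.ResidueField A) ≠ 0)
    (hπ : ∀ a : A, ¬ IsUnit a → IsLocalRing.residue A a = 0)
    (hNk : (M : IsLocalRing.ResidueField A) ≠ 0)
    (Q : Place (IsLocalRing.ResidueField A)
      ↥(modularFunctionFieldFullC (IsLocalRing.ResidueField A) M))
    (hQ : 0 < Q.ord ((BaseFn.ofHaupt3 A (IsLocalRing.residue A) M m hM h3).xt hπ hNk -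
      algebraMap (IsLocalRing.ResidueField A) _ (-27))) :
    (3 : ℤ) ∣ Q.ord ((BaseFn.ofHaupt3 A (IsLocalRing.residue A) M m hM h3).xt hπ hNk -
      algebraMap (IsLocalRing.ResidueField A) _ (-27)) := by
  have : IsAlgClosed (IsLocalRing.ResidueField A) :=
    Fermat.Agent.Lib.FF.CharP.isAlgClosed_residueField A
  have hsurj : Function.Surjective (IsLocalRing.residue A) := IsLocalRing.residue_surjective
  have h3M : 3 ∣ M := ⟨m, by rw [hM, mul_comm]⟩
  obtain ⟨ρ, hρ, -⟩ := reductionInputsModL_good M 2 Nat.prime_two h2M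
    (Or.inr (Or.inr ⟨rfl, h3M⟩)) A hA
  have key := dvd_ord_xt_sub hπ hsurj hNk (BaseFn.ofHaupt3 A (IsLocalRing.residue A) M m hM h3)
    hρ (-27 : A) 3 ?_ Q ?_
  · rw [map_neg, map_ofNat] at key
    exact key
  · intro P hP
    have e : (((-27 : A) : AlgebraicClosure ℚ)) = -27 := rfl
    rw [e] at hP ⊢
    rw [ord_ofHaupt3_add_27_eq_three A (IsLocalRing.residue A) M m hM h3 r hr hr3 hrM P hP]
  · rw [map_neg, map_ofNat]
    exact hQ

end

end Fermat.Agent.CAR.Ell
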