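/-
CAR, wall (ELL): `J(q)` and `J(q^N)` are integral over each other's `ℤ[·]`, over ANY coefficient
ring; hence they have the same poles on every function field containing both.

* `isIntegral_Jd_mul`, `isIntegral_Jd_of_mul` : one prime step (the modular equation `Φ_p`, monic
  in both variables; helper98's `isIntegral_of_biEval`);
* `isIntegral_Jd_iff` : `J(q^m)` is integral over `R₀` iff `J(q^(m N))` is;
* `Jd_mem_valuationSubring_iff` : for a valuation ring `V` of an intermediate field `F` of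
  `K((q))`: `J(q) ∈ V ↔ J(q^N) ∈ V`;
* `ord_Jd_neg_iff` : the same for a place: `ord_P J(q) < 0 ↔ ord_P J(q^N) < 0`.
-/
import Mathlib
import Fermat.Agent.CAR.V3.UnitRel
import Fermat.Agent.S28.TowerDefs
import Fermat.Agent.S24.PlaceBasic

set_option autoImplicit false
set_option linter.style.haveILetI false

namespace Fermat.Agent.CAR.Ell

open ModularCurve AlgebraicCurve Fermat.Agent.S28 Fermat.Agent.S28.ModEq
open Fermat.Agent.CAR.V3.Units

noncomputable section

section Chain

variable (A : Type*) [CommRing A] {R₀ : Type*} [CommRing R₀] [Algebra R₀ (LaurentSeries A)]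

/-- One prime step up: `J(q^m)` integral ⟹ `J(q^(m p))` integral. -/
theorem isIntegral_Jd_mul (m p : ℕ) (hm : m ≠ 0) (hp : p.Prime)
    (h : IsIntegral R₀ (TD.Jd A m)) : IsIntegral R₀ (TD.Jd A (m * p)) := by
  haveI : NeZero p := ⟨hp.ne_zero⟩
  haveI : NeZero m := ⟨hm⟩
  obtain ⟨D⟩ := exists_modEqData p hp
  have h1 := congrArg (qExpand A m) (biEval_Phi_J1 A D)
  rw [map_biEval, map_zero, ← TD.Jd_eq_jqNModC, ← TD.Jd_one, TD.qExpand_Jd A m p hp.ne_zero,
    TD.qExpand_Jd A m 1 one_ne_zero, mul_one] at h1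
  exact isIntegral_of_biEval D.Φ D.Φ_monic h h1

/-- One prime step down: `J(q^(m p))` integral ⟹ `J(q^m)` integral. -/
theorem isIntegral_Jd_of_mul (m p : ℕ) (hm : m ≠ 0) (hp : p.Prime)
    (h : IsIntegral R₀ (TD.Jd A (m * p))) : IsIntegral R₀ (TD.Jd A m) := by
  haveI : NeZero p := ⟨hp.ne_zero⟩
  haveI : NeZero m := ⟨hm⟩
  obtain ⟨D⟩ := exists_modEqData p hp
  have h1 := congrArg (qExpand A m) (biEval_Phi_J0 A D)
  rw [map_biEval, map_zero, ← TD.Jd_eq_jqNModC, ← TD.Jd_one, TD.qExpand_Jd A m p hp.ne_zero,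
    TD.qExpand_Jd A m 1 one_ne_zero, mul_one] at h1
  exact isIntegral_of_biEval D.Φ D.Φ_monic h h1

/-- `J(q^m)` is integral over `R₀` iff `J(q^(m N))` is. -/
theorem isIntegral_Jd_iff (N : ℕ) (hN : N ≠ 0) :
    ∀ m : ℕ, m ≠ 0 → (IsIntegral R₀ (TD.Jd A m) ↔ IsIntegral R₀ (TD.Jd A (m * N))) := by
  induction N using Nat.recOnMul with
  | zero => exact absurd rfl hN
  | one =>
    intro m _
    rw [mul_one]
  | prime p hp =>
    intro m hm
    exact ⟨isIntegral_Jd_mul A m p hm hp, isIntegral_Jd_of_mul A m p hm hp⟩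
  | mul a b iha ihb =>
    intro m hm
    have ha : a ≠ 0 := fun h => hN (by rw [h, zero_mul])
    have hb : b ≠ 0 := fun h => hN (by rw [h, mul_zero])
    rw [iha ha m hm, ihb hb (m * a) (Nat.mul_ne_zero hm ha), mul_assoc]

end Chain

section Val

variable {K : Type*} [Field K] (F : IntermediateField K (LaurentSeries K))

/-- For a valuation ring `V` of a subfield `F` of `K((q))` containing `J(q)` and `J(q^N)`:
`J(q) ∈ V ↔ J(q^N) ∈ V`. -/
theorem Jd_mem_valuationSubring_iff (V : ValuationSubring F) (N : ℕ) (hN : N ≠ 0) (j1 jN : F)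
    (h1 : (j1 : LaurentSeries K) = TD.Jd K 1) (hjN : (jN : LaurentSeries K) = TD.Jd K N) :
    j1 ∈ V ↔ jN ∈ V := by
  letI : Algebra V (LaurentSeries K) :=
    ((algebraMap F (LaurentSeries K)).comp V.subtype).toAlgebra
  haveI : IsScalarTower V F (LaurentSeries K) := IsScalarTower.of_algebraMap_eq fun _ => rfl
  have hinj : Function.Injective (algebraMap F (LaurentSeries K)) :=
    (algebraMap F (LaurentSeries K)).injective
  have key : ∀ x : F, x ∈ V ↔ IsIntegral V (x : LaurentSeries K) := by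
    intro x
    constructor
    · intro hx
      exact isIntegral_algebraMap (R := V) (A := LaurentSeries K) (x := ⟨x, hx⟩)
    · intro hx
      have hx' : IsIntegral V x := (isIntegral_algebraMap_iff hinj).mp hx
      obtain ⟨y, hy⟩ := IsIntegrallyClosed.isIntegral_iff.mp hx'
      rw [← hy]
      exact y.2
  rw [key j1, key jN, h1, hjN]
  have h := isIntegral_Jd_iff (R₀ := V) K N hN 1 one_ne_zero
  rw [one_mul] at h
  exact h

variable {F}

/-- For a place `P` of a subfield `F` of `K((q))` containing `J(q)` and `J(q^N)`: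
`J(q)` has a pole at `P` iff `J(q^N)` has. -/
theorem ord_Jd_neg_iff (P : Place K F) (N : ℕ) (hN : N ≠ 0) (j1 jN : F)
    (h1 : (j1 : LaurentSeries K) = TD.Jd K 1) (hjN : (jN : LaurentSeries K) = TD.Jd K N) :
    P.ord j1 < 0 ↔ P.ord jN < 0 := by
  rw [← Fermat.Agent.S24.notMem_iff_ord_neg, ← Fermat.Agent.S24.notMem_iff_ord_neg,
    Jd_mem_valuationSubring_iff F P.toValuationSubring N hN j1 jN h1 hjN]

end Val

end

end Fermat.Agent.CAR.Ell
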