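/-
CAR, wall (ELL), steps (E-a) + (E-b) FOR THE COORDINATE `J = J(q)` (`Lib.FF.ModL.Jbar k M`), at
every good pair `(M, ℓ)` (`ℓ ∤ M`; `ℓ ≥ 5`, or `ℓ = 3` and `2 ∣ M`, or `ℓ = 2` and `3 ∣ M`);
`A` a valuation subring of `ℚ̄` over `ℓ`, `k` its residue field.

* `cusp_of_cusp` : **cusps specialise to cusps**: for every place reduction `r` (R2),
  `ord_P J < 0 → ord_{r P} J̄ < 0`;
* `dvd_ord_red_of_good` : for an integral series `y` with `f = y ∈ ℚ̄·F_M`, `f̄ ≠ 0`, whose poles
  are cusps and whose zeros have order divisible by `e`:  `e ∣ ord_Q f̄` at every finite place `Q`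
  (`0 ≤ ord_Q J̄`) of the mod-`ℓ` function field;
* `two_dvd_ord_Jbar_sub_1728`, `three_dvd_ord_Jbar` : **(ELL) for `J̄`** — if a prime
  `r ≡ 3 (mod 4)` (resp. `r ≡ 2 (mod 3)`) divides `M`, every zero of `J̄ - 1728` has even order
  (resp. every zero of `J̄` has order divisible by `3`);
* `two_dvd_ord_add_64_of_rel`, `three_dvd_ord_add_27_of_rel` : the Hauptmodul coordinates: for
  ANY integral series `h` in `ℚ̄·F_M` with `J h² = (h + 256)³` (resp. `J h³ = (h + 27)(h + 243)³`),
  every zero of `h̄ + 64` (resp. `h̄ + 27`) at a finite place has even order (resp. order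
  divisible by `3`).
-/
import Mathlib
import Fermat.Agent.CAR.Ell.Inst
import Fermat.Agent.CAR.Ell.JInt
import Fermat.Agent.CAR.Ell.CuspMap
import Fermat.Agent.CAR.Ell.CharZeroJ
import Fermat.Agent.Lib.FF.ModL

set_option autoImplicit false
set_option linter.unusedSectionVars false
set_option linter.style.haveILetI false

namespace Fermat.Agent.CAR.Ell

open ModularCurve AlgebraicCurve Fermat.Agent.S28 Fermat.Agent.S24 Fermat.Agent.Lib.Red
open Fermat.Agent.ESJ Fermat.Agent.Lib.FF.ModL
open scoped IntermediateField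

noncomputable section

/-! ### Hauptmodul relations: zeros and poles of `y` are the poles of `J` -/

section Rel

variable {K F : Type*} [Field K] [Field F] [Algebra K F]

theorem ofNat_mem_place (v : Place K F) (n : ℕ) [n.AtLeastTwo] :
    (OfNat.ofNat n : F) ∈ v.toValuationSubring := by
  have h := v.algebraMap_mem' (OfNat.ofNat n : K)
  rwa [map_ofNat] at h

/-- Level `2`: if `J y² = (y + 256)³` and `256 ≠ 0`, `J` has a pole wherever `y` has a zero or a
pole. -/
theorem ord_neg_of_ord_ne_zero_two {J y : F} (hrel : J * y ^ 2 = (y + 256) ^ 3)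
    (h256 : (256 : K) ≠ 0) (v : Place K F) (hy : v.ord y ≠ 0) : v.ord J < 0 := by
  rcases lt_or_gt_of_ne hy with h | h
  · exact ord_neg_of_rel_two hrel v h
  · have hy0 : y ≠ 0 := by
      rintro rfl
      simp at h
    have h1 : v.ord (y + 256) = 0 := by
      have := ord_add_algebraMap_eq_zero v h (256 : K) h256
      rwa [map_ofNat] at this
    have hne : y + 256 ≠ 0 := by
      have := add_algebraMap_ne_zero v h (256 : K)
      rwa [map_ofNat] at this
    have hJ0 : J ≠ 0 := by
      rintro rfl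
      rw [zero_mul] at hrel
      exact pow_ne_zero 3 hne hrel.symm
    have hrel' : J * (y * y) = (y + 256) * ((y + 256) * (y + 256)) := by linear_combination hrel
    have hord := congrArg v.ord hrel'
    rw [v.ord_mul hJ0 (mul_ne_zero hy0 hy0), v.ord_mul hy0 hy0,
      v.ord_mul hne (mul_ne_zero hne hne), v.ord_mul hne hne, h1] at hord
    omega

/-- Level `2`: if `J y² = (y + 256)³` and `256 ≠ 0`, `y` has a zero or a pole wherever `J` has a
pole. -/
theorem ord_ne_zero_of_ord_neg_two {J y : F} (hrel : J * y ^ 2 = (y + 256) ^ 3)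
    (h256 : (256 : K) ≠ 0) (v : Place K F) (hJ : v.ord J < 0) : v.ord y ≠ 0 := by
  intro h0
  have hy0 : y ≠ 0 := by
    rintro rfl
    have h1 : ((256 : F)) ^ 3 = 0 := by
      rw [zero_pow two_ne_zero, mul_zero, zero_add] at hrel
      exact hrel.symm
    have h2 : (256 : F) = 0 := pow_eq_zero_iff (three_ne_zero) |>.mp h1
    apply h256
    apply (algebraMap K F).injective
    rw [map_ofNat, map_zero]
    exact h2
  have hyV : y ∈ v.toValuationSubring := (mem_iff_ord_nonneg v).mpr (by omega)
  have hyV' : y⁻¹ ∈ v.toValuationSubring :=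
    (mem_iff_ord_nonneg v).mpr (by rw [v.ord_inv]; omega)
  have hJ' : J = (y + 256) ^ 3 * y⁻¹ ^ 2 := by
    field_simp
    linear_combination hrel
  have hJV : J ∈ v.toValuationSubring := by
    rw [hJ']
    exact mul_mem (pow_mem (add_mem hyV (ofNat_mem_place v 256)) 3) (pow_mem hyV' 2)
  have := (mem_iff_ord_nonneg v).mp hJV
  omega

/-- Level `3`: if `J y³ = (y + 27)(y + 243)³` and `27, 243 ≠ 0`, `J` has a pole wherever `y` has
a zero or a pole. -/
theorem ord_neg_of_ord_ne_zero_three {J y : F} (hrel : J * y ^ 3 = (y + 27) * (y + 243) ^ 3)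
    (h27 : (27 : K) ≠ 0) (h243 : (243 : K) ≠ 0) (v : Place K F) (hy : v.ord y ≠ 0) :
    v.ord J < 0 := by
  rcases lt_or_gt_of_ne hy with h | h
  · exact ord_neg_of_rel_three hrel v h
  · have hy0 : y ≠ 0 := by
      rintro rfl
      simp at h
    have h1 : v.ord (y + 27) = 0 := by
      have := ord_add_algebraMap_eq_zero v h (27 : K) h27
      rwa [map_ofNat] at this
    have hne1 : y + 27 ≠ 0 := by
      have := add_algebraMap_ne_zero v h (27 : K)
      rwa [map_ofNat] at this
    have h2 : v.ord (y + 243) = 0 := by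
      have := ord_add_algebraMap_eq_zero v h (243 : K) h243
      rwa [map_ofNat] at this
    have hne2 : y + 243 ≠ 0 := by
      have := add_algebraMap_ne_zero v h (243 : K)
      rwa [map_ofNat] at this
    have hJ0 : J ≠ 0 := by
      rintro rfl
      rw [zero_mul] at hrel
      exact mul_ne_zero hne1 (pow_ne_zero 3 hne2) hrel.symm
    have hrel' : J * (y * (y * y)) = (y + 27) * ((y + 243) * ((y + 243) * (y + 243))) := by
      linear_combination hrel
    have hord := congrArg v.ord hrel'
    rw [v.ord_mul hJ0 (mul_ne_zero hy0 (mul_ne_zero hy0 hy0)),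
      v.ord_mul hy0 (mul_ne_zero hy0 hy0), v.ord_mul hy0 hy0,
      v.ord_mul hne1 (mul_ne_zero hne2 (mul_ne_zero hne2 hne2)),
      v.ord_mul hne2 (mul_ne_zero hne2 hne2), v.ord_mul hne2 hne2, h1, h2] at hord
    omega

/-- Level `3`: if `J y³ = (y + 27)(y + 243)³` and `27, 243 ≠ 0`, `y` has a zero or a pole wherever
`J` has a pole. -/
theorem ord_ne_zero_of_ord_neg_three {J y : F} (hrel : J * y ^ 3 = (y + 27) * (y + 243) ^ 3)
    (h27 : (27 : K) ≠ 0) (h243 : (243 : K) ≠ 0) (v : Place K F) (hJ : v.ord J < 0) :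
    v.ord y ≠ 0 := by
  intro h0
  have hy0 : y ≠ 0 := by
    rintro rfl
    have h1 : (27 : F) * (243 : F) ^ 3 = 0 := by
      rw [zero_pow three_ne_zero, mul_zero, zero_add, zero_add] at hrel
      exact hrel.symm
    have h27F : (27 : F) ≠ 0 := by
      intro h
      apply h27
      apply (algebraMap K F).injective
      rw [map_ofNat, map_zero]
      exact h
    have h243F : (243 : F) ≠ 0 := by
      intro h
      apply h243
      apply (algebraMap K F).injective
      rw [map_ofNat, map_zero]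
      exact h
    exact mul_ne_zero h27F (pow_ne_zero 3 h243F) h1
  have hyV : y ∈ v.toValuationSubring := (mem_iff_ord_nonneg v).mpr (by omega)
  have hyV' : y⁻¹ ∈ v.toValuationSubring :=
    (mem_iff_ord_nonneg v).mpr (by rw [v.ord_inv]; omega)
  have hJ' : J = (y + 27) * (y + 243) ^ 3 * y⁻¹ ^ 3 := by
    field_simp
    linear_combination hrel
  have hJV : J ∈ v.toValuationSubring := by
    rw [hJ']
    exact mul_mem (mul_mem (add_mem hyV (ofNat_mem_place v 27))
      (pow_mem (add_mem hyV (ofNat_mem_place v 243)) 3)) (pow_mem hyV' 3)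
  have := (mem_iff_ord_nonneg v).mp hJV
  omega

end Rel

/-! ### Cusps specialise to cusps -/

/-- The series of `jBar`. -/
theorem coe_jBar_eq_Jd (N : ℕ) [NeZero N] :
    ((jBar N : FN N) : LaurentSeries KQ) = TD.Jd KQ 1 := by
  show coeffEmb KQ (qExpand ℚ 1 jq) = TD.Jd KQ 1
  rw [← TD.Jd_rat 1, coeffEmb, TD.coeffMap_Jd]

/-- The series of `jBar`. -/
theorem coe_jBar_eq_jqModC (N : ℕ) [NeZero N] :
    ((jBar N : FN N) : LaurentSeries KQ) = jqModC KQ := by
  rw [coe_jBar_eq_Jd, TD.Jd_one]

variable (A : ValuationSubring (AlgebraicClosure ℚ))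

set_option synthInstance.maxHeartbeats 400000 in
set_option maxHeartbeats 1000000 in
/-- **Cusps specialise to cusps** at every good pair, for every place reduction `r`. -/
theorem cusp_of_cusp (M ℓ : ℕ) [NeZero M] (hℓ : ℓ.Prime) (hℓM : ¬ ℓ ∣ M)
    (hgood : 5 ≤ ℓ ∨ (ℓ = 3 ∧ 2 ∣ M) ∨ (ℓ = 2 ∧ 3 ∣ M)) (hA : A.LiesOverPrime ℓ)
    {r : Place KQ (FN M) → Place (IsLocalRing.ResidueField A)
      ↥(modularFunctionFieldFullC (IsLocalRing.ResidueField A) M)}
    (hr : IsPlaceReductionAlong A (IsLocalRing.residue A) M r)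
    (P : Place KQ (FN M)) (hP : P.ord (jBar M) < 0) :
    (r P).ord (Jbar (IsLocalRing.ResidueField A) M) < 0 := by
  have : IsAlgClosed (IsLocalRing.ResidueField A) :=
    Fermat.Agent.Lib.FF.CharP.isAlgClosed_residueField A
  have hNk : (M : IsLocalRing.ResidueField A) ≠ 0 := natCast_residue_ne_zero' A hℓ hA M hℓM
  have hπ := residue_eq_zero_of_not_isUnit' A
  have hsurj : Function.Surjective (IsLocalRing.residue A) := IsLocalRing.residue_surjective
  have hxL : P.ord (xL KQ M) < 0 :=
    (ord_Jd_neg_iff P M (NeZero.ne M) (jBar M) (xL KQ M) (coe_jBar_eq_Jd M) rfl).mp hP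
  suffices h : (r P).ord (xk (IsLocalRing.ResidueField A) M) < 0 from
    (ord_Jd_neg_iff (r P) M (NeZero.ne M) (Jbar (IsLocalRing.ResidueField A) M)
      (xk (IsLocalRing.ResidueField A) M) (by rw [coe_Jbar, TD.Jd_one]) rfl).mpr h
  rcases hgood with h5 | ⟨rfl, h2M⟩ | ⟨rfl, h3M⟩
  · have h := ord_xt_neg_of_ord_x_neg hπ hsurj hNk
      (BaseFn.Data.ofJ A (IsLocalRing.residue A) M) hr P (by rw [BaseFn.Data.ofJ_x]; exact hxL)
    rwa [BaseFn.Data.ofJ_xt] at h
  · obtain ⟨m, hm⟩ := h2M
    have hm0 : m ≠ 0 := by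
      rintro rfl
      exact NeZero.ne M (by rw [hm, mul_zero])
    have : NeZero m := ⟨hm0⟩
    have hM : M = m * 2 := by rw [hm, mul_comm]
    have h2 : (2 : IsLocalRing.ResidueField A) ≠ 0 := by
      have := natCast_residue_ne_zero' A Nat.prime_three hA 2 (by decide)
      exact_mod_cast this
    have h256 : (256 : IsLocalRing.ResidueField A) ≠ 0 := by
      have := natCast_residue_ne_zero' A Nat.prime_three hA 256 (by decide)
      exact_mod_cast this
    have hrelL : xL KQ M * (BaseFn.ofHaupt2 A (IsLocalRing.residue A) M m hM h2).x ^ 2 =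
        ((BaseFn.ofHaupt2 A (IsLocalRing.residue A) M m hM h2).x + 256) ^ 3 :=
      BaseFn.ofHaupt2_rel M m hM h2
    have hrelk : xk (IsLocalRing.ResidueField A) M *
        (BaseFn.ofHaupt2 A (IsLocalRing.residue A) M m hM h2).xt hπ hNk ^ 2 =
        ((BaseFn.ofHaupt2 A (IsLocalRing.residue A) M m hM h2).xt hπ hNk + 256) ^ 3 := by
      apply Subtype.ext
      have h := HauptBase.x2S_rel (IsLocalRing.ResidueField A) m
      rw [← hM, ← coe_ofHaupt2_xt A (IsLocalRing.residue A) M m hM h2 hπ hNk] at h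
      exact h
    have hne := ord_ne_zero_of_ord_neg_two hrelL (by norm_num) P hxL
    rcases lt_or_gt_of_ne hne with h | h
    · exact ord_neg_of_ord_ne_zero_two hrelk h256 (r P)
        (ne_of_lt (ord_xt_neg_of_ord_x_neg hπ hsurj hNk _ hr P h))
    · exact ord_neg_of_ord_ne_zero_two hrelk h256 (r P)
        (ne_of_gt (ord_xt_pos_of_ord_x_pos hπ hsurj hNk _ hr P h))
  · obtain ⟨m, hm⟩ := h3M
    have hm0 : m ≠ 0 := by
      rintro rfl
      exact NeZero.ne M (by rw [hm, mul_zero])
    have : NeZero m := ⟨hm0⟩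
    have hM : M = m * 3 := by rw [hm, mul_comm]
    have h3 : (3 : IsLocalRing.ResidueField A) ≠ 0 := by
      have := natCast_residue_ne_zero' A Nat.prime_two hA 3 (by decide)
      exact_mod_cast this
    have h27 : (27 : IsLocalRing.ResidueField A) ≠ 0 := by
      have := natCast_residue_ne_zero' A Nat.prime_two hA 27 (by decide)
      exact_mod_cast this
    have h243 : (243 : IsLocalRing.ResidueField A) ≠ 0 := by
      have := natCast_residue_ne_zero' A Nat.prime_two hA 243 (by decide)
      exact_mod_cast this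
    have hrelL : xL KQ M * (BaseFn.ofHaupt3 A (IsLocalRing.residue A) M m hM h3).x ^ 3 =
        ((BaseFn.ofHaupt3 A (IsLocalRing.residue A) M m hM h3).x + 27) *
          ((BaseFn.ofHaupt3 A (IsLocalRing.residue A) M m hM h3).x + 243) ^ 3 :=
      BaseFn.ofHaupt3_rel M m hM h3
    have hrelk : xk (IsLocalRing.ResidueField A) M *
        (BaseFn.ofHaupt3 A (IsLocalRing.residue A) M m hM h3).xt hπ hNk ^ 3 =
        ((BaseFn.ofHaupt3 A (IsLocalRing.residue A) M m hM h3).xt hπ hNk + 27) *
          ((BaseFn.ofHaupt3 A (IsLocalRing.residue A) M m hM h3).xt hπ hNk + 243) ^ 3 := by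
      apply Subtype.ext
      have h := HauptBase.x3S_rel (IsLocalRing.ResidueField A) m
      rw [← hM, ← coe_ofHaupt3_xt A (IsLocalRing.residue A) M m hM h3 hπ hNk] at h
      exact h
    have hne := ord_ne_zero_of_ord_neg_three hrelL (by norm_num) (by norm_num) P hxL
    rcases lt_or_gt_of_ne hne with h | h
    · exact ord_neg_of_ord_ne_zero_three hrelk h27 h243 (r P)
        (ne_of_lt (ord_xt_neg_of_ord_x_neg hπ hsurj hNk _ hr P h))
    · exact ord_neg_of_ord_ne_zero_three hrelk h27 h243 (r P)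
        (ne_of_gt (ord_xt_pos_of_ord_x_pos hπ hsurj hNk _ hr P h))

/-! ### Integral functions at the finite places -/

set_option synthInstance.maxHeartbeats 400000 in
set_option maxHeartbeats 1000000 in
/-- **(E-b) at a good pair, general form.** `y` an integral series with `f = y ∈ ℚ̄·F_M` and
`f̄ ≠ 0`; if the poles of `f` are cusps and the zeros of `f` have order divisible by `e`, then
`e ∣ ord_Q f̄` at every finite place `Q` of the mod-`ℓ` function field. -/
theorem dvd_ord_red_of_good (M ℓ : ℕ) [NeZero M] (hℓ : ℓ.Prime) (hℓM : ¬ ℓ ∣ M)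
    (hgood : 5 ≤ ℓ ∨ (ℓ = 3 ∧ 2 ∣ M) ∨ (ℓ = 2 ∧ 3 ∣ M)) (hA : A.LiesOverPrime ℓ)
    (y : LaurentSeries A)
    (hy : coeffMap A.subtype y ∈ laurentBaseChange KQ (modularFunctionFieldFull M))
    (hyk : coeffMap (IsLocalRing.residue A) y ∈
      modularFunctionFieldFullC (IsLocalRing.ResidueField A) M)
    (hne : coeffMap (IsLocalRing.residue A) y ≠ 0) (e : ℤ)
    (hpole : ∀ P : Place KQ (FN M),
      P.ord (⟨coeffMap A.subtype y, hy⟩ : FN M) < 0 → P.ord (jBar M) < 0)
    (hzero : ∀ P : Place KQ (FN M), 0 < P.ord (⟨coeffMap A.subtype y, hy⟩ : FN M) →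
      e ∣ P.ord (⟨coeffMap A.subtype y, hy⟩ : FN M))
    (Q : Place (IsLocalRing.ResidueField A)
      ↥(modularFunctionFieldFullC (IsLocalRing.ResidueField A) M))
    (hQ : 0 ≤ Q.ord (Jbar (IsLocalRing.ResidueField A) M)) :
    e ∣ Q.ord (⟨coeffMap (IsLocalRing.residue A) y, hyk⟩ :
      ↥(modularFunctionFieldFullC (IsLocalRing.ResidueField A) M)) := by
  have : IsAlgClosed (IsLocalRing.ResidueField A) :=
    Fermat.Agent.Lib.FF.CharP.isAlgClosed_residueField A
  have hfd : FiniteDimensional KQ⟮jBar M⟯ (FN M) := finiteDimensional_jBar M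
  obtain ⟨ρ, hρ, -⟩ := reductionInputsModL_good M ℓ hℓ hℓM hgood A hA
  refine dvd_ord_red_of_fibre (jBar M) hρ y hy hyk hne e Q fun P hPQ => ?_
  rcases lt_trichotomy (P.ord (⟨coeffMap A.subtype y, hy⟩ : FN M)) 0 with h | h | h
  · exfalso
    have h1 := cusp_of_cusp A M ℓ hℓ hℓM hgood hA hρ P (hpole P h)
    rw [hPQ] at h1
    omega
  · rw [h]
    exact dvd_zero e
  · exact hzero P h

/-- A zero of `J̄ - c` is a finite place. -/
theorem ord_nonneg_of_ord_sub_pos {K F : Type*} [Field K] [Field F] [Algebra K F]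
    (v : Place K F) {x : F} (c : K) (h : 0 < v.ord (x - algebraMap K F c)) : 0 ≤ v.ord x := by
  by_contra hcon
  push Not at hcon
  have h1 := ord_add_algebraMap_of_neg v hcon (-c)
  rw [map_neg, ← sub_eq_add_neg] at h1
  omega

/-- A pole of `x - c` is a pole of `x`. -/
theorem ord_neg_of_ord_sub_neg {K F : Type*} [Field K] [Field F] [Algebra K F]
    (v : Place K F) {x : F} (c : K) (h : v.ord (x - algebraMap K F c) < 0) : v.ord x < 0 := by
  have h1 := ord_add_algebraMap_of_neg v h c
  rw [sub_add_cancel] at h1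
  omega

set_option synthInstance.maxHeartbeats 400000 in
set_option maxHeartbeats 1000000 in
/-- **(ELL) for `J̄ = J̄(q)`, the value `1728`**: at a good pair `(M, ℓ)` with a prime
`r ≡ 3 (mod 4)` dividing `M`, every zero of `J̄ - 1728` has even order. -/
theorem two_dvd_ord_Jbar_sub_1728 (M ℓ : ℕ) [NeZero M] (hℓ : ℓ.Prime) (hℓM : ¬ ℓ ∣ M)
    (hgood : 5 ≤ ℓ ∨ (ℓ = 3 ∧ 2 ∣ M) ∨ (ℓ = 2 ∧ 3 ∣ M)) (r : ℕ) (hr : r.Prime)
    (hr4 : r % 4 = 3) (hrM : r ∣ M) (hA : A.LiesOverPrime ℓ)
    (Q : Place (IsLocalRing.ResidueField A)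
      ↥(modularFunctionFieldFullC (IsLocalRing.ResidueField A) M))
    (hQ : 0 < Q.ord (Jbar (IsLocalRing.ResidueField A) M -
      algebraMap (IsLocalRing.ResidueField A) _ 1728)) :
    (2 : ℤ) ∣ Q.ord (Jbar (IsLocalRing.ResidueField A) M -
      algebraMap (IsLocalRing.ResidueField A) _ 1728) := by
  have : IsAlgClosed (IsLocalRing.ResidueField A) :=
    Fermat.Agent.Lib.FF.CharP.isAlgClosed_residueField A
  -- the integral series `J - 1728`
  have hyL : coeffMap A.subtype (jqModC A - HahnSeries.C (1728 : A)) =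
      ((jBar M - algebraMap KQ (FN M) 1728 : FN M) : LaurentSeries KQ) := by
    rw [map_sub, coeffMap_jqModC]
    show jqModC KQ - incl A (HahnSeries.C (1728 : A)) = _
    rw [incl_C, ← coe_jBar_eq_jqModC M]
    have e : (((1728 : A) : AlgebraicClosure ℚ)) = 1728 := rfl
    rw [e, ← coe_algebraMap_laurentBaseChange (N := M) (1728 : KQ)]
    rfl
  have hyk : coeffMap (IsLocalRing.residue A) (jqModC A - HahnSeries.C (1728 : A)) =
      ((Jbar (IsLocalRing.ResidueField A) M - algebraMap (IsLocalRing.ResidueField A) _ 1728 :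
        ↥(modularFunctionFieldFullC (IsLocalRing.ResidueField A) M)) :
          LaurentSeries (IsLocalRing.ResidueField A)) := by
    rw [map_sub, coeffMap_jqModC]
    show jqModC _ - rbar A (IsLocalRing.residue A) (HahnSeries.C (1728 : A)) = _
    rw [rbar_C, map_ofNat, ← coe_Jbar (IsLocalRing.ResidueField A) M,
      ← coe_algebraMap_fullC (N := M) (1728 : IsLocalRing.ResidueField A)]
    rfl
  have hmemL : coeffMap A.subtype (jqModC A - HahnSeries.C (1728 : A)) ∈
      laurentBaseChange KQ (modularFunctionFieldFull M) := by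
    rw [hyL]
    exact Subtype.property _
  have hmemk : coeffMap (IsLocalRing.residue A) (jqModC A - HahnSeries.C (1728 : A)) ∈
      modularFunctionFieldFullC (IsLocalRing.ResidueField A) M := by
    rw [hyk]
    exact Subtype.property _
  have heL : (⟨_, hmemL⟩ : FN M) = jBar M - algebraMap KQ (FN M) 1728 := Subtype.ext hyL
  have hek : (⟨_, hmemk⟩ : ↥(modularFunctionFieldFullC (IsLocalRing.ResidueField A) M)) =
      Jbar (IsLocalRing.ResidueField A) M - algebraMap (IsLocalRing.ResidueField A) _ 1728 :=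
    Subtype.ext hyk
  have hne : coeffMap (IsLocalRing.residue A) (jqModC A - HahnSeries.C (1728 : A)) ≠ 0 := by
    intro h0
    have h1 : Jbar (IsLocalRing.ResidueField A) M -
        algebraMap (IsLocalRing.ResidueField A) _ 1728 = 0 := by
      rw [← hek]
      exact Subtype.ext h0
    rw [h1, Place.ord_zero] at hQ
    exact lt_irrefl _ hQ
  have key := dvd_ord_red_of_good A M ℓ hℓ hℓM hgood hA _ hmemL hmemk hne 2 ?_ ?_ Q
    (ord_nonneg_of_ord_sub_pos Q 1728 hQ)
  · rw [hek] at key
    exact key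
  · intro P hP
    rw [heL] at hP
    exact ord_neg_of_ord_sub_neg P 1728 hP
  · intro P hP
    rw [heL] at hP ⊢
    rw [ord_jBar_sub_1728_eq_two M r hr hr4 hrM P hP]

set_option synthInstance.maxHeartbeats 400000 in
set_option maxHeartbeats 1000000 in
/-- **(ELL) for `J̄ = J̄(q)`, the value `0`**: at a good pair `(M, ℓ)` with a prime
`r ≡ 2 (mod 3)` dividing `M`, every zero of `J̄` has order divisible by `3`. -/
theorem three_dvd_ord_Jbar (M ℓ : ℕ) [NeZero M] (hℓ : ℓ.Prime) (hℓM : ¬ ℓ ∣ M)
    (hgood : 5 ≤ ℓ ∨ (ℓ = 3 ∧ 2 ∣ M) ∨ (ℓ = 2 ∧ 3 ∣ M)) (r : ℕ) (hr : r.Prime)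
    (hr3 : r % 3 = 2) (hrM : r ∣ M) (hA : A.LiesOverPrime ℓ)
    (Q : Place (IsLocalRing.ResidueField A)
      ↥(modularFunctionFieldFullC (IsLocalRing.ResidueField A) M))
    (hQ : 0 < Q.ord (Jbar (IsLocalRing.ResidueField A) M)) :
    (3 : ℤ) ∣ Q.ord (Jbar (IsLocalRing.ResidueField A) M) := by
  have : IsAlgClosed (IsLocalRing.ResidueField A) :=
    Fermat.Agent.Lib.FF.CharP.isAlgClosed_residueField A
  have hyL : coeffMap A.subtype (jqModC A) = ((jBar M : FN M) : LaurentSeries KQ) := by
    rw [coeffMap_jqModC, coe_jBar_eq_jqModC M]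
  have hyk : coeffMap (IsLocalRing.residue A) (jqModC A) =
      ((Jbar (IsLocalRing.ResidueField A) M :
        ↥(modularFunctionFieldFullC (IsLocalRing.ResidueField A) M)) :
          LaurentSeries (IsLocalRing.ResidueField A)) := by
    rw [coeffMap_jqModC, coe_Jbar]
  have hmemL : coeffMap A.subtype (jqModC A) ∈
      laurentBaseChange KQ (modularFunctionFieldFull M) := by
    rw [hyL]
    exact Subtype.property _
  have hmemk : coeffMap (IsLocalRing.residue A) (jqModC A) ∈
      modularFunctionFieldFullC (IsLocalRing.ResidueField A) M := by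
    rw [hyk]
    exact Subtype.property _
  have heL : (⟨_, hmemL⟩ : FN M) = jBar M := Subtype.ext hyL
  have hek : (⟨_, hmemk⟩ : ↥(modularFunctionFieldFullC (IsLocalRing.ResidueField A) M)) =
      Jbar (IsLocalRing.ResidueField A) M := Subtype.ext hyk
  have hne : coeffMap (IsLocalRing.residue A) (jqModC A) ≠ 0 := by
    intro h0
    have h1 : Jbar (IsLocalRing.ResidueField A) M = 0 := by
      rw [← hek]
      exact Subtype.ext h0
    rw [h1, Place.ord_zero] at hQ
    exact lt_irrefl _ hQ
  have key := dvd_ord_red_of_good A M ℓ hℓ hℓM hgood hA _ hmemL hmemk hne 3 ?_ ?_ Q hQ.le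
  · rw [hek] at key
    exact key
  · intro P hP
    rw [heL] at hP
    exact hP
  · intro P hP
    rw [heL] at hP ⊢
    rw [ord_jBar_eq_three M r hr hr3 hrM P hP]

/-! ### The Hauptmodul coordinates (`ℓ = 3`: level `2`; `ℓ = 2`: level `3`) -/

/-- A polynomial relation between `J` and an integral series `y`, valid in `ℚ̄·F_M`, reduces
modulo `ℓ`: the general principle, for a relation given as the vanishing of an integral
series. -/
theorem red_eq_zero_of_incl_eq_zero {k : Type*} [Field k] (π : A →+* k) (w : LaurentSeries A)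
    (h : coeffMap A.subtype w = 0) : coeffMap π w = 0 := by
  have h1 : w = 0 := incl_injective A (by rw [map_zero]; exact h)
  rw [h1, map_zero]

set_option synthInstance.maxHeartbeats 400000 in
set_option maxHeartbeats 1000000 in
/-- **(ELL), level-`2` Hauptmodul coordinate** (for `ℓ = 3`; valid at every good pair with
`ℓ ≠ 2`): `h` an integral series in `ℚ̄·F_M` with `J h² = (h + 256)³`, and a prime
`r ≡ 3 (mod 4)` dividing `M`.  Then every zero of `h̄ + 64` at a finite place has even order. -/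
theorem two_dvd_ord_add_64_of_rel (M ℓ : ℕ) [NeZero M] (hℓ : ℓ.Prime) (hℓM : ¬ ℓ ∣ M)
    (hgood : 5 ≤ ℓ ∨ (ℓ = 3 ∧ 2 ∣ M) ∨ (ℓ = 2 ∧ 3 ∣ M)) (hℓ2 : ℓ ≠ 2) (r : ℕ) (hr : r.Prime)
    (hr4 : r % 4 = 3) (hrM : r ∣ M) (hA : A.LiesOverPrime ℓ)
    (y : LaurentSeries A)
    (hy : coeffMap A.subtype y ∈ laurentBaseChange KQ (modularFunctionFieldFull M))
    (hyk : coeffMap (IsLocalRing.residue A) y ∈
      modularFunctionFieldFullC (IsLocalRing.ResidueField A) M)
    (hrel : jBar M * (⟨coeffMap A.subtype y, hy⟩ : FN M) ^ 2 =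
      ((⟨coeffMap A.subtype y, hy⟩ : FN M) + 256) ^ 3)
    (Q : Place (IsLocalRing.ResidueField A)
      ↥(modularFunctionFieldFullC (IsLocalRing.ResidueField A) M))
    (hQ : 0 ≤ Q.ord (Jbar (IsLocalRing.ResidueField A) M)) :
    (2 : ℤ) ∣ Q.ord ((⟨coeffMap (IsLocalRing.residue A) y, hyk⟩ :
      ↥(modularFunctionFieldFullC (IsLocalRing.ResidueField A) M)) -
        algebraMap (IsLocalRing.ResidueField A) _ (-64)) := by
  have : IsAlgClosed (IsLocalRing.ResidueField A) :=
    Fermat.Agent.Lib.FF.CharP.isAlgClosed_residueField A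
  have h64 : (64 : IsLocalRing.ResidueField A) ≠ 0 := by
    have := natCast_residue_ne_zero' A hℓ hA 64 (by
      intro hdvd
      have h1 : ℓ ∣ 2 ^ 6 := by norm_num; exact hdvd
      exact hℓ2 ((Nat.prime_dvd_prime_iff_eq hℓ Nat.prime_two).mp (hℓ.dvd_of_dvd_pow h1)))
    exact_mod_cast this
  -- the relation modulo `ℓ`
  have hrelA : coeffMap A.subtype (jqModC A * y ^ 2 - (y + 256) ^ 3) = 0 := by
    have h1 := congrArg (fun z : FN M => (z : LaurentSeries KQ)) hrel
    rw [map_sub, map_mul, map_pow, map_pow, map_add, map_ofNat, coeffMap_jqModC,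
      ← coe_jBar_eq_jqModC M]
    exact sub_eq_zero.mpr h1
  have hrelk : Jbar (IsLocalRing.ResidueField A) M *
      (⟨coeffMap (IsLocalRing.residue A) y, hyk⟩ :
        ↥(modularFunctionFieldFullC (IsLocalRing.ResidueField A) M)) ^ 2 =
      ((⟨coeffMap (IsLocalRing.residue A) y, hyk⟩ :
        ↥(modularFunctionFieldFullC (IsLocalRing.ResidueField A) M)) + 256) ^ 3 := by
    apply Subtype.ext
    have h1 := red_eq_zero_of_incl_eq_zero A (IsLocalRing.residue A) _ hrelA
    rw [map_sub, map_mul, map_pow, map_pow, map_add, map_ofNat, coeffMap_jqModC] at h1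
    exact sub_eq_zero.mp h1
  -- the integral series `h + 64`
  have hyL : coeffMap A.subtype (y - HahnSeries.C (-64 : A)) =
      (((⟨coeffMap A.subtype y, hy⟩ : FN M) - algebraMap KQ (FN M) (-64) : FN M) :
        LaurentSeries KQ) := by
    rw [map_sub]
    show coeffMap A.subtype y - incl A (HahnSeries.C (-64 : A)) = _
    rw [incl_C]
    have e : (((-64 : A) : AlgebraicClosure ℚ)) = -64 := rfl
    rw [e, ← coe_algebraMap_laurentBaseChange (N := M) (-64 : KQ)]
    rfl
  have hyk' : coeffMap (IsLocalRing.residue A) (y - HahnSeries.C (-64 : A)) =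
      (((⟨coeffMap (IsLocalRing.residue A) y, hyk⟩ :
        ↥(modularFunctionFieldFullC (IsLocalRing.ResidueField A) M)) -
          algebraMap (IsLocalRing.ResidueField A) _ (-64) :
        ↥(modularFunctionFieldFullC (IsLocalRing.ResidueField A) M)) :
          LaurentSeries (IsLocalRing.ResidueField A)) := by
    rw [map_sub]
    show coeffMap (IsLocalRing.residue A) y -
      rbar A (IsLocalRing.residue A) (HahnSeries.C (-64 : A)) = _
    rw [rbar_C, map_neg, map_ofNat,
      ← coe_algebraMap_fullC (N := M) (-64 : IsLocalRing.ResidueField A)]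
    rfl
  have hmemL : coeffMap A.subtype (y - HahnSeries.C (-64 : A)) ∈
      laurentBaseChange KQ (modularFunctionFieldFull M) := by
    rw [hyL]
    exact Subtype.property _
  have hmemk : coeffMap (IsLocalRing.residue A) (y - HahnSeries.C (-64 : A)) ∈
      modularFunctionFieldFullC (IsLocalRing.ResidueField A) M := by
    rw [hyk']
    exact Subtype.property _
  have heL : (⟨_, hmemL⟩ : FN M) =
      (⟨coeffMap A.subtype y, hy⟩ : FN M) - algebraMap KQ (FN M) (-64) := Subtype.ext hyL
  have hek : (⟨_, hmemk⟩ : ↥(modularFunctionFieldFullC (IsLocalRing.ResidueField A) M)) =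
      (⟨coeffMap (IsLocalRing.residue A) y, hyk⟩ :
        ↥(modularFunctionFieldFullC (IsLocalRing.ResidueField A) M)) -
          algebraMap (IsLocalRing.ResidueField A) _ (-64) := Subtype.ext hyk'
  have hne : coeffMap (IsLocalRing.residue A) (y - HahnSeries.C (-64 : A)) ≠ 0 := by
    intro h0
    have h1 : (⟨coeffMap (IsLocalRing.residue A) y, hyk⟩ :
        ↥(modularFunctionFieldFullC (IsLocalRing.ResidueField A) M)) =
          algebraMap (IsLocalRing.ResidueField A) _ (-64) := by
      rw [← sub_eq_zero, ← hek]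
      exact Subtype.ext h0
    rw [h1] at hrelk
    have h2 : Jbar (IsLocalRing.ResidueField A) M =
        algebraMap (IsLocalRing.ResidueField A) _ ((-64 + 256) ^ 3 / (-64) ^ 2) := by
      rw [map_div₀, map_pow, map_pow, map_add, map_ofNat, eq_div_iff]
      · exact hrelk
      · apply pow_ne_zero
        rw [map_neg, neg_ne_zero, map_ofNat]
        intro h3
        apply h64
        apply (algebraMap (IsLocalRing.ResidueField A)
          ↥(modularFunctionFieldFullC (IsLocalRing.ResidueField A) M)).injective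
        rw [map_ofNat, map_zero]
        exact h3
    exact transcendental_Jbar (IsLocalRing.ResidueField A) M
      (by rw [h2]; exact isAlgebraic_algebraMap _)
  have key := dvd_ord_red_of_good A M ℓ hℓ hℓM hgood hA _ hmemL hmemk hne 2 ?_ ?_ Q hQ
  · rw [hek] at key
    exact key
  · intro P hP
    rw [heL] at hP
    exact ord_neg_of_rel_two hrel P (ord_neg_of_ord_sub_neg P (-64) hP)
  · intro P hP
    rw [heL] at hP ⊢
    rw [ord_add_64_eq_two_of_rel hrel P (ord_jBar_sub_1728_eq_two M r hr hr4 hrM P) hP]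

set_option synthInstance.maxHeartbeats 400000 in
set_option maxHeartbeats 1000000 in
/-- **(ELL), level-`3` Hauptmodul coordinate** (for `ℓ = 2`; valid at every good pair with
`ℓ ≠ 3`): `h` an integral series in `ℚ̄·F_M` with `J h³ = (h + 27)(h + 243)³`, and a prime
`r ≡ 2 (mod 3)` dividing `M`.  Then every zero of `h̄ + 27` at a finite place has order divisible
by `3`. -/
theorem three_dvd_ord_add_27_of_rel (M ℓ : ℕ) [NeZero M] (hℓ : ℓ.Prime) (hℓM : ¬ ℓ ∣ M)
    (hgood : 5 ≤ ℓ ∨ (ℓ = 3 ∧ 2 ∣ M) ∨ (ℓ = 2 ∧ 3 ∣ M)) (hℓ3 : ℓ ≠ 3) (r : ℕ) (hr : r.Prime)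
    (hr3 : r % 3 = 2) (hrM : r ∣ M) (hA : A.LiesOverPrime ℓ)
    (y : LaurentSeries A)
    (hy : coeffMap A.subtype y ∈ laurentBaseChange KQ (modularFunctionFieldFull M))
    (hyk : coeffMap (IsLocalRing.residue A) y ∈
      modularFunctionFieldFullC (IsLocalRing.ResidueField A) M)
    (hrel : jBar M * (⟨coeffMap A.subtype y, hy⟩ : FN M) ^ 3 =
      ((⟨coeffMap A.subtype y, hy⟩ : FN M) + 27) * ((⟨coeffMap A.subtype y, hy⟩ : FN M) + 243) ^ 3)
    (Q : Place (IsLocalRing.ResidueField A)
      ↥(modularFunctionFieldFullC (IsLocalRing.ResidueField A) M))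
    (hQ : 0 ≤ Q.ord (Jbar (IsLocalRing.ResidueField A) M)) :
    (3 : ℤ) ∣ Q.ord ((⟨coeffMap (IsLocalRing.residue A) y, hyk⟩ :
      ↥(modularFunctionFieldFullC (IsLocalRing.ResidueField A) M)) -
        algebraMap (IsLocalRing.ResidueField A) _ (-27)) := by
  have : IsAlgClosed (IsLocalRing.ResidueField A) :=
    Fermat.Agent.Lib.FF.CharP.isAlgClosed_residueField A
  have h27 : (27 : IsLocalRing.ResidueField A) ≠ 0 := by
    have := natCast_residue_ne_zero' A hℓ hA 27 (by
      intro hdvd
      have h1 : ℓ ∣ 3 ^ 3 := by norm_num; exact hdvd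
      exact hℓ3 ((Nat.prime_dvd_prime_iff_eq hℓ Nat.prime_three).mp (hℓ.dvd_of_dvd_pow h1)))
    exact_mod_cast this
  -- the relation modulo `ℓ`
  have hrelA : coeffMap A.subtype (jqModC A * y ^ 3 - (y + 27) * (y + 243) ^ 3) = 0 := by
    have h1 := congrArg (fun z : FN M => (z : LaurentSeries KQ)) hrel
    rw [map_sub, map_mul, map_mul, map_pow, map_pow, map_add, map_add, map_ofNat, map_ofNat,
      coeffMap_jqModC, ← coe_jBar_eq_jqModC M]
    exact sub_eq_zero.mpr h1
  have hrelk : Jbar (IsLocalRing.ResidueField A) M *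
      (⟨coeffMap (IsLocalRing.residue A) y, hyk⟩ :
        ↥(modularFunctionFieldFullC (IsLocalRing.ResidueField A) M)) ^ 3 =
      ((⟨coeffMap (IsLocalRing.residue A) y, hyk⟩ :
        ↥(modularFunctionFieldFullC (IsLocalRing.ResidueField A) M)) + 27) *
      ((⟨coeffMap (IsLocalRing.residue A) y, hyk⟩ :
        ↥(modularFunctionFieldFullC (IsLocalRing.ResidueField A) M)) + 243) ^ 3 := by
    apply Subtype.ext
    have h1 := red_eq_zero_of_incl_eq_zero A (IsLocalRing.residue A) _ hrelA
    rw [map_sub, map_mul, map_mul, map_pow, map_pow, map_add, map_add, map_ofNat, map_ofNat,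
      coeffMap_jqModC] at h1
    exact sub_eq_zero.mp h1
  -- the integral series `h + 27`
  have hyL : coeffMap A.subtype (y - HahnSeries.C (-27 : A)) =
      (((⟨coeffMap A.subtype y, hy⟩ : FN M) - algebraMap KQ (FN M) (-27) : FN M) :
        LaurentSeries KQ) := by
    rw [map_sub]
    show coeffMap A.subtype y - incl A (HahnSeries.C (-27 : A)) = _
    rw [incl_C]
    have e : (((-27 : A) : AlgebraicClosure ℚ)) = -27 := rfl
    rw [e, ← coe_algebraMap_laurentBaseChange (N := M) (-27 : KQ)]
    rfl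
  have hyk' : coeffMap (IsLocalRing.residue A) (y - HahnSeries.C (-27 : A)) =
      (((⟨coeffMap (IsLocalRing.residue A) y, hyk⟩ :
        ↥(modularFunctionFieldFullC (IsLocalRing.ResidueField A) M)) -
          algebraMap (IsLocalRing.ResidueField A) _ (-27) :
        ↥(modularFunctionFieldFullC (IsLocalRing.ResidueField A) M)) :
          LaurentSeries (IsLocalRing.ResidueField A)) := by
    rw [map_sub]
    show coeffMap (IsLocalRing.residue A) y -
      rbar A (IsLocalRing.residue A) (HahnSeries.C (-27 : A)) = _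
    rw [rbar_C, map_neg, map_ofNat,
      ← coe_algebraMap_fullC (N := M) (-27 : IsLocalRing.ResidueField A)]
    rfl
  have hmemL : coeffMap A.subtype (y - HahnSeries.C (-27 : A)) ∈
      laurentBaseChange KQ (modularFunctionFieldFull M) := by
    rw [hyL]
    exact Subtype.property _
  have hmemk : coeffMap (IsLocalRing.residue A) (y - HahnSeries.C (-27 : A)) ∈
      modularFunctionFieldFullC (IsLocalRing.ResidueField A) M := by
    rw [hyk']
    exact Subtype.property _
  have heL : (⟨_, hmemL⟩ : FN M) =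
      (⟨coeffMap A.subtype y, hy⟩ : FN M) - algebraMap KQ (FN M) (-27) := Subtype.ext hyL
  have hek : (⟨_, hmemk⟩ : ↥(modularFunctionFieldFullC (IsLocalRing.ResidueField A) M)) =
      (⟨coeffMap (IsLocalRing.residue A) y, hyk⟩ :
        ↥(modularFunctionFieldFullC (IsLocalRing.ResidueField A) M)) -
          algebraMap (IsLocalRing.ResidueField A) _ (-27) := Subtype.ext hyk'
  have hne : coeffMap (IsLocalRing.residue A) (y - HahnSeries.C (-27 : A)) ≠ 0 := by
    intro h0
    have h1 : (⟨coeffMap (IsLocalRing.residue A) y, hyk⟩ :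
        ↥(modularFunctionFieldFullC (IsLocalRing.ResidueField A) M)) =
          algebraMap (IsLocalRing.ResidueField A) _ (-27) := by
      rw [← sub_eq_zero, ← hek]
      exact Subtype.ext h0
    rw [h1] at hrelk
    have h27F : algebraMap (IsLocalRing.ResidueField A)
        ↥(modularFunctionFieldFullC (IsLocalRing.ResidueField A) M) (-27) ≠ 0 := by
      rw [map_neg, neg_ne_zero, map_ofNat]
      intro h3
      apply h27
      apply (algebraMap (IsLocalRing.ResidueField A)
        ↥(modularFunctionFieldFullC (IsLocalRing.ResidueField A) M)).injective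
      rw [map_ofNat, map_zero]
      exact h3
    have h2 : Jbar (IsLocalRing.ResidueField A) M = 0 := by
      have h4 : algebraMap (IsLocalRing.ResidueField A)
          ↥(modularFunctionFieldFullC (IsLocalRing.ResidueField A) M) (-27) + 27 = 0 := by
        rw [map_neg, map_ofNat]
        ring
      rw [h4, zero_mul] at hrelk
      rcases mul_eq_zero.mp hrelk with h5 | h5
      · exact h5
      · exact absurd (pow_eq_zero_iff (three_ne_zero)|>.mp h5) h27F
    exact transcendental_Jbar (IsLocalRing.ResidueField A) M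
      (by rw [h2]; exact isAlgebraic_zero)
  have key := dvd_ord_red_of_good A M ℓ hℓ hℓM hgood hA _ hmemL hmemk hne 3 ?_ ?_ Q hQ
  · rw [hek] at key
    exact key
  · intro P hP
    rw [heL] at hP
    exact ord_neg_of_rel_three hrel P (ord_neg_of_ord_sub_neg P (-27) hP)
  · intro P hP
    rw [heL] at hP ⊢
    rw [ord_add_27_eq_three_of_rel hrel P (ord_jBar_eq_three M r hr hr3 hrM P) hP]

end

end Fermat.Agent.CAR.Ell
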