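/-
CAR, wall (ELL), closing step for `ℓ ≥ 5`: the hypotheses `hE0`, `hE1728` of helper14's
`Local.Inst.EllJ.ellStruct_J` in their literal shape, and the resulting elliptic structure at every
finite place of the mod-`ℓ` function field of a good level `M` (`ℓ ∤ M`, `ℓ ≥ 5`, a prime
`r ≡ 11 (mod 12)` dividing `M`).

* `hE1728_good`, `hE0_good` : `e₀ ∣ ord_s (J̄ - c)` at the zeros of `J̄ - c`, `c = 1728, 0`,
  `e₀ = 2, 3` (any good pair);
* `ellStruct_J_good` : `EllC.EllStruct (dJ) J̄ (J̄⁸ (J̄ - 1728)⁶) Vs` at every finite place `Vs`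
  where `G` vanishes (`ℓ ≥ 5`).
-/
import Mathlib
import Fermat.Agent.CAR.Ell.InstJ
import Fermat.Agent.CAR.Local.Inst.EllJ

set_option autoImplicit false
set_option linter.unusedSectionVars false

namespace Fermat.Agent.CAR.Ell

open ModularCurve AlgebraicCurve Fermat.Agent.S28 Fermat.Agent.S24 Fermat.Agent.Lib.Red
open Fermat.Agent.ESJ Fermat.Agent.Lib.FF.ModL

noncomputable section

variable (A : ValuationSubring (AlgebraicClosure ℚ))

/-- **`hE1728`** of `EllJ.ellStruct_J` at a good pair. -/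
theorem hE1728_good (M ℓ : ℕ) [NeZero M] (hℓ : ℓ.Prime) (hℓM : ¬ ℓ ∣ M)
    (hgood : 5 ≤ ℓ ∨ (ℓ = 3 ∧ 2 ∣ M) ∨ (ℓ = 2 ∧ 3 ∣ M)) (r : ℕ) (hr : r.Prime)
    (hr4 : r % 4 = 3) (hrM : r ∣ M) (hA : A.LiesOverPrime ℓ) :
    ∀ s : Place (IsLocalRing.ResidueField A)
        (modularFunctionFieldFullC (IsLocalRing.ResidueField A) M),
      0 < s.ord (Jbar (IsLocalRing.ResidueField A) M -
        algebraMap (IsLocalRing.ResidueField A)
          (modularFunctionFieldFullC (IsLocalRing.ResidueField A) M) 1728) →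
      ((2 : ℕ) : ℤ) ∣ s.ord (Jbar (IsLocalRing.ResidueField A) M -
        algebraMap (IsLocalRing.ResidueField A)
          (modularFunctionFieldFullC (IsLocalRing.ResidueField A) M) 1728) := by
  intro s hs
  exact_mod_cast two_dvd_ord_Jbar_sub_1728 A M ℓ hℓ hℓM hgood r hr hr4 hrM hA s hs

/-- **`hE0`** of `EllJ.ellStruct_J` at a good pair. -/
theorem hE0_good (M ℓ : ℕ) [NeZero M] (hℓ : ℓ.Prime) (hℓM : ¬ ℓ ∣ M)
    (hgood : 5 ≤ ℓ ∨ (ℓ = 3 ∧ 2 ∣ M) ∨ (ℓ = 2 ∧ 3 ∣ M)) (r : ℕ) (hr : r.Prime)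
    (hr3 : r % 3 = 2) (hrM : r ∣ M) (hA : A.LiesOverPrime ℓ) :
    ∀ s : Place (IsLocalRing.ResidueField A)
        (modularFunctionFieldFullC (IsLocalRing.ResidueField A) M),
      0 < s.ord (Jbar (IsLocalRing.ResidueField A) M -
        algebraMap (IsLocalRing.ResidueField A)
          (modularFunctionFieldFullC (IsLocalRing.ResidueField A) M) 0) →
      ((3 : ℕ) : ℤ) ∣ s.ord (Jbar (IsLocalRing.ResidueField A) M -
        algebraMap (IsLocalRing.ResidueField A)
          (modularFunctionFieldFullC (IsLocalRing.ResidueField A) M) 0) := by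
  intro s hs
  rw [map_zero, sub_zero] at hs ⊢
  exact_mod_cast three_dvd_ord_Jbar A M ℓ hℓ hℓM hgood r hr hr3 hrM hA s hs

/-- **The elliptic structure at every finite place, `ℓ ≥ 5`**: the conclusion of
`EllJ.ellStruct_J` at a good level with an auxiliary prime `r ≡ 11 (mod 12)`.  (The instance
`IsAlgClosed (ResidueField A)` is `Lib.FF.CharP.isAlgClosed_residueField A`.) -/
theorem ellStruct_J_good [IsAlgClosed (IsLocalRing.ResidueField A)] (M ℓ : ℕ) [NeZero M]
    (hℓ : ℓ.Prime) (hℓM : ¬ ℓ ∣ M) (h5 : 5 ≤ ℓ)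
    (r : ℕ) (hr : r.Prime) (hr12 : r ≡ 11 [MOD 12]) (hrM : r ∣ M) (hA : A.LiesOverPrime ℓ)
    (Vs : ValuationSubring (modularFunctionFieldFullC (IsLocalRing.ResidueField A) M))
    (hk : ∀ c : IsLocalRing.ResidueField A,
      algebraMap (IsLocalRing.ResidueField A)
        (modularFunctionFieldFullC (IsLocalRing.ResidueField A) M) c ∈ Vs)
    (htop : Vs ≠ ⊤) (hJ : Jbar (IsLocalRing.ResidueField A) M ∈ Vs)
    (hG : Fermat.Agent.CAR.Local.Inst.Deriv.GJ (IsLocalRing.ResidueField A) M ∈ Vs.nonunits) :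
    Fermat.Agent.CAR.Local.Inst.EllC.EllStruct
      (Fermat.Agent.CAR.Local.Inst.Deriv.dJ (IsLocalRing.ResidueField A) M)
      (Jbar (IsLocalRing.ResidueField A) M)
      (Fermat.Agent.CAR.Local.Inst.Deriv.GJ (IsLocalRing.ResidueField A) M) Vs := by
  obtain ⟨hr4, hr3⟩ := mod_of_modEq_eleven hr12
  have h2 : (2 : IsLocalRing.ResidueField A) ≠ 0 := by
    have := natCast_residue_ne_zero' A hℓ hA 2 (fun h => by
      have := Nat.le_of_dvd (by norm_num) h
      omega)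
    exact_mod_cast this
  have h3 : (3 : IsLocalRing.ResidueField A) ≠ 0 := by
    have := natCast_residue_ne_zero' A hℓ hA 3 (fun h => by
      have := Nat.le_of_dvd (by norm_num) h
      omega)
    exact_mod_cast this
  exact Fermat.Agent.CAR.Local.Inst.EllJ.ellStruct_J (IsLocalRing.ResidueField A) M h2 h3
    (hE0_good A M ℓ hℓ hℓM (Or.inl h5) r hr hr3 hrM hA)
    (hE1728_good A M ℓ hℓ hℓM (Or.inl h5) r hr hr4 hrM hA) Vs hk htop hJ hG

end

end Fermat.Agent.CAR.Ell
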