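/-
CAR (ELL), residue characteristic `3`: the modular relation of the Hauptmodul of level `2` with
`J(q)` (convention (A)).

`Lib/Red/HauptSeries.lean` has the relation of `yInf A 2 = 2¹² Δ(q²)/Δ(q)` with `J(q²)`.  Here is
its Fricke dual, the relation of `u1 A 2 = Δ(q)/Δ(q²)` with `J(q)` itself:

* `relA2 : jqModC A * u1 A 2 ^ 2 = (u1 A 2 + 256) ^ 3`   (any commutative ring `A`).

It is the identity `E₄(τ)³ Δ(τ) Δ(2τ) = (Δ(τ) + 256 Δ(2τ))³` (`level2A_formal`; Sturm bound in
`M₃₆(Γ₀(2))`, 10 coefficients).  The level `3` analogue is in `CAR/Ell/HauptRelA3.lean`.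
-/
import Mathlib
import Fermat.Agent.Lib.Red.HauptSeries
import Fermat.Agent.CAR.V3.UnitData

set_option autoImplicit false

open UpperHalfPlane ModularForm Filter Topology
open scoped MatrixGroups ModularForm Manifold

namespace Fermat.Agent.CAR.Ell.HauptRelA

open Fermat.Agent.Lib.Red.HauptForms Fermat.Agent.Lib.Red.HauptTrunc ModularCurve

noncomputable section

/-! ## Level 2: the formal identity -/

section Level2Forms

open Fermat.Agent.Lib.Red.HauptLevel2

local notation "Γ2" => (CongruenceSubgroup.Gamma0 2 : Subgroup SL(2, ℤ))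

/-- `E₄(τ)` on `Γ₀(2)` -/
def e1 : ModularForm Γ2 4 := resForm 2 E₄

theorem qExpansion_e1 : qExpansion 1 e1 = PowerSeries.map (Int.castRingHom ℂ) eisenstein4 :=
  Fermat.Agent.S28.DeltaBridge.qExpansion_E4

/-- `E₄(τ)³ Δ(τ) Δ(2τ)`, up to the factor `2¹¹` -/
def formA2 : ModularForm Γ2 36 := ModularForm.mcast (by norm_num) ((e1.pow 3).mul (d1.mul d2))

/-- `(Δ(τ) + 256 Δ(2τ))³`, up to the factor `2⁹` -/
def formB2 : ModularForm Γ2 36 :=
  ModularForm.mcast (by norm_num) (((8 : ℂ) • d1 + d2).pow 3)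

/-- the difference, a form of weight `36` on `Γ₀(2)` -/
def formF2 : ModularForm Γ2 36 := formA2 - (4 : ℂ) • formB2

/-- the integral `q`-expansion of `formF2` -/
def sF2 : PowerSeries ℤ :=
  eisenstein4 ^ 3 * (sD * sD2) - PowerSeries.C 4 * (PowerSeries.C 8 * sD + sD2) ^ 3

theorem qExpansion_formF2 : qExpansion 1 formF2 = PowerSeries.map (Int.castRingHom ℂ) sF2 := by
  have hΓ := CongruenceSubgroup.one_mem_strictPeriods_Gamma0 2
  have h1 : qExpansion 1 formF2 = qExpansion 1 formA2 - qExpansion 1 ((4 : ℂ) • formB2) :=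
    ModularForm.qExpansion_sub one_pos hΓ formA2 ((4 : ℂ) • formB2)
  have h2 : qExpansion 1 ((4 : ℂ) • formB2) = (4 : ℂ) • qExpansion 1 formB2 :=
    ModularForm.qExpansion_smul one_pos hΓ 4 formB2
  have h3 : qExpansion 1 formA2 = qExpansion 1 (e1.pow 3) * qExpansion 1 (d1.mul d2) :=
    ModularForm.qExpansion_mul one_pos hΓ (e1.pow 3) (d1.mul d2)
  have h4 : qExpansion 1 (e1.pow 3) = qExpansion 1 e1 ^ 3 :=
    ModularForm.qExpansion_pow one_pos hΓ e1 3
  have h5 : qExpansion 1 (d1.mul d2) = qExpansion 1 d1 * qExpansion 1 d2 :=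
    ModularForm.qExpansion_mul one_pos hΓ d1 d2
  have h6 : qExpansion 1 formB2 = qExpansion 1 ((8 : ℂ) • d1 + d2) ^ 3 :=
    ModularForm.qExpansion_pow one_pos hΓ ((8 : ℂ) • d1 + d2) 3
  have h7 : qExpansion 1 ((8 : ℂ) • d1 + d2) = qExpansion 1 ((8 : ℂ) • d1) + qExpansion 1 d2 :=
    ModularForm.qExpansion_add one_pos hΓ ((8 : ℂ) • d1) d2
  have h8 : qExpansion 1 ((8 : ℂ) • d1) = (8 : ℂ) • qExpansion 1 d1 :=
    ModularForm.qExpansion_smul one_pos hΓ 8 d1
  rw [h1, h2, h3, h4, h5, h6, h7, h8, qExpansion_e1, qExpansion_d1, qExpansion_d2, sF2]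
  simp only [map_sub, map_mul, map_pow, map_add, PowerSeries.map_C]
  simp [Algebra.smul_def]

set_option maxRecDepth 100000 in
/-- The first ten coefficients of `sF2` vanish. -/
theorem approx_sF2 : Approx 10 sF2 (List.replicate 10 0) := by
  have hE := approx_eisenstein4 10
  have hU := approx_dedekindEtaUnit 10
  have hsD : Approx 10 sD (lshift 10 1 (lpow 10 (lEta 10 10) 24)) := by
    have := hU.shift 1
    rwa [pow_one] at this
  have hsD2 : Approx 10 sD2 _ := (hsD.expand 2 two_ne_zero).smul 2048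
  have h := ((hE.pow 3).mul (hsD.mul hsD2)).sub ((((hsD.smul 8).add hsD2).pow 3).smul 4)
  exact h.congr (by decide +kernel)

/-- Sturm: the form `formF2` vanishes. -/
theorem formF2_eq_zero : formF2 = 0 := by
  apply ModularForm.sturm_bound_Gamma0 2
  intro n hn
  rw [index_Gamma0_two] at hn
  have hn' : n < 10 := by
    have h9 : ((36 : ℤ) * ((3 : ℕ) : ℤ)).toNat / 12 = 9 := by decide
    omega
  rw [qExpansion_formF2, PowerSeries.coeff_map, approx_sF2.zero_of n hn', map_zero]

theorem sF2_eq_zero : sF2 = 0 := by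
  have h := qExpansion_formF2
  rw [formF2_eq_zero] at h
  have h0 : qExpansion 1 ((0 : ModularForm Γ2 36) : ℍ → ℂ) = 0 := qExpansion_zero 1
  rw [h0] at h
  ext n
  have h1 := congrArg (PowerSeries.coeff n) h
  rw [PowerSeries.coeff_map, map_zero] at h1
  rw [map_zero]
  have h2 : (((PowerSeries.coeff n) sF2 : ℤ) : ℂ) = 0 := h1.symm
  exact_mod_cast h2

/-- **The level 2 identity for `J(q)`**: `E₄(τ)³ Δ(τ) Δ(2τ) = (Δ(τ) + 256 Δ(2τ))³`, as an
identity of integral power series (after division by `q³`). -/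
theorem level2A_formal :
    eisenstein4 ^ 3 * dedekindEtaUnit * PowerSeries.expand 2 two_ne_zero dedekindEtaUnit =
      (dedekindEtaUnit +
        256 * (PowerSeries.X * PowerSeries.expand 2 two_ne_zero dedekindEtaUnit)) ^ 3 := by
  have hX : PowerSeries.expand 2 two_ne_zero (PowerSeries.X * dedekindEtaUnit) =
      PowerSeries.X ^ 2 * PowerSeries.expand 2 two_ne_zero dedekindEtaUnit := by
    rw [map_mul, PowerSeries.expand_X]
  have key : sF2 = PowerSeries.C 2048 * PowerSeries.X ^ 3 *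
      (eisenstein4 ^ 3 * dedekindEtaUnit * PowerSeries.expand 2 two_ne_zero dedekindEtaUnit -
      (dedekindEtaUnit +
        256 * (PowerSeries.X * PowerSeries.expand 2 two_ne_zero dedekindEtaUnit)) ^ 3) := by
    rw [sF2, sD, sD2, hX]
    simp only [map_ofNat]
    ring
  have h := sF2_eq_zero
  rw [key] at h
  have hc : (PowerSeries.C (2048 : ℤ)) ≠ 0 := by
    rw [Ne, ← map_zero (PowerSeries.C (R := ℤ))]
    intro h'
    have := PowerSeries.C_injective h'
    norm_num at this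
  have hX3 : (PowerSeries.X : PowerSeries ℤ) ^ 3 ≠ 0 := pow_ne_zero _ PowerSeries.X_ne_zero
  exact sub_eq_zero.mp ((mul_eq_zero.mp h).resolve_left (mul_ne_zero hc hX3))

end Level2Forms

/-! ## Level 2: the relation of Laurent series -/

section Level2Laurent

open Fermat.Agent.Lib.Red.HauptSeries Fermat.Agent.S28.ModEq Fermat.Agent.CAR.V3.Units

local notation "O" => HahnSeries.ofPowerSeries ℤ ℤ

/-- `J(q) · q = O(E³ U⁻¹)` -/
theorem jq_int_mul :
    jqModC ℤ * O PowerSeries.X = O (eisenstein4 ^ 3 * dedekindEtaUnitInv) := by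
  rw [jqModC, map_intCast_int, jNum, mul_comm (HahnSeries.single _ _), mul_assoc]
  have h' : (HahnSeries.single (-1 : ℤ) (1 : ℤ) : LaurentSeries ℤ) * O PowerSeries.X = 1 := by
    simp
  rw [h', mul_one]

/-- `Δ(q^p)⁻¹ · q^p = O(U_p⁻¹)` -/
theorem qExpand_DAinv_int_mul (p : ℕ) [NeZero p] :
    qExpand ℤ p (DAinv ℤ) * O PowerSeries.X ^ p =
      O (PowerSeries.expand p (NeZero.ne p) dedekindEtaUnitInv) := by
  have h := congrArg (qExpand ℤ p) DAinv_int_mul
  rw [map_mul, qExpand_ofPS, qExpand_ofPS, PowerSeries.expand_X, map_pow] at h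
  exact h

/-- `u₁ · q = O(U U₂⁻¹)` for `p = 2`. -/
theorem u1_two_int_mul :
    u1 ℤ 2 * O PowerSeries.X =
      O (dedekindEtaUnit * PowerSeries.expand 2 two_ne_zero dedekindEtaUnitInv) := by
  apply mul_ofX_pow_cancel 1
  rw [pow_one]
  have h := qExpand_DAinv_int_mul 2
  calc u1 ℤ 2 * O PowerSeries.X * O PowerSeries.X
      = DA ℤ * (qExpand ℤ 2 (DAinv ℤ) * O PowerSeries.X ^ 2) := by
        unfold u1
        ring
    _ = O (PowerSeries.X * dedekindEtaUnit) *
          O (PowerSeries.expand 2 two_ne_zero dedekindEtaUnitInv) := by rw [h, DA_int]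
    _ = O (dedekindEtaUnit * PowerSeries.expand 2 two_ne_zero dedekindEtaUnitInv) *
          O PowerSeries.X := by
        rw [← map_mul, ← map_mul]
        congr 1
        ring

/-- The level 2 relation for `J(q)` in power series form. -/
theorem level2A_ps :
    eisenstein4 ^ 3 * dedekindEtaUnitInv *
        (dedekindEtaUnit * PowerSeries.expand 2 two_ne_zero dedekindEtaUnitInv) ^ 2 =
      (dedekindEtaUnit * PowerSeries.expand 2 two_ne_zero dedekindEtaUnitInv +
        256 * PowerSeries.X) ^ 3 := by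
  have h1 : dedekindEtaUnit * dedekindEtaUnitInv = 1 := dedekindEtaUnit_mul_inv
  have h2 : PowerSeries.expand 2 two_ne_zero dedekindEtaUnit *
      PowerSeries.expand 2 two_ne_zero dedekindEtaUnitInv = 1 := by
    rw [← map_mul, h1, map_one]
  have h3 := level2A_formal
  generalize PowerSeries.expand 2 two_ne_zero dedekindEtaUnit = U2 at h2 h3 ⊢
  generalize PowerSeries.expand 2 two_ne_zero dedekindEtaUnitInv = w2 at h2 ⊢
  generalize dedekindEtaUnit = U at h1 h3 ⊢
  generalize dedekindEtaUnitInv = w at h1 ⊢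
  generalize eisenstein4 = E at h3 ⊢
  have e1 : U * w2 + 256 * PowerSeries.X = w2 * (U + 256 * (PowerSeries.X * U2)) := by
    linear_combination (-256 * PowerSeries.X) * h2
  have e2 : (w2 * (U + 256 * (PowerSeries.X * U2))) ^ 3 = w2 ^ 3 * (E ^ 3 * U * U2) := by
    rw [h3]
    ring
  rw [e1, e2]
  linear_combination (E ^ 3 * U * w2 ^ 2) * h1 - (E ^ 3 * U * w2 ^ 2) * h2

/-- The level 2 relation for `J(q)` over `ℤ`. -/
theorem relA2_int : jqModC ℤ * u1 ℤ 2 ^ 2 = (u1 ℤ 2 + 256) ^ 3 := by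
  apply mul_ofX_pow_cancel 3
  have hL : jqModC ℤ * u1 ℤ 2 ^ 2 * O PowerSeries.X ^ 3 =
      O (eisenstein4 ^ 3 * dedekindEtaUnitInv *
        (dedekindEtaUnit * PowerSeries.expand 2 two_ne_zero dedekindEtaUnitInv) ^ 2) := by
    have h : jqModC ℤ * u1 ℤ 2 ^ 2 * O PowerSeries.X ^ 3 =
        (jqModC ℤ * O PowerSeries.X) * (u1 ℤ 2 * O PowerSeries.X) ^ 2 := by ring
    rw [h, jq_int_mul, u1_two_int_mul]
    simp only [map_mul, map_pow]
  have hR : (u1 ℤ 2 + 256) ^ 3 * O PowerSeries.X ^ 3 =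
      O ((dedekindEtaUnit * PowerSeries.expand 2 two_ne_zero dedekindEtaUnitInv +
        256 * PowerSeries.X) ^ 3) := by
    have h : (u1 ℤ 2 + 256) ^ 3 * O PowerSeries.X ^ 3 =
        (u1 ℤ 2 * O PowerSeries.X + 256 * O PowerSeries.X) ^ 3 := by ring
    rw [h, u1_two_int_mul]
    simp only [map_mul, map_pow, map_add, map_ofNat]
  rw [hL, hR, level2A_ps]

/-- **The level 2 relation for `J(q)`**: `J(q) h² = (h + 256)³`, `h = Δ(q)/Δ(q²)`, over any
ring. -/
theorem relA2 (A : Type*) [CommRing A] : jqModC A * u1 A 2 ^ 2 = (u1 A 2 + 256) ^ 3 := by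
  have h := congrArg (coeffMap (Int.castRingHom A)) relA2_int
  rw [map_mul, map_pow, map_pow, map_add, coeffMap_jqModC, coeffMap_u1, map_ofNat] at h
  exact h

end Level2Laurent

end

end Fermat.Agent.CAR.Ell.HauptRelA
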