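/-
CAR (ELL), residue characteristic `2`: the modular relation of the Hauptmodul of level `3` with
`J(q)` (convention (A)).

`Lib/Red/HauptSeries.lean` has the relation of `tInf A = 3⁶ q ∏ ((1 - q^(3n))/(1 - q^n))¹²` with
`J(q³)`.  Here is its Fricke dual, the relation of

  `hA3 A = q⁻¹ ∏ ((1 - q^n)/(1 - q^(3n)))¹²`   (`= 729 / tInf A`, `hA3 A ^ 2 = u1 A 3`)

with `J(q)` itself:

* `relA3 : jqModC A * hA3 A ^ 3 = (hA3 A + 27) * (hA3 A + 243) ^ 3`   (any commutative ring `A`);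
* `hA3_mul_hA3inv : hA3 A * hA3inv A = 1`, `tInf_eq : tInf A = 729 * hA3inv A`,
  `hA3_sq : hA3 A ^ 2 = u1 A 3`, `coeffMap_hA3`, `coeffMap_hA3inv`.

It is the identity
`Δ Δ₃ (E₄(τ)³ - 756 Δ - 19131876 Δ₃)² = (Δ² + 196830 Δ Δ₃ + 387420489 Δ₃²)²`
(`level3A_sq`; Sturm bound in `M₄₈(Γ₀(3))`, 17 coefficients), i.e.
`E₄(τ)³ V V₃ = (V + 27 q V₃)(V + 243 q V₃)³` for `V = ∏ (1 - qⁿ)¹²`.
-/
import Mathlib
import Fermat.Agent.CAR.Ell.HauptRelA

set_option autoImplicit false

open UpperHalfPlane ModularForm Filter Topology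
open scoped MatrixGroups ModularForm Manifold

namespace Fermat.Agent.CAR.Ell.HauptRelA3

open Fermat.Agent.Lib.Red.HauptForms Fermat.Agent.Lib.Red.HauptTrunc ModularCurve

noncomputable section

/-! ## The formal identity -/

section Forms

open Fermat.Agent.Lib.Red.HauptLevel3 (d1 d3 d33 d13 d11 sD sD3 qExpansion_d1 qExpansion_d3
  index_Gamma0_three etaTwelve etaTwelve_sq constantCoeff_etaTwelve)

local notation "Γ3" => (CongruenceSubgroup.Gamma0 3 : Subgroup SL(2, ℤ))

/-- `E₄(τ)` on `Γ₀(3)` -/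
def e1T : ModularForm Γ3 4 := resForm 3 E₄

theorem qExpansion_e1T : qExpansion 1 e1T = PowerSeries.map (Int.castRingHom ℂ) eisenstein4 :=
  Fermat.Agent.S28.DeltaBridge.qExpansion_E4

/-- `E₄(τ)³`, weight `12` -/
def e1cT : ModularForm Γ3 12 := ModularForm.mcast (by norm_num) (e1T.pow 3)

/-- `E₄(τ)³ - 756 Δ(τ) - 19131876 Δ(3τ)`, weight `12` -/
def formGA : ModularForm Γ3 12 := e1cT - (756 : ℂ) • d1 - (108 : ℂ) • d3

/-- `81 (Δ² + 196830 Δ Δ₃ + 387420489 Δ₃²)`, weight `24` -/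
def formHA : ModularForm Γ3 24 := d33 + (90 : ℂ) • d13 + (81 : ℂ) • d11

/-- `3¹¹ Δ Δ₃ G²`, weight `48` -/
def formAA : ModularForm Γ3 48 :=
  ModularForm.mcast (by norm_num) ((d1.mul d3).mul (formGA.pow 2))

/-- `H²`, weight `48` -/
def formBA : ModularForm Γ3 48 := ModularForm.mcast (by norm_num) (formHA.pow 2)

/-- the difference, a form of weight `48` on `Γ₀(3)` -/
def formFA : ModularForm Γ3 48 := formAA - (27 : ℂ) • formBA

/-- the integral `q`-expansion of `formGA` -/
def sGA : PowerSeries ℤ := eisenstein4 ^ 3 - PowerSeries.C 756 * sD - PowerSeries.C 108 * sD3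

/-- the integral `q`-expansion of `formHA` -/
def sHA : PowerSeries ℤ :=
  sD3 ^ 2 + PowerSeries.C 90 * (sD * sD3) + PowerSeries.C 81 * sD ^ 2

/-- the integral `q`-expansion of `formFA` -/
def sFA : PowerSeries ℤ := (sD * sD3) * sGA ^ 2 - PowerSeries.C 27 * sHA ^ 2

theorem qExpansion_formGA : qExpansion 1 formGA = PowerSeries.map (Int.castRingHom ℂ) sGA := by
  have hΓ := CongruenceSubgroup.one_mem_strictPeriods_Gamma0 3
  have h1 : qExpansion 1 formGA =
      qExpansion 1 (e1cT - (756 : ℂ) • d1) - qExpansion 1 ((108 : ℂ) • d3) :=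
    ModularForm.qExpansion_sub one_pos hΓ (e1cT - (756 : ℂ) • d1) ((108 : ℂ) • d3)
  have h2 : qExpansion 1 (e1cT - (756 : ℂ) • d1) =
      qExpansion 1 e1cT - qExpansion 1 ((756 : ℂ) • d1) :=
    ModularForm.qExpansion_sub one_pos hΓ e1cT ((756 : ℂ) • d1)
  have h3 : qExpansion 1 e1cT = qExpansion 1 e1T ^ 3 :=
    ModularForm.qExpansion_pow one_pos hΓ e1T 3
  have h4 : qExpansion 1 ((756 : ℂ) • d1) = (756 : ℂ) • qExpansion 1 d1 :=
    ModularForm.qExpansion_smul one_pos hΓ 756 d1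
  have h5 : qExpansion 1 ((108 : ℂ) • d3) = (108 : ℂ) • qExpansion 1 d3 :=
    ModularForm.qExpansion_smul one_pos hΓ 108 d3
  rw [h1, h2, h3, h4, h5, qExpansion_e1T, qExpansion_d1, qExpansion_d3, sGA]
  simp only [map_sub, map_mul, map_pow, PowerSeries.map_C]
  simp [Algebra.smul_def]

theorem qExpansion_formHA : qExpansion 1 formHA = PowerSeries.map (Int.castRingHom ℂ) sHA := by
  have hΓ := CongruenceSubgroup.one_mem_strictPeriods_Gamma0 3
  have h1 : qExpansion 1 formHA =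
      qExpansion 1 (d33 + (90 : ℂ) • d13) + qExpansion 1 ((81 : ℂ) • d11) :=
    ModularForm.qExpansion_add one_pos hΓ (d33 + (90 : ℂ) • d13) ((81 : ℂ) • d11)
  have h2 : qExpansion 1 (d33 + (90 : ℂ) • d13) =
      qExpansion 1 d33 + qExpansion 1 ((90 : ℂ) • d13) :=
    ModularForm.qExpansion_add one_pos hΓ d33 ((90 : ℂ) • d13)
  have h3 : qExpansion 1 d33 = qExpansion 1 d3 ^ 2 :=
    ModularForm.qExpansion_pow one_pos hΓ d3 2
  have h4 : qExpansion 1 ((90 : ℂ) • d13) = (90 : ℂ) • qExpansion 1 d13 :=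
    ModularForm.qExpansion_smul one_pos hΓ 90 d13
  have h5 : qExpansion 1 d13 = qExpansion 1 d1 * qExpansion 1 d3 :=
    ModularForm.qExpansion_mul one_pos hΓ d1 d3
  have h6 : qExpansion 1 ((81 : ℂ) • d11) = (81 : ℂ) • qExpansion 1 d11 :=
    ModularForm.qExpansion_smul one_pos hΓ 81 d11
  have h7 : qExpansion 1 d11 = qExpansion 1 d1 ^ 2 :=
    ModularForm.qExpansion_pow one_pos hΓ d1 2
  rw [h1, h2, h3, h4, h5, h6, h7, qExpansion_d1, qExpansion_d3, sHA]
  simp only [map_mul, map_pow, map_add, PowerSeries.map_C]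
  simp [Algebra.smul_def]

theorem qExpansion_formFA : qExpansion 1 formFA = PowerSeries.map (Int.castRingHom ℂ) sFA := by
  have hΓ := CongruenceSubgroup.one_mem_strictPeriods_Gamma0 3
  have h1 : qExpansion 1 formFA = qExpansion 1 formAA - qExpansion 1 ((27 : ℂ) • formBA) :=
    ModularForm.qExpansion_sub one_pos hΓ formAA ((27 : ℂ) • formBA)
  have h2 : qExpansion 1 ((27 : ℂ) • formBA) = (27 : ℂ) • qExpansion 1 formBA :=
    ModularForm.qExpansion_smul one_pos hΓ 27 formBA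
  have h3 : qExpansion 1 formAA = qExpansion 1 (d1.mul d3) * qExpansion 1 (formGA.pow 2) :=
    ModularForm.qExpansion_mul one_pos hΓ (d1.mul d3) (formGA.pow 2)
  have h4 : qExpansion 1 (d1.mul d3) = qExpansion 1 d1 * qExpansion 1 d3 :=
    ModularForm.qExpansion_mul one_pos hΓ d1 d3
  have h5 : qExpansion 1 (formGA.pow 2) = qExpansion 1 formGA ^ 2 :=
    ModularForm.qExpansion_pow one_pos hΓ formGA 2
  have h6 : qExpansion 1 formBA = qExpansion 1 formHA ^ 2 :=
    ModularForm.qExpansion_pow one_pos hΓ formHA 2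
  rw [h1, h2, h3, h4, h5, h6, qExpansion_formGA, qExpansion_formHA, qExpansion_d1,
    qExpansion_d3, sFA]
  simp only [map_sub, map_mul, map_pow, PowerSeries.map_C]
  simp [Algebra.smul_def]

set_option maxRecDepth 100000 in
/-- The first seventeen coefficients of `sFA` vanish. -/
theorem approx_sFA : Approx 17 sFA (List.replicate 17 0) := by
  have hE := approx_eisenstein4 17
  have hU := approx_dedekindEtaUnit 17
  have hsD : Approx 17 sD (lshift 17 1 (lpow 17 (lEta 17 17) 24)) := by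
    have := hU.shift 1
    rwa [pow_one] at this
  have hsD3 : Approx 17 sD3 _ := (hsD.expand 3 three_ne_zero).smul 177147
  have hsG : Approx 17 sGA _ := ((hE.pow 3).sub (hsD.smul 756)).sub (hsD3.smul 108)
  have hsH : Approx 17 sHA _ :=
    ((hsD3.pow 2).add ((hsD.mul hsD3).smul 90)).add ((hsD.pow 2).smul 81)
  have h := ((hsD.mul hsD3).mul (hsG.pow 2)).sub ((hsH.pow 2).smul 27)
  exact h.congr (by decide +kernel)

/-- Sturm: the form `formFA` vanishes. -/
theorem formFA_eq_zero : formFA = 0 := by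
  apply ModularForm.sturm_bound_Gamma0 3
  intro n hn
  rw [index_Gamma0_three] at hn
  have hn' : n < 17 := by
    have h16 : ((48 : ℤ) * ((4 : ℕ) : ℤ)).toNat / 12 = 16 := by decide
    omega
  rw [qExpansion_formFA, PowerSeries.coeff_map, approx_sFA.zero_of n hn', map_zero]

theorem sFA_eq_zero : sFA = 0 := by
  have h := qExpansion_formFA
  rw [formFA_eq_zero] at h
  have h0 : qExpansion 1 ((0 : ModularForm Γ3 48) : ℍ → ℂ) = 0 := qExpansion_zero 1
  rw [h0] at h
  ext n
  have h1 := congrArg (PowerSeries.coeff n) h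
  rw [PowerSeries.coeff_map, map_zero] at h1
  rw [map_zero]
  have h2 : (((PowerSeries.coeff n) sFA : ℤ) : ℂ) = 0 := h1.symm
  exact_mod_cast h2

/-- `E³ - 756 q U - 19131876 q³ U₃` -/
def sAA : PowerSeries ℤ :=
  eisenstein4 ^ 3 - 756 * (PowerSeries.X * dedekindEtaUnit) -
    19131876 * (PowerSeries.X ^ 3 * PowerSeries.expand 3 three_ne_zero dedekindEtaUnit)

/-- `U² + 196830 q² U U₃ + 387420489 q⁴ U₃²` -/
def sBA : PowerSeries ℤ :=
  dedekindEtaUnit ^ 2 +
    196830 * (PowerSeries.X ^ 2 *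
      (dedekindEtaUnit * PowerSeries.expand 3 three_ne_zero dedekindEtaUnit)) +
    387420489 * (PowerSeries.X ^ 4 * PowerSeries.expand 3 three_ne_zero dedekindEtaUnit ^ 2)

/-- **The level 3 identity for `J(q)`, squared form**
`Δ Δ₃ (E₄(τ)³ - 756 Δ - 19131876 Δ₃)² = (Δ² + 196830 Δ Δ₃ + 387420489 Δ₃²)²` (after division by
`q⁴`). -/
theorem level3A_sq :
    dedekindEtaUnit * PowerSeries.expand 3 three_ne_zero dedekindEtaUnit * sAA ^ 2 =
      sBA ^ 2 := by
  have hX : PowerSeries.expand 3 three_ne_zero (PowerSeries.X * dedekindEtaUnit) =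
      PowerSeries.X ^ 3 * PowerSeries.expand 3 three_ne_zero dedekindEtaUnit := by
    rw [map_mul, PowerSeries.expand_X]
  have key : sFA = PowerSeries.C 177147 * PowerSeries.X ^ 4 *
      (dedekindEtaUnit * PowerSeries.expand 3 three_ne_zero dedekindEtaUnit * sAA ^ 2 -
        sBA ^ 2) := by
    rw [sFA, sGA, sHA, sD, sD3, hX, sAA, sBA]
    simp only [map_ofNat]
    ring
  have h := sFA_eq_zero
  rw [key] at h
  have hc : (PowerSeries.C (177147 : ℤ)) ≠ 0 := by
    rw [Ne, ← map_zero (PowerSeries.C (R := ℤ))]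
    intro h'
    have := PowerSeries.C_injective h'
    norm_num at this
  have hX4 : (PowerSeries.X : PowerSeries ℤ) ^ 4 ≠ 0 := pow_ne_zero _ PowerSeries.X_ne_zero
  exact sub_eq_zero.mp ((mul_eq_zero.mp h).resolve_left (mul_ne_zero hc hX4))

/-- **The level 3 identity for `J(q)`**
`V V₃ (E³ - 756 q U - 19131876 q³ U₃) = U² + 196830 q² U U₃ + 387420489 q⁴ U₃²`, equivalent to
`j(τ) t³ = (t + 27)(t + 243)³` for `t = V / (q V₃)`. -/
theorem level3A_formal :
    etaTwelve * PowerSeries.expand 3 three_ne_zero etaTwelve * sAA = sBA := by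
  have hsq : (etaTwelve * PowerSeries.expand 3 three_ne_zero etaTwelve * sAA) ^ 2 = sBA ^ 2 := by
    rw [← level3A_sq, ← etaTwelve_sq, map_pow]
    ring
  have hfac : (etaTwelve * PowerSeries.expand 3 three_ne_zero etaTwelve * sAA - sBA) *
      (etaTwelve * PowerSeries.expand 3 three_ne_zero etaTwelve * sAA + sBA) = 0 := by
    linear_combination hsq
  rcases mul_eq_zero.mp hfac with h | h
  · exact sub_eq_zero.mp h
  · exfalso
    have hc := congrArg PowerSeries.constantCoeff h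
    simp [sAA, sBA, constantCoeff_etaTwelve, constantCoeff_dedekindEtaUnit,
      constantCoeff_eisenstein4] at hc

end Forms

/-! ## The relation of Laurent series -/

section Laurent

open Fermat.Agent.Lib.Red.HauptSeries Fermat.Agent.S28.ModEq Fermat.Agent.CAR.V3.Units
open Fermat.Agent.Lib.Red.HauptLevel3 (etaTwelve etaTwelve_sq constantCoeff_etaTwelve)
open Fermat.Agent.CAR.Ell.HauptRelA (jq_int_mul qExpand_DAinv_int_mul)

local notation "O" => HahnSeries.ofPowerSeries ℤ ℤ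

/-- `hA3 = q⁻¹ ∏ ((1 - q^n)/(1 - q^(3n)))¹²` over `A`: the Hauptmodul of level `3` with
`J(q) hA3³ = (hA3 + 27)(hA3 + 243)³`. -/
def hA3 (A : Type*) [CommRing A] : LaurentSeries A :=
  HahnSeries.single (-1 : ℤ) (1 : A) * HahnSeries.ofPowerSeries ℤ A
    ((etaTwelve * PowerSeries.expand 3 three_ne_zero etaTwelveInv).map (Int.castRingHom A))

/-- `hA3⁻¹ = q ∏ ((1 - q^(3n))/(1 - q^n))¹²` over `A` (`= tInf A / 729`). -/
def hA3inv (A : Type*) [CommRing A] : LaurentSeries A :=
  HahnSeries.ofPowerSeries ℤ A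
    ((PowerSeries.X * (PowerSeries.expand 3 three_ne_zero etaTwelve * etaTwelveInv)).map
      (Int.castRingHom A))

theorem coeffMap_hA3 {A B : Type*} [CommRing A] [CommRing B] (φ : A →+* B) :
    coeffMap φ (hA3 A) = hA3 B := by
  unfold hA3
  rw [map_mul, coeffMap_single, map_one, coeffMap_ofPowerSeries, map_map_intCast]

theorem coeffMap_hA3inv {A B : Type*} [CommRing A] [CommRing B] (φ : A →+* B) :
    coeffMap φ (hA3inv A) = hA3inv B := by
  unfold hA3inv
  rw [coeffMap_ofPowerSeries, map_map_intCast]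

/-- `hA3 · q = O(V V₃⁻¹)` -/
theorem hA3_int_mul :
    hA3 ℤ * O PowerSeries.X = O (etaTwelve * PowerSeries.expand 3 three_ne_zero etaTwelveInv) := by
  rw [hA3, map_intCast_int, mul_comm (HahnSeries.single _ _), mul_assoc]
  have h' : (HahnSeries.single (-1 : ℤ) (1 : ℤ) : LaurentSeries ℤ) * O PowerSeries.X = 1 := by
    simp
  rw [h', mul_one]

theorem hA3inv_int :
    hA3inv ℤ = O (PowerSeries.X * (PowerSeries.expand 3 three_ne_zero etaTwelve * etaTwelveInv)) := by
  rw [hA3inv, map_intCast_int]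

theorem expand_etaTwelve_mul_inv :
    PowerSeries.expand 3 three_ne_zero etaTwelve *
      PowerSeries.expand 3 three_ne_zero etaTwelveInv = 1 := by
  rw [← map_mul, etaTwelve_mul_inv, map_one]

theorem hA3_mul_hA3inv_int : hA3 ℤ * hA3inv ℤ = 1 := by
  have h1 := etaTwelve_mul_inv
  have h2 := expand_etaTwelve_mul_inv
  rw [hA3inv_int, map_mul, ← mul_assoc, hA3_int_mul, ← map_mul]
  have h3 : etaTwelve * PowerSeries.expand 3 three_ne_zero etaTwelveInv *
      (PowerSeries.expand 3 three_ne_zero etaTwelve * etaTwelveInv) = 1 := by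
    linear_combination (PowerSeries.expand 3 three_ne_zero etaTwelve *
      PowerSeries.expand 3 three_ne_zero etaTwelveInv) * h1 + h2
  rw [h3, map_one]

/-- `hA3` is a unit, with inverse `hA3inv`. -/
theorem hA3_mul_hA3inv (A : Type*) [CommRing A] : hA3 A * hA3inv A = 1 := by
  have h := congrArg (coeffMap (Int.castRingHom A)) hA3_mul_hA3inv_int
  rw [map_mul, coeffMap_hA3, coeffMap_hA3inv, map_one] at h
  exact h

theorem tInf_eq_int : tInf ℤ = 729 * hA3inv ℤ := by
  rw [tInf_int, hA3inv_int, tSeries]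
  have hC' : PowerSeries.C (729 : ℤ) = (729 : PowerSeries ℤ) := map_ofNat _ 729
  rw [hC']
  have h : (PowerSeries.X : PowerSeries ℤ) *
      (729 * PowerSeries.expand 3 three_ne_zero etaTwelve * etaTwelveInv) =
      729 * (PowerSeries.X * (PowerSeries.expand 3 three_ne_zero etaTwelve * etaTwelveInv)) := by
    ring
  rw [h, map_mul, map_ofNat]

/-- `tInf = 729 / hA3`. -/
theorem tInf_eq (A : Type*) [CommRing A] : tInf A = 729 * hA3inv A := by
  have h := congrArg (coeffMap (Int.castRingHom A)) tInf_eq_int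
  rw [map_mul, coeffMap_tInf, coeffMap_hA3inv, map_ofNat] at h
  exact h

/-- `hA3 · tInf = 729`. -/
theorem hA3_mul_tInf (A : Type*) [CommRing A] : hA3 A * tInf A = 729 := by
  rw [tInf_eq, mul_left_comm, hA3_mul_hA3inv, mul_one]

/-- `u₁ · q^p = O(q U U_p⁻¹)` -/
theorem u1_int_mul (p : ℕ) [NeZero p] :
    u1 ℤ p * O PowerSeries.X ^ p =
      O (PowerSeries.X * dedekindEtaUnit *
        PowerSeries.expand p (NeZero.ne p) dedekindEtaUnitInv) := by
  have h := qExpand_DAinv_int_mul p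
  calc u1 ℤ p * O PowerSeries.X ^ p
      = DA ℤ * (qExpand ℤ p (DAinv ℤ) * O PowerSeries.X ^ p) := by
        unfold u1
        ring
    _ = O (PowerSeries.X * dedekindEtaUnit *
          PowerSeries.expand p (NeZero.ne p) dedekindEtaUnitInv) := by
        rw [h, DA_int, ← map_mul]

theorem hA3_sq_int : hA3 ℤ ^ 2 = u1 ℤ 3 := by
  apply mul_ofX_pow_cancel 3
  have hL : hA3 ℤ ^ 2 * O PowerSeries.X ^ 3 =
      O ((etaTwelve * PowerSeries.expand 3 three_ne_zero etaTwelveInv) ^ 2 * PowerSeries.X) := by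
    have h : hA3 ℤ ^ 2 * O PowerSeries.X ^ 3 =
        (hA3 ℤ * O PowerSeries.X) ^ 2 * O PowerSeries.X := by ring
    rw [h, hA3_int_mul]
    simp only [map_mul, map_pow]
  rw [hL, u1_int_mul 3]
  congr 1
  rw [← etaTwelveInv_sq, ← etaTwelve_sq, map_pow]
  ring

/-- `hA3² = Δ(q)/Δ(q³)`. -/
theorem hA3_sq (A : Type*) [CommRing A] : hA3 A ^ 2 = u1 A 3 := by
  have h := congrArg (coeffMap (Int.castRingHom A)) hA3_sq_int
  rw [map_pow, coeffMap_hA3, coeffMap_u1] at h
  exact h

/-- The level 3 relation for `J(q)` in power series form. -/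
theorem level3A_ps :
    eisenstein4 ^ 3 * dedekindEtaUnitInv *
        (etaTwelve * PowerSeries.expand 3 three_ne_zero etaTwelveInv) ^ 3 =
      (etaTwelve * PowerSeries.expand 3 three_ne_zero etaTwelveInv + 27 * PowerSeries.X) *
        (etaTwelve * PowerSeries.expand 3 three_ne_zero etaTwelveInv +
          243 * PowerSeries.X) ^ 3 := by
  have h1 : etaTwelve * etaTwelveInv = 1 := etaTwelve_mul_inv
  have h2 := expand_etaTwelve_mul_inv
  have h3 := level3A_formal
  rw [sAA, sBA, ← etaTwelve_sq, map_pow] at h3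
  rw [← etaTwelveInv_sq]
  generalize PowerSeries.expand 3 three_ne_zero etaTwelve = V3 at h2 h3 ⊢
  generalize PowerSeries.expand 3 three_ne_zero etaTwelveInv = v3 at h2 ⊢
  generalize etaTwelve = V at h1 h3 ⊢
  generalize etaTwelveInv = vi at h1 ⊢
  generalize eisenstein4 = E at h3 ⊢
  have h4 : E ^ 3 * V * V3 =
      (V + 27 * (PowerSeries.X * V3)) * (V + 243 * (PowerSeries.X * V3)) ^ 3 := by
    linear_combination h3
  have e1 : V * v3 + 27 * PowerSeries.X = v3 * (V + 27 * (PowerSeries.X * V3)) := by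
    linear_combination (-27 * PowerSeries.X) * h2
  have e2 : V * v3 + 243 * PowerSeries.X = v3 * (V + 243 * (PowerSeries.X * V3)) := by
    linear_combination (-243 * PowerSeries.X) * h2
  have e3 : v3 * (V + 27 * (PowerSeries.X * V3)) * (v3 * (V + 243 * (PowerSeries.X * V3))) ^ 3 =
      v3 ^ 4 * (E ^ 3 * V * V3) := by
    rw [h4]
    ring
  rw [e1, e2, e3]
  linear_combination (E ^ 3 * V * v3 ^ 3 * (V * vi + 1)) * h1 - (E ^ 3 * V * v3 ^ 3) * h2

/-- The level 3 relation for `J(q)` over `ℤ`. -/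
theorem relA3_int : jqModC ℤ * hA3 ℤ ^ 3 = (hA3 ℤ + 27) * (hA3 ℤ + 243) ^ 3 := by
  apply mul_ofX_pow_cancel 4
  have hL : jqModC ℤ * hA3 ℤ ^ 3 * O PowerSeries.X ^ 4 =
      O (eisenstein4 ^ 3 * dedekindEtaUnitInv *
        (etaTwelve * PowerSeries.expand 3 three_ne_zero etaTwelveInv) ^ 3) := by
    have h : jqModC ℤ * hA3 ℤ ^ 3 * O PowerSeries.X ^ 4 =
        (jqModC ℤ * O PowerSeries.X) * (hA3 ℤ * O PowerSeries.X) ^ 3 := by ring
    rw [h, jq_int_mul, hA3_int_mul]
    simp only [map_mul, map_pow]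
  have hR : (hA3 ℤ + 27) * (hA3 ℤ + 243) ^ 3 * O PowerSeries.X ^ 4 =
      O ((etaTwelve * PowerSeries.expand 3 three_ne_zero etaTwelveInv + 27 * PowerSeries.X) *
        (etaTwelve * PowerSeries.expand 3 three_ne_zero etaTwelveInv +
          243 * PowerSeries.X) ^ 3) := by
    have h : (hA3 ℤ + 27) * (hA3 ℤ + 243) ^ 3 * O PowerSeries.X ^ 4 =
        (hA3 ℤ * O PowerSeries.X + 27 * O PowerSeries.X) *
          (hA3 ℤ * O PowerSeries.X + 243 * O PowerSeries.X) ^ 3 := by ring
    rw [h, hA3_int_mul]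
    simp only [map_mul, map_pow, map_add, map_ofNat]
  rw [hL, hR, level3A_ps]

/-- **The level 3 relation for `J(q)`**: `J(q) t³ = (t + 27)(t + 243)³`,
`t = hA3 = q⁻¹ ∏ ((1 - q^n)/(1 - q^(3n)))¹²`, over any ring. -/
theorem relA3 (A : Type*) [CommRing A] :
    jqModC A * hA3 A ^ 3 = (hA3 A + 27) * (hA3 A + 243) ^ 3 := by
  have h := congrArg (coeffMap (Int.castRingHom A)) relA3_int
  rw [map_mul, map_pow, map_mul, map_pow, map_add, map_add, coeffMap_jqModC, coeffMap_hA3,
    map_ofNat, map_ofNat] at h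
  exact h

end Laurent

end

end Fermat.Agent.CAR.Ell.HauptRelA3
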