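/-
CAR, wall (ELL) at `ℓ = 3` and `ℓ = 2`: the Hauptmodul coordinates in convention (A)
(`J = J(q)`), for ANY integral `q`-series `y ∈ ℤ((q))` satisfying the modular relation with
`J(q)`.

* algebra: `isIntegral_of_rel2`, `isIntegral_inv_of_rel2`, `isIntegral_of_rel3`,
  `isIntegral_inv_of_rel3` : a solution `h` of `J h² = (h + 256)³` (resp. `t` of
  `J t³ = (t + 27)(t + 243)³`) is integral over any ring over which `J` is, and so is its
  inverse as soon as `2` (resp. `3`) is invertible in that ring;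
* series: for `y ∈ ℤ((q))` with `y_ℚ ∈ F_{N₀}`, `N₀ ∣ M`: membership of `y_L` in `L·F_M`
  (`mem_laurentBaseChange_of_int`), Gauss-integrality (`mem_Ow_of_int`), membership of the
  reduction in the mod-`ℓ` function field (`mem_fullC_of_int`), the value of `redF`
  (`coe_redF_of_int`); base change of the two relations (`rel2_map`, `rel3_map`);
* (E-b): `two_dvd_ord_add_64_of_int`, `three_dvd_ord_add_27_of_int`, and the end products
  `hell_inputs_rel2`, `hell_inputs_rel3` : the two hypotheses `hrel`, `hE` of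
  `Local.Inst.EllRel.hell_rel2 / hell_rel3` in their literal shapes, for any ring `B'` with
  `red' : B' →+* κ` and `yh yi : B'` such that `red' yh` has the `q`-expansion `ȳ`;
* the two Hauptmoduln (relations `HauptRelA.relA2`, `HauptRelA3.relA3`):
  `h₂ = u₁ = Δ(q)/Δ(q²)` (`V3.Units.u1 · 2`, inverse `u1inv · 2`) and
  `h₃ = q⁻¹ ∏ ((1 - q^n)/(1 - q^{3n}))^12` (`HauptRelA3.hA3`, inverse `hA3inv`):
  membership in `L·F_M` for `2 ∣ M` resp. `3 ∣ M` (`u1_mem_F`, `u1inv_mem_F`, `hA3_mem_F`,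
  `hA3inv_mem_F`), Gauss-integrality and residues (`u1_mem_Ow`, `coe_redF_u1`, …), the relation
  in `L·F_M` (`rel_u1_F`, `rel_hA3_F`), integrality of `h` and `h⁻¹` over any ring over which
  `J` is integral (`isIntegral_u1_F`, `isIntegral_u1inv_F`, `isIntegral_hA3_F`,
  `isIntegral_hA3inv_F`), and the closed end products **`hell_inputs_haupt2`** (`ℓ ≠ 2`, `2 ∣ M`,
  e.g. `ℓ = 3`) and **`hell_inputs_haupt3`** (`ℓ ≠ 3`, `3 ∣ M`, e.g. `ℓ = 2`).
-/
import Mathlib
import Fermat.Agent.CAR.Ell.InstJ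
import Fermat.Agent.CAR.Ell.HauptRelA3
import Fermat.Agent.CAR.V3.UnitRel
import Fermat.Agent.Lib.Red.HauptBase

set_option autoImplicit false
set_option linter.unusedSectionVars false
set_option linter.style.haveILetI false

namespace Fermat.Agent.CAR.Ell.Haupt23

open ModularCurve AlgebraicCurve Fermat.Agent.S28 Fermat.Agent.S24 Fermat.Agent.Lib.Red
open Fermat.Agent.ESJ Fermat.Agent.Lib.FF.ModL

noncomputable section

/-! ### Algebra: integrality from the modular relations -/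

section Alg

variable {R₀ F : Type*} [CommRing R₀] [CommRing F] [Algebra R₀ F]

/-- A solution of `J h² = (h + 256)³` is integral over any ring over which `J` is. -/
theorem isIntegral_of_rel2 {J h : F} (hJ : IsIntegral R₀ J)
    (hrel : J * h ^ 2 = (h + 256) ^ 3) : IsIntegral R₀ h := by
  have hx : IsIntegral (integralClosure R₀ F) h := by
    refine ⟨Polynomial.X ^ 3 + Polynomial.C (768 - (⟨J, hJ⟩ : integralClosure R₀ F)) *
      Polynomial.X ^ 2 + Polynomial.C 196608 * Polynomial.X + Polynomial.C 16777216, ?_, ?_⟩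
    · monicity!
    · simp only [Polynomial.eval₂_add, Polynomial.eval₂_mul, Polynomial.eval₂_pow,
        Polynomial.eval₂_X, Polynomial.eval₂_C]
      simp only [map_sub, map_ofNat]
      show h ^ 3 + (768 - J) * h ^ 2 + 196608 * h + 16777216 = 0
      linear_combination -hrel
  exact isIntegral_trans h hx

/-- The inverse of a solution of `J h² = (h + 256)³` is integral over any ring over which `J`
is and in which `2` is invertible. -/
theorem isIntegral_inv_of_rel2 {J h hi : F} (hJ : IsIntegral R₀ J)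
    (hrel : J * h ^ 2 = (h + 256) ^ 3) (hhi : h * hi = 1) {c : R₀}
    (hc : algebraMap R₀ F c * 2 = 1) : IsIntegral R₀ hi := by
  have h24 : algebraMap R₀ F c ^ 24 * 16777216 = 1 := by
    have := congrArg (· ^ 24) hc
    simp only [mul_pow, one_pow] at this
    rw [← this]
    norm_num
  have hP : 16777216 * hi ^ 3 + 196608 * hi ^ 2 + (768 - J) * hi + 1 = 0 := by
    linear_combination (-(hi ^ 3)) * hrel +
      (-(((h * hi + 256 * hi) ^ 2 + (h * hi + 256 * hi) * (1 + 256 * hi) + (1 + 256 * hi) ^ 2) -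
        J * hi * (h * hi + 1))) * hhi
  have hx : IsIntegral (integralClosure R₀ F) hi := by
    refine ⟨Polynomial.X ^ 3 +
      Polynomial.C (algebraMap R₀ (integralClosure R₀ F) c ^ 24 * 196608) * Polynomial.X ^ 2 +
      Polynomial.C (algebraMap R₀ (integralClosure R₀ F) c ^ 24 *
        (768 - (⟨J, hJ⟩ : integralClosure R₀ F))) * Polynomial.X +
      Polynomial.C (algebraMap R₀ (integralClosure R₀ F) c ^ 24), ?_, ?_⟩
    · monicity!
    · simp only [Polynomial.eval₂_add, Polynomial.eval₂_mul, Polynomial.eval₂_pow,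
        Polynomial.eval₂_X, Polynomial.eval₂_C]
      simp only [map_sub, map_ofNat, map_mul, map_pow]
      rw [← IsScalarTower.algebraMap_apply R₀ (integralClosure R₀ F) F]
      show hi ^ 3 + algebraMap R₀ F c ^ 24 * 196608 * hi ^ 2 +
        algebraMap R₀ F c ^ 24 * (768 - J) * hi + algebraMap R₀ F c ^ 24 = 0
      linear_combination (algebraMap R₀ F c ^ 24) * hP - hi ^ 3 * h24
  exact isIntegral_trans hi hx

/-- A solution of `J t³ = (t + 27)(t + 243)³` is integral over any ring over which `J` is. -/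
theorem isIntegral_of_rel3 {J t : F} (hJ : IsIntegral R₀ J)
    (hrel : J * t ^ 3 = (t + 27) * (t + 243) ^ 3) : IsIntegral R₀ t := by
  have hx : IsIntegral (integralClosure R₀ F) t := by
    refine ⟨Polynomial.X ^ 4 + Polynomial.C (756 - (⟨J, hJ⟩ : integralClosure R₀ F)) *
      Polynomial.X ^ 3 + Polynomial.C 196830 * Polynomial.X ^ 2 +
      Polynomial.C 19131876 * Polynomial.X + Polynomial.C 387420489, ?_, ?_⟩
    · monicity!
    · simp only [Polynomial.eval₂_add, Polynomial.eval₂_mul, Polynomial.eval₂_pow,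
        Polynomial.eval₂_X, Polynomial.eval₂_C]
      simp only [map_sub, map_ofNat]
      show t ^ 4 + (756 - J) * t ^ 3 + 196830 * t ^ 2 + 19131876 * t + 387420489 = 0
      linear_combination -hrel
  exact isIntegral_trans t hx

/-- The inverse of a solution of `J t³ = (t + 27)(t + 243)³` is integral over any ring over
which `J` is and in which `3` is invertible. -/
theorem isIntegral_inv_of_rel3 {J t ti : F} (hJ : IsIntegral R₀ J)
    (hrel : J * t ^ 3 = (t + 27) * (t + 243) ^ 3) (hti : t * ti = 1) {c : R₀}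
    (hc : algebraMap R₀ F c * 3 = 1) : IsIntegral R₀ ti := by
  have h18 : algebraMap R₀ F c ^ 18 * 387420489 = 1 := by
    have := congrArg (· ^ 18) hc
    simp only [mul_pow, one_pow] at this
    rw [← this]
    norm_num
  have hP : 387420489 * ti ^ 4 + 19131876 * ti ^ 3 + 196830 * ti ^ 2 + (756 - J) * ti + 1
      = 0 := by
    have e1 : J * ti = (1 + 27 * ti) * (1 + 243 * ti) ^ 3 := by
      calc J * ti = J * t ^ 3 * ti ^ 4 := by
            have : J * t ^ 3 * ti ^ 4 = J * ti * (t * ti) ^ 3 := by ring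
            rw [this, hti, one_pow, mul_one]
        _ = (t + 27) * (t + 243) ^ 3 * ti ^ 4 := by rw [hrel]
        _ = (t * ti + 27 * ti) * (t * ti + 243 * ti) ^ 3 := by ring
        _ = (1 + 27 * ti) * (1 + 243 * ti) ^ 3 := by rw [hti]
    linear_combination -e1
  have hx : IsIntegral (integralClosure R₀ F) ti := by
    refine ⟨Polynomial.X ^ 4 +
      Polynomial.C (algebraMap R₀ (integralClosure R₀ F) c ^ 18 * 19131876) * Polynomial.X ^ 3 +
      Polynomial.C (algebraMap R₀ (integralClosure R₀ F) c ^ 18 * 196830) * Polynomial.X ^ 2 +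
      Polynomial.C (algebraMap R₀ (integralClosure R₀ F) c ^ 18 *
        (756 - (⟨J, hJ⟩ : integralClosure R₀ F))) * Polynomial.X +
      Polynomial.C (algebraMap R₀ (integralClosure R₀ F) c ^ 18), ?_, ?_⟩
    · monicity!
    · simp only [Polynomial.eval₂_add, Polynomial.eval₂_mul, Polynomial.eval₂_pow,
        Polynomial.eval₂_X, Polynomial.eval₂_C]
      simp only [map_sub, map_ofNat, map_mul, map_pow]
      rw [← IsScalarTower.algebraMap_apply R₀ (integralClosure R₀ F) F]
      show ti ^ 4 + algebraMap R₀ F c ^ 18 * 19131876 * ti ^ 3 +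
        algebraMap R₀ F c ^ 18 * 196830 * ti ^ 2 +
        algebraMap R₀ F c ^ 18 * (756 - J) * ti + algebraMap R₀ F c ^ 18 = 0
      linear_combination (algebraMap R₀ F c ^ 18) * hP - ti ^ 4 * h18
  exact isIntegral_trans ti hx

end Alg

/-! ### Integral `q`-series: base change and reduction -/

section Series

theorem coeffMap_intCast_comp {R S : Type*} [CommRing R] [CommRing S] (φ : R →+* S)
    (y : LaurentSeries ℤ) :
    coeffMap φ (coeffMap (Int.castRingHom R) y) = coeffMap (Int.castRingHom S) y := by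
  rw [coeffMap_coeffMap]
  exact coeffMap_congr (RingHom.ext_int _ _) y

/-- Base change of the level-`2` relation with `J(q)`. -/
theorem rel2_map (R : Type*) [CommRing R] {y : LaurentSeries ℤ}
    (hrel : jqModC ℤ * y ^ 2 = (y + 256) ^ 3) :
    jqModC R * coeffMap (Int.castRingHom R) y ^ 2 =
      (coeffMap (Int.castRingHom R) y + 256) ^ 3 := by
  have h := congrArg (coeffMap (Int.castRingHom R)) hrel
  rwa [map_mul, map_pow, map_pow, map_add, map_ofNat, coeffMap_jqModC] at h

/-- Base change of the level-`3` relation with `J(q)`. -/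
theorem rel3_map (R : Type*) [CommRing R] {y : LaurentSeries ℤ}
    (hrel : jqModC ℤ * y ^ 3 = (y + 27) * (y + 243) ^ 3) :
    jqModC R * coeffMap (Int.castRingHom R) y ^ 3 =
      (coeffMap (Int.castRingHom R) y + 27) * (coeffMap (Int.castRingHom R) y + 243) ^ 3 := by
  have h := congrArg (coeffMap (Int.castRingHom R)) hrel
  rwa [map_mul, map_pow, map_mul, map_pow, map_add, map_add, map_ofNat, map_ofNat,
    coeffMap_jqModC] at h

/-- Base change of an inverse pair. -/
theorem inv_map (R : Type*) [CommRing R] {y yi : LaurentSeries ℤ} (h : y * yi = 1) :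
    coeffMap (Int.castRingHom R) y * coeffMap (Int.castRingHom R) yi = 1 := by
  rw [← map_mul, h, map_one]

variable {L : Type*} [Field L] [Algebra ℚ L]

/-- A rational function of level `N₀ ∣ M` with integer coefficients lies in `L·F_M`. -/
theorem mem_laurentBaseChange_of_int (L : Type*) [Field L] [Algebra ℚ L] {N₀ M : ℕ} [NeZero N₀]
    [NeZero M] (h : N₀ ∣ M) {y : LaurentSeries ℤ}
    (hy : coeffMap (Int.castRingHom ℚ) y ∈ modularFunctionFieldFull N₀) :
    coeffMap (Int.castRingHom L) y ∈ laurentBaseChange L (modularFunctionFieldFull M) := by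
  have h1 : coeffMap (Int.castRingHom L) y = coeffEmb L (coeffMap (Int.castRingHom ℚ) y) := by
    unfold coeffEmb
    rw [coeffMap_intCast_comp]
  rw [h1]
  exact coeffEmb_mem_laurentBaseChange L (full_degeneracy_le h hy)

variable (A : ValuationSubring L) {k : Type} [Field k] (π : A →+* k)

theorem incl_intCast (y : LaurentSeries ℤ) :
    incl A (coeffMap (Int.castRingHom A) y) = coeffMap (Int.castRingHom L) y :=
  coeffMap_intCast_comp A.subtype y

theorem rbar_intCast (y : LaurentSeries ℤ) :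
    rbar A π (coeffMap (Int.castRingHom A) y) = coeffMap (Int.castRingHom k) y :=
  coeffMap_intCast_comp π y

variable {A π}

/-- Gauss-integrality of an integer series of `L·F_M`. -/
theorem mem_Ow_of_int {M : ℕ} [NeZero M] (hNk : (M : k) ≠ 0) {y : LaurentSeries ℤ}
    (hyL : coeffMap (Int.castRingHom L) y ∈ laurentBaseChange L (modularFunctionFieldFull M)) :
    (⟨coeffMap (Int.castRingHom L) y, hyL⟩ :
      ↥(laurentBaseChange L (modularFunctionFieldFull M))) ∈ Ow A π M hNk := by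
  rw [mem_Ow_iff]
  show coeffMap (Int.castRingHom L) y ∈ gaussRing A π
  rw [← incl_intCast A y]
  exact incl_mem_gaussRing A π _

/-- The residue of an integer series of `L·F_M` is its reduction. -/
theorem coe_redF_of_int (hπ : ∀ a : A, ¬ IsUnit a → π a = 0) {M : ℕ} [NeZero M]
    (hNk : (M : k) ≠ 0) {y : LaurentSeries ℤ}
    (hyL : coeffMap (Int.castRingHom L) y ∈ laurentBaseChange L (modularFunctionFieldFull M))
    (hyO : (⟨coeffMap (Int.castRingHom L) y, hyL⟩ :
      ↥(laurentBaseChange L (modularFunctionFieldFull M))) ∈ Ow A π M hNk) :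
    ((redF A π M hπ hNk ⟨⟨coeffMap (Int.castRingHom L) y, hyL⟩, hyO⟩ :
      ↥(modularFunctionFieldFullC k M)) : LaurentSeries k) = coeffMap (Int.castRingHom k) y := by
  have hyL' : incl A (coeffMap (Int.castRingHom A) y) ∈
      laurentBaseChange L (modularFunctionFieldFull M) := by
    rw [incl_intCast]
    exact hyL
  have h := coe_redF_incl hπ hNk (coeffMap (Int.castRingHom A) y) hyL'
  rw [rbar_intCast] at h
  have e : (⟨⟨coeffMap (Int.castRingHom L) y, hyL⟩, hyO⟩ : Ow A π M hNk) =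
      ⟨⟨incl A (coeffMap (Int.castRingHom A) y), hyL'⟩, incl_mem_gaussRing A π _⟩ :=
    Subtype.ext (Subtype.ext (incl_intCast A y).symm)
  rw [e, h]

/-- The reduction of an integer series of `L·F_M` lies in the mod-`ℓ` function field. -/
theorem mem_fullC_of_int (A : ValuationSubring L) (π : A →+* k)
    (hπ : ∀ a : A, ¬ IsUnit a → π a = 0) {M : ℕ} [NeZero M] (hNk : (M : k) ≠ 0)
    {y : LaurentSeries ℤ}
    (hyL : coeffMap (Int.castRingHom L) y ∈ laurentBaseChange L (modularFunctionFieldFull M)) :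
    coeffMap (Int.castRingHom k) y ∈ modularFunctionFieldFullC k M := by
  rw [← coe_redF_of_int hπ hNk hyL (mem_Ow_of_int hNk hyL)]
  exact Subtype.property _

end Series

/-! ### (E-b) for an integer series satisfying the modular relation -/

section Ell

variable (A : ValuationSubring (AlgebraicClosure ℚ))

/-- **(ELL), level-`2` Hauptmodul in convention (A)**: `y ∈ ℤ((q))` with `y ∈ ℚ̄·F_M` and
`J(q) y² = (y + 256)³`; `x` the element of the mod-`ℓ` function field with `q`-expansion `ȳ`.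
Every zero of `x + 64` at a finite place has even order. -/
theorem two_dvd_ord_add_64_of_int (M ℓ : ℕ) [NeZero M] (hℓ : ℓ.Prime) (hℓM : ¬ ℓ ∣ M)
    (hgood : 5 ≤ ℓ ∨ (ℓ = 3 ∧ 2 ∣ M) ∨ (ℓ = 2 ∧ 3 ∣ M)) (hℓ2 : ℓ ≠ 2) (r : ℕ) (hr : r.Prime)
    (hr4 : r % 4 = 3) (hrM : r ∣ M) (hA : A.LiesOverPrime ℓ) {y : LaurentSeries ℤ}
    (hyL : coeffMap (Int.castRingHom KQ) y ∈ laurentBaseChange KQ (modularFunctionFieldFull M))
    (hrel : jqModC ℤ * y ^ 2 = (y + 256) ^ 3)
    (x : ↥(modularFunctionFieldFullC (IsLocalRing.ResidueField A) M))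
    (hx : (x : LaurentSeries (IsLocalRing.ResidueField A)) =
      coeffMap (Int.castRingHom (IsLocalRing.ResidueField A)) y)
    (Q : Place (IsLocalRing.ResidueField A)
      ↥(modularFunctionFieldFullC (IsLocalRing.ResidueField A) M))
    (hQ : 0 ≤ Q.ord (Jbar (IsLocalRing.ResidueField A) M)) :
    (2 : ℤ) ∣ Q.ord (x + 64) := by
  have hy : coeffMap A.subtype (coeffMap (Int.castRingHom A) y) ∈
      laurentBaseChange KQ (modularFunctionFieldFull M) := by
    rw [coeffMap_intCast_comp]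
    exact hyL
  have hyk : coeffMap (IsLocalRing.residue A) (coeffMap (Int.castRingHom A) y) ∈
      modularFunctionFieldFullC (IsLocalRing.ResidueField A) M := by
    rw [coeffMap_intCast_comp, ← hx]
    exact x.2
  have hrelF : jBar M * (⟨coeffMap A.subtype (coeffMap (Int.castRingHom A) y), hy⟩ : FN M) ^ 2 =
      ((⟨coeffMap A.subtype (coeffMap (Int.castRingHom A) y), hy⟩ : FN M) + 256) ^ 3 := by
    apply Subtype.ext
    show (jBar M : LaurentSeries KQ) * coeffMap A.subtype (coeffMap (Int.castRingHom A) y) ^ 2 =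
      (coeffMap A.subtype (coeffMap (Int.castRingHom A) y) + 256) ^ 3
    rw [coe_jBar_eq_jqModC M, coeffMap_intCast_comp]
    exact rel2_map KQ hrel
  have key := two_dvd_ord_add_64_of_rel A M ℓ hℓ hℓM hgood hℓ2 r hr hr4 hrM hA
    (coeffMap (Int.castRingHom A) y) hy hyk hrelF Q hQ
  have e : (⟨coeffMap (IsLocalRing.residue A) (coeffMap (Int.castRingHom A) y), hyk⟩ :
      ↥(modularFunctionFieldFullC (IsLocalRing.ResidueField A) M)) = x :=
    Subtype.ext (by
      show coeffMap (IsLocalRing.residue A) (coeffMap (Int.castRingHom A) y) =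
        (x : LaurentSeries (IsLocalRing.ResidueField A))
      rw [hx, coeffMap_intCast_comp])
  rw [e, map_neg, map_ofNat, sub_neg_eq_add] at key
  exact key

/-- **(ELL), level-`3` Hauptmodul in convention (A)**: `y ∈ ℤ((q))` with `y ∈ ℚ̄·F_M` and
`J(q) y³ = (y + 27)(y + 243)³`; `x` the element of the mod-`ℓ` function field with
`q`-expansion `ȳ`.  Every zero of `x + 27` at a finite place has order divisible by `3`. -/
theorem three_dvd_ord_add_27_of_int (M ℓ : ℕ) [NeZero M] (hℓ : ℓ.Prime) (hℓM : ¬ ℓ ∣ M)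
    (hgood : 5 ≤ ℓ ∨ (ℓ = 3 ∧ 2 ∣ M) ∨ (ℓ = 2 ∧ 3 ∣ M)) (hℓ3 : ℓ ≠ 3) (r : ℕ) (hr : r.Prime)
    (hr3 : r % 3 = 2) (hrM : r ∣ M) (hA : A.LiesOverPrime ℓ) {y : LaurentSeries ℤ}
    (hyL : coeffMap (Int.castRingHom KQ) y ∈ laurentBaseChange KQ (modularFunctionFieldFull M))
    (hrel : jqModC ℤ * y ^ 3 = (y + 27) * (y + 243) ^ 3)
    (x : ↥(modularFunctionFieldFullC (IsLocalRing.ResidueField A) M))
    (hx : (x : LaurentSeries (IsLocalRing.ResidueField A)) =
      coeffMap (Int.castRingHom (IsLocalRing.ResidueField A)) y)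
    (Q : Place (IsLocalRing.ResidueField A)
      ↥(modularFunctionFieldFullC (IsLocalRing.ResidueField A) M))
    (hQ : 0 ≤ Q.ord (Jbar (IsLocalRing.ResidueField A) M)) :
    (3 : ℤ) ∣ Q.ord (x + 27) := by
  have hy : coeffMap A.subtype (coeffMap (Int.castRingHom A) y) ∈
      laurentBaseChange KQ (modularFunctionFieldFull M) := by
    rw [coeffMap_intCast_comp]
    exact hyL
  have hyk : coeffMap (IsLocalRing.residue A) (coeffMap (Int.castRingHom A) y) ∈
      modularFunctionFieldFullC (IsLocalRing.ResidueField A) M := by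
    rw [coeffMap_intCast_comp, ← hx]
    exact x.2
  have hrelF : jBar M * (⟨coeffMap A.subtype (coeffMap (Int.castRingHom A) y), hy⟩ : FN M) ^ 3 =
      ((⟨coeffMap A.subtype (coeffMap (Int.castRingHom A) y), hy⟩ : FN M) + 27) *
        ((⟨coeffMap A.subtype (coeffMap (Int.castRingHom A) y), hy⟩ : FN M) + 243) ^ 3 := by
    apply Subtype.ext
    show (jBar M : LaurentSeries KQ) * coeffMap A.subtype (coeffMap (Int.castRingHom A) y) ^ 3 =
      (coeffMap A.subtype (coeffMap (Int.castRingHom A) y) + 27) *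
        (coeffMap A.subtype (coeffMap (Int.castRingHom A) y) + 243) ^ 3
    rw [coe_jBar_eq_jqModC M, coeffMap_intCast_comp]
    exact rel3_map KQ hrel
  have key := three_dvd_ord_add_27_of_rel A M ℓ hℓ hℓM hgood hℓ3 r hr hr3 hrM hA
    (coeffMap (Int.castRingHom A) y) hy hyk hrelF Q hQ
  have e : (⟨coeffMap (IsLocalRing.residue A) (coeffMap (Int.castRingHom A) y), hyk⟩ :
      ↥(modularFunctionFieldFullC (IsLocalRing.ResidueField A) M)) = x :=
    Subtype.ext (by
      show coeffMap (IsLocalRing.residue A) (coeffMap (Int.castRingHom A) y) =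
        (x : LaurentSeries (IsLocalRing.ResidueField A))
      rw [hx, coeffMap_intCast_comp])
  rw [e, map_neg, map_ofNat, sub_neg_eq_add] at key
  exact key

variable {B' : Type*} [CommRing B']

/-- **The hypotheses `hrel`, `hE` of `EllRel.hell_rel2`** (residue characteristic `≠ 2`, e.g.
`ℓ = 3`), in their literal shapes: `yh yi : B'` with `red' yh * red' yi = 1` and `red' yh` of
`q`-expansion `ȳ`, where `y ∈ ℤ((q))`, `y ∈ ℚ̄·F_M`, `J(q) y² = (y + 256)³`. -/
theorem hell_inputs_rel2 (M ℓ : ℕ) [NeZero M] (hℓ : ℓ.Prime) (hℓM : ¬ ℓ ∣ M)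
    (hgood : 5 ≤ ℓ ∨ (ℓ = 3 ∧ 2 ∣ M) ∨ (ℓ = 2 ∧ 3 ∣ M)) (hℓ2 : ℓ ≠ 2) (r : ℕ) (hr : r.Prime)
    (hr4 : r % 4 = 3) (hrM : r ∣ M) (hA : A.LiesOverPrime ℓ) {y : LaurentSeries ℤ}
    (hyL : coeffMap (Int.castRingHom KQ) y ∈ laurentBaseChange KQ (modularFunctionFieldFull M))
    (hrel : jqModC ℤ * y ^ 2 = (y + 256) ^ 3)
    (red' : B' →+* ↥(modularFunctionFieldFullC (IsLocalRing.ResidueField A) M)) (yh yi : B')
    (hyy : red' yh * red' yi = 1)
    (hyh : ((red' yh : ↥(modularFunctionFieldFullC (IsLocalRing.ResidueField A) M)) :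
      LaurentSeries (IsLocalRing.ResidueField A)) =
        coeffMap (Int.castRingHom (IsLocalRing.ResidueField A)) y) :
    Jbar (IsLocalRing.ResidueField A) M * red' yh ^ 2 = (red' yh + 256) ^ 3 ∧
      ∀ s : Place (IsLocalRing.ResidueField A)
          ↥(modularFunctionFieldFullC (IsLocalRing.ResidueField A) M),
        (∀ y : B', 0 ≤ s.ord (red' y)) → 0 < s.ord (red' yh + 64) →
          (2 : ℤ) ∣ s.ord (red' yh + 64) := by
  have hrelk : Jbar (IsLocalRing.ResidueField A) M * red' yh ^ 2 = (red' yh + 256) ^ 3 := by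
    apply Subtype.ext
    show jqModC (IsLocalRing.ResidueField A) *
        ((red' yh : ↥(modularFunctionFieldFullC (IsLocalRing.ResidueField A) M)) :
          LaurentSeries (IsLocalRing.ResidueField A)) ^ 2 =
      (((red' yh : ↥(modularFunctionFieldFullC (IsLocalRing.ResidueField A) M)) :
          LaurentSeries (IsLocalRing.ResidueField A)) + 256) ^ 3
    rw [hyh]
    exact rel2_map _ hrel
  refine ⟨hrelk, fun s hs _ => ?_⟩
  have hJ : Jbar (IsLocalRing.ResidueField A) M = red' ((yh + 256) ^ 3 * yi ^ 2) := by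
    rw [map_mul, map_pow, map_pow, map_add, map_ofNat, ← hrelk, mul_assoc, ← mul_pow, hyy,
      one_pow, mul_one]
  exact two_dvd_ord_add_64_of_int A M ℓ hℓ hℓM hgood hℓ2 r hr hr4 hrM hA hyL hrel (red' yh) hyh s
    (by rw [hJ]; exact hs _)

/-- **The hypotheses `hrel`, `hE` of `EllRel.hell_rel3`** (residue characteristic `≠ 3`, e.g.
`ℓ = 2`), in their literal shapes: `yh yi : B'` with `red' yh * red' yi = 1` and `red' yh` of
`q`-expansion `ȳ`, where `y ∈ ℤ((q))`, `y ∈ ℚ̄·F_M`, `J(q) y³ = (y + 27)(y + 243)³`. -/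
theorem hell_inputs_rel3 (M ℓ : ℕ) [NeZero M] (hℓ : ℓ.Prime) (hℓM : ¬ ℓ ∣ M)
    (hgood : 5 ≤ ℓ ∨ (ℓ = 3 ∧ 2 ∣ M) ∨ (ℓ = 2 ∧ 3 ∣ M)) (hℓ3 : ℓ ≠ 3) (r : ℕ) (hr : r.Prime)
    (hr3 : r % 3 = 2) (hrM : r ∣ M) (hA : A.LiesOverPrime ℓ) {y : LaurentSeries ℤ}
    (hyL : coeffMap (Int.castRingHom KQ) y ∈ laurentBaseChange KQ (modularFunctionFieldFull M))
    (hrel : jqModC ℤ * y ^ 3 = (y + 27) * (y + 243) ^ 3)
    (red' : B' →+* ↥(modularFunctionFieldFullC (IsLocalRing.ResidueField A) M)) (yh yi : B')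
    (hyy : red' yh * red' yi = 1)
    (hyh : ((red' yh : ↥(modularFunctionFieldFullC (IsLocalRing.ResidueField A) M)) :
      LaurentSeries (IsLocalRing.ResidueField A)) =
        coeffMap (Int.castRingHom (IsLocalRing.ResidueField A)) y) :
    Jbar (IsLocalRing.ResidueField A) M * red' yh ^ 3 =
        (red' yh + 27) * (red' yh + 243) ^ 3 ∧
      ∀ s : Place (IsLocalRing.ResidueField A)
          ↥(modularFunctionFieldFullC (IsLocalRing.ResidueField A) M),
        (∀ y : B', 0 ≤ s.ord (red' y)) → 0 < s.ord (red' yh + 27) →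
          (3 : ℤ) ∣ s.ord (red' yh + 27) := by
  have hrelk : Jbar (IsLocalRing.ResidueField A) M * red' yh ^ 3 =
      (red' yh + 27) * (red' yh + 243) ^ 3 := by
    apply Subtype.ext
    show jqModC (IsLocalRing.ResidueField A) *
        ((red' yh : ↥(modularFunctionFieldFullC (IsLocalRing.ResidueField A) M)) :
          LaurentSeries (IsLocalRing.ResidueField A)) ^ 3 =
      (((red' yh : ↥(modularFunctionFieldFullC (IsLocalRing.ResidueField A) M)) :
          LaurentSeries (IsLocalRing.ResidueField A)) + 27) *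
        (((red' yh : ↥(modularFunctionFieldFullC (IsLocalRing.ResidueField A) M)) :
          LaurentSeries (IsLocalRing.ResidueField A)) + 243) ^ 3
    rw [hyh]
    exact rel3_map _ hrel
  refine ⟨hrelk, fun s hs _ => ?_⟩
  have hJ : Jbar (IsLocalRing.ResidueField A) M =
      red' ((yh + 27) * (yh + 243) ^ 3 * yi ^ 3) := by
    rw [map_mul, map_mul, map_pow, map_pow, map_add, map_add, map_ofNat, map_ofNat, ← hrelk,
      mul_assoc, ← mul_pow, hyy, one_pow, mul_one]
  exact three_dvd_ord_add_27_of_int A M ℓ hℓ hℓM hgood hℓ3 r hr hr3 hrM hA hyL hrel (red' yh) hyh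
    s (by rw [hJ]; exact hs _)

end Ell

/-! ### The membership hypothesis for the two Hauptmoduln -/

section Inst

open Fermat.Agent.CAR.V3.Units Fermat.Agent.Lib.Red.HauptSeries

/-- `u₁ = Δ(q)/Δ(q²)` is a function of level `2`. -/
theorem u1_rat_mem :
    coeffMap (Int.castRingHom ℚ) (u1 ℤ 2) ∈ modularFunctionFieldFull 2 := by
  rw [coeffMap_u1]
  have h0 : jqModC ℚ ∈ modularFunctionFieldFull 2 :=
    HauptBase.adjoin_jq_le_full 2 (IntermediateField.subset_adjoin ℚ _ (Set.mem_insert _ _))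
  have h1 : jqNModC ℚ 2 ∈ modularFunctionFieldFull 2 :=
    HauptBase.adjoin_jq_le_full 2
      (IntermediateField.subset_adjoin ℚ _ (Set.mem_insert_of_mem _ (Set.mem_singleton _)))
  exact u1_mem Nat.prime_two (modularFunctionFieldFull 2).toSubfield h0 h1

/-- `u₁⁻¹ = Δ(q²)/Δ(q)` is a function of level `2`. -/
theorem u1inv_rat_mem :
    coeffMap (Int.castRingHom ℚ) (u1inv ℤ 2) ∈ modularFunctionFieldFull 2 := by
  rw [coeffMap_u1inv]
  have h0 : jqModC ℚ ∈ modularFunctionFieldFull 2 :=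
    HauptBase.adjoin_jq_le_full 2 (IntermediateField.subset_adjoin ℚ _ (Set.mem_insert _ _))
  have h1 : jqNModC ℚ 2 ∈ modularFunctionFieldFull 2 :=
    HauptBase.adjoin_jq_le_full 2
      (IntermediateField.subset_adjoin ℚ _ (Set.mem_insert_of_mem _ (Set.mem_singleton _)))
  exact u1inv_mem Nat.prime_two (modularFunctionFieldFull 2).toSubfield h0 h1

/-- Any integer series `t` with `t · t₃ = 729` (`t₃ = 3⁶ q ∏ ((1 - q^{3n})/(1 - q^n))^12`) is a
function of level `3`. -/
theorem rat_mem_of_mul_tInf {t : LaurentSeries ℤ} (ht : t * tInf ℤ = 729) :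
    coeffMap (Int.castRingHom ℚ) t ∈ modularFunctionFieldFull 3 := by
  obtain ⟨D⟩ := Fermat.Agent.S28.ModEqX.exists_modEqData 3 Nat.prime_three
  have h1 : tInf ℚ ∈ modularFunctionFieldFull 3 :=
    HauptBase.adjoin_jq_le_full 3 (HauptBase.tInf_mem_adjoin ℚ D (by norm_num))
  have h2 : coeffMap (Int.castRingHom ℚ) t * tInf ℚ = 729 := by
    have := congrArg (coeffMap (Int.castRingHom ℚ)) ht
    rwa [map_mul, coeffMap_tInf, map_ofNat] at this
  have h3 : tInf ℚ ≠ 0 := HauptBase.tInf_ne_zero ℚ (by norm_num)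
  have h4 : coeffMap (Int.castRingHom ℚ) t = 729 / tInf ℚ := by rw [eq_div_iff h3, h2]
  rw [h4]
  exact div_mem (ofNat_mem _ 729) h1

/-- The inverse `t₃ / 729` of such a `t`, when it has integer coefficients, is a function of
level `3`. -/
theorem rat_mem_inv_of_mul_tInf {t ti : LaurentSeries ℤ} (ht : t * tInf ℤ = 729)
    (hti : t * ti = 1) : coeffMap (Int.castRingHom ℚ) ti ∈ modularFunctionFieldFull 3 := by
  have h1 := rat_mem_of_mul_tInf ht
  have h2 := inv_map ℚ hti
  rw [eq_inv_of_mul_eq_one_right h2]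
  exact inv_mem h1

end Inst

/-! ### The two Hauptmoduln `u₁ = Δ(q)/Δ(q²)` and `hA3` -/

section Haupt

open Fermat.Agent.CAR.V3.Units Fermat.Agent.Lib.Red.HauptSeries
open Fermat.Agent.CAR.Ell.HauptRelA Fermat.Agent.CAR.Ell.HauptRelA3

theorem hA3_rat_mem : coeffMap (Int.castRingHom ℚ) (hA3 ℤ) ∈ modularFunctionFieldFull 3 :=
  rat_mem_of_mul_tInf (hA3_mul_tInf ℤ)

theorem hA3inv_rat_mem : coeffMap (Int.castRingHom ℚ) (hA3inv ℤ) ∈ modularFunctionFieldFull 3 :=
  rat_mem_inv_of_mul_tInf (hA3_mul_tInf ℤ) (hA3_mul_hA3inv ℤ)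

variable (L : Type*) [Field L] [Algebra ℚ L] {M : ℕ} [NeZero M]

/-- `u₁ = Δ(q)/Δ(q²) ∈ L·F_M` for `2 ∣ M`. -/
theorem u1_mem_F (h2M : 2 ∣ M) :
    u1 L 2 ∈ laurentBaseChange L (modularFunctionFieldFull M) := by
  rw [← coeffMap_u1 2 (Int.castRingHom L)]
  exact mem_laurentBaseChange_of_int L h2M u1_rat_mem

/-- `u₁⁻¹ = Δ(q²)/Δ(q) ∈ L·F_M` for `2 ∣ M`. -/
theorem u1inv_mem_F (h2M : 2 ∣ M) :
    u1inv L 2 ∈ laurentBaseChange L (modularFunctionFieldFull M) := by
  rw [← coeffMap_u1inv 2 (Int.castRingHom L)]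
  exact mem_laurentBaseChange_of_int L h2M u1inv_rat_mem

/-- `hA3 ∈ L·F_M` for `3 ∣ M`. -/
theorem hA3_mem_F (h3M : 3 ∣ M) :
    hA3 L ∈ laurentBaseChange L (modularFunctionFieldFull M) := by
  rw [← coeffMap_hA3 (Int.castRingHom L)]
  exact mem_laurentBaseChange_of_int L h3M hA3_rat_mem

/-- `hA3⁻¹ ∈ L·F_M` for `3 ∣ M`. -/
theorem hA3inv_mem_F (h3M : 3 ∣ M) :
    hA3inv L ∈ laurentBaseChange L (modularFunctionFieldFull M) := by
  rw [← coeffMap_hA3inv (Int.castRingHom L)]
  exact mem_laurentBaseChange_of_int L h3M hA3inv_rat_mem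

variable {L}

/-- The level-`2` relation in `L·F_M`, for any element `J` with `q`-expansion `J(q)`. -/
theorem rel_u1_F (h : u1 L 2 ∈ laurentBaseChange L (modularFunctionFieldFull M))
    (J : ↥(laurentBaseChange L (modularFunctionFieldFull M)))
    (hJ : (J : LaurentSeries L) = jqModC L) :
    J * (⟨u1 L 2, h⟩ : ↥(laurentBaseChange L (modularFunctionFieldFull M))) ^ 2 =
      ((⟨u1 L 2, h⟩ : ↥(laurentBaseChange L (modularFunctionFieldFull M))) + 256) ^ 3 := by
  apply Subtype.ext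
  show (J : LaurentSeries L) * u1 L 2 ^ 2 = (u1 L 2 + 256) ^ 3
  rw [hJ]
  exact relA2 L

/-- The level-`3` relation in `L·F_M`, for any element `J` with `q`-expansion `J(q)`. -/
theorem rel_hA3_F (h : hA3 L ∈ laurentBaseChange L (modularFunctionFieldFull M))
    (J : ↥(laurentBaseChange L (modularFunctionFieldFull M)))
    (hJ : (J : LaurentSeries L) = jqModC L) :
    J * (⟨hA3 L, h⟩ : ↥(laurentBaseChange L (modularFunctionFieldFull M))) ^ 3 =
      ((⟨hA3 L, h⟩ : ↥(laurentBaseChange L (modularFunctionFieldFull M))) + 27) *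
        ((⟨hA3 L, h⟩ : ↥(laurentBaseChange L (modularFunctionFieldFull M))) + 243) ^ 3 := by
  apply Subtype.ext
  show (J : LaurentSeries L) * hA3 L ^ 3 = (hA3 L + 27) * (hA3 L + 243) ^ 3
  rw [hJ]
  exact relA3 L

theorem u1_mul_u1inv_F (h : u1 L 2 ∈ laurentBaseChange L (modularFunctionFieldFull M))
    (h' : u1inv L 2 ∈ laurentBaseChange L (modularFunctionFieldFull M)) :
    (⟨u1 L 2, h⟩ : ↥(laurentBaseChange L (modularFunctionFieldFull M))) * ⟨u1inv L 2, h'⟩ = 1 :=
  Subtype.ext (u1_mul_u1inv L 2)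

theorem hA3_mul_hA3inv_F (h : hA3 L ∈ laurentBaseChange L (modularFunctionFieldFull M))
    (h' : hA3inv L ∈ laurentBaseChange L (modularFunctionFieldFull M)) :
    (⟨hA3 L, h⟩ : ↥(laurentBaseChange L (modularFunctionFieldFull M))) * ⟨hA3inv L, h'⟩ = 1 :=
  Subtype.ext (hA3_mul_hA3inv L)

section Integral

variable {R₀ : Type*} [CommRing R₀] [Algebra R₀ ↥(laurentBaseChange L (modularFunctionFieldFull M))]

/-- `u₁` is integral over any ring over which `J` is. -/
theorem isIntegral_u1_F (h : u1 L 2 ∈ laurentBaseChange L (modularFunctionFieldFull M))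
    {J : ↥(laurentBaseChange L (modularFunctionFieldFull M))}
    (hJ : (J : LaurentSeries L) = jqModC L) (hJi : IsIntegral R₀ J) :
    IsIntegral R₀ (⟨u1 L 2, h⟩ : ↥(laurentBaseChange L (modularFunctionFieldFull M))) :=
  isIntegral_of_rel2 hJi (rel_u1_F h J hJ)

/-- `u₁⁻¹` is integral over any ring over which `J` is and in which `2` is invertible. -/
theorem isIntegral_u1inv_F (h : u1 L 2 ∈ laurentBaseChange L (modularFunctionFieldFull M))
    (h' : u1inv L 2 ∈ laurentBaseChange L (modularFunctionFieldFull M))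
    {J : ↥(laurentBaseChange L (modularFunctionFieldFull M))}
    (hJ : (J : LaurentSeries L) = jqModC L) (hJi : IsIntegral R₀ J) {c : R₀}
    (hc : algebraMap R₀ ↥(laurentBaseChange L (modularFunctionFieldFull M)) c * 2 = 1) :
    IsIntegral R₀ (⟨u1inv L 2, h'⟩ : ↥(laurentBaseChange L (modularFunctionFieldFull M))) :=
  isIntegral_inv_of_rel2 hJi (rel_u1_F h J hJ) (u1_mul_u1inv_F h h') hc

/-- `hA3` is integral over any ring over which `J` is. -/
theorem isIntegral_hA3_F (h : hA3 L ∈ laurentBaseChange L (modularFunctionFieldFull M))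
    {J : ↥(laurentBaseChange L (modularFunctionFieldFull M))}
    (hJ : (J : LaurentSeries L) = jqModC L) (hJi : IsIntegral R₀ J) :
    IsIntegral R₀ (⟨hA3 L, h⟩ : ↥(laurentBaseChange L (modularFunctionFieldFull M))) :=
  isIntegral_of_rel3 hJi (rel_hA3_F h J hJ)

/-- `hA3⁻¹` is integral over any ring over which `J` is and in which `3` is invertible. -/
theorem isIntegral_hA3inv_F (h : hA3 L ∈ laurentBaseChange L (modularFunctionFieldFull M))
    (h' : hA3inv L ∈ laurentBaseChange L (modularFunctionFieldFull M))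
    {J : ↥(laurentBaseChange L (modularFunctionFieldFull M))}
    (hJ : (J : LaurentSeries L) = jqModC L) (hJi : IsIntegral R₀ J) {c : R₀}
    (hc : algebraMap R₀ ↥(laurentBaseChange L (modularFunctionFieldFull M)) c * 3 = 1) :
    IsIntegral R₀ (⟨hA3inv L, h'⟩ : ↥(laurentBaseChange L (modularFunctionFieldFull M))) :=
  isIntegral_inv_of_rel3 hJi (rel_hA3_F h J hJ) (hA3_mul_hA3inv_F h h') hc

end Integral

section Red

variable {A : ValuationSubring L} {k : Type} [Field k] {π : A →+* k}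

/-- Any `L`-series with integer coefficients lying in `L·F_M` is Gauss-integral, with residue
the same series over `k`: the general form used for `u₁`, `u₁⁻¹`, `hA3`, `hA3⁻¹`. -/
theorem mem_Ow_of_coeffMap_int (hNk : (M : k) ≠ 0) {z : LaurentSeries L} (y : LaurentSeries ℤ)
    (hz : coeffMap (Int.castRingHom L) y = z)
    (h : z ∈ laurentBaseChange L (modularFunctionFieldFull M)) :
    (⟨z, h⟩ : ↥(laurentBaseChange L (modularFunctionFieldFull M))) ∈ Ow A π M hNk := by
  subst hz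
  exact mem_Ow_of_int hNk h

theorem coe_redF_of_coeffMap_int (hπ : ∀ a : A, ¬ IsUnit a → π a = 0) (hNk : (M : k) ≠ 0)
    {z : LaurentSeries L} (y : LaurentSeries ℤ) (hz : coeffMap (Int.castRingHom L) y = z)
    (h : z ∈ laurentBaseChange L (modularFunctionFieldFull M))
    (hO : (⟨z, h⟩ : ↥(laurentBaseChange L (modularFunctionFieldFull M))) ∈ Ow A π M hNk) :
    ((redF A π M hπ hNk ⟨⟨z, h⟩, hO⟩ : ↥(modularFunctionFieldFullC k M)) : LaurentSeries k) =
      coeffMap (Int.castRingHom k) y := by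
  subst hz
  exact coe_redF_of_int hπ hNk h hO

theorem u1_mem_Ow (hNk : (M : k) ≠ 0)
    (h : u1 L 2 ∈ laurentBaseChange L (modularFunctionFieldFull M)) :
    (⟨u1 L 2, h⟩ : ↥(laurentBaseChange L (modularFunctionFieldFull M))) ∈ Ow A π M hNk :=
  mem_Ow_of_coeffMap_int hNk (u1 ℤ 2) (coeffMap_u1 2 _) h

theorem u1inv_mem_Ow (hNk : (M : k) ≠ 0)
    (h : u1inv L 2 ∈ laurentBaseChange L (modularFunctionFieldFull M)) :
    (⟨u1inv L 2, h⟩ : ↥(laurentBaseChange L (modularFunctionFieldFull M))) ∈ Ow A π M hNk :=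
  mem_Ow_of_coeffMap_int hNk (u1inv ℤ 2) (coeffMap_u1inv 2 _) h

theorem hA3_mem_Ow (hNk : (M : k) ≠ 0)
    (h : hA3 L ∈ laurentBaseChange L (modularFunctionFieldFull M)) :
    (⟨hA3 L, h⟩ : ↥(laurentBaseChange L (modularFunctionFieldFull M))) ∈ Ow A π M hNk :=
  mem_Ow_of_coeffMap_int hNk (hA3 ℤ) (coeffMap_hA3 _) h

theorem hA3inv_mem_Ow (hNk : (M : k) ≠ 0)
    (h : hA3inv L ∈ laurentBaseChange L (modularFunctionFieldFull M)) :
    (⟨hA3inv L, h⟩ : ↥(laurentBaseChange L (modularFunctionFieldFull M))) ∈ Ow A π M hNk :=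
  mem_Ow_of_coeffMap_int hNk (hA3inv ℤ) (coeffMap_hA3inv _) h

/-- `red (u₁) = ū₁`. -/
theorem coe_redF_u1 (hπ : ∀ a : A, ¬ IsUnit a → π a = 0) (hNk : (M : k) ≠ 0)
    (h : u1 L 2 ∈ laurentBaseChange L (modularFunctionFieldFull M))
    (hO : (⟨u1 L 2, h⟩ : ↥(laurentBaseChange L (modularFunctionFieldFull M))) ∈ Ow A π M hNk) :
    ((redF A π M hπ hNk ⟨⟨u1 L 2, h⟩, hO⟩ : ↥(modularFunctionFieldFullC k M)) :
      LaurentSeries k) = u1 k 2 := by
  rw [coe_redF_of_coeffMap_int hπ hNk (u1 ℤ 2) (coeffMap_u1 2 _) h hO, coeffMap_u1]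

/-- `red (hA3) = hA3` over `k`. -/
theorem coe_redF_hA3 (hπ : ∀ a : A, ¬ IsUnit a → π a = 0) (hNk : (M : k) ≠ 0)
    (h : hA3 L ∈ laurentBaseChange L (modularFunctionFieldFull M))
    (hO : (⟨hA3 L, h⟩ : ↥(laurentBaseChange L (modularFunctionFieldFull M))) ∈ Ow A π M hNk) :
    ((redF A π M hπ hNk ⟨⟨hA3 L, h⟩, hO⟩ : ↥(modularFunctionFieldFullC k M)) :
      LaurentSeries k) = hA3 k := by
  rw [coe_redF_of_coeffMap_int hπ hNk (hA3 ℤ) (coeffMap_hA3 _) h hO, coeffMap_hA3]

end Red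

variable (A : ValuationSubring (AlgebraicClosure ℚ)) {B' : Type*} [CommRing B']

/-- **(ELL) at `ℓ = 3` (any `ℓ ≠ 2` with `2 ∣ M`): the hypotheses `hrel`, `hE` of
`EllRel.hell_rel2` for `yh` with `red' yh = ū₁`, `u₁ = Δ(q)/Δ(q²)`** — literal shapes. -/
theorem hell_inputs_haupt2 (M ℓ : ℕ) [NeZero M] (hℓ : ℓ.Prime) (hℓM : ¬ ℓ ∣ M)
    (hgood : 5 ≤ ℓ ∨ (ℓ = 3 ∧ 2 ∣ M) ∨ (ℓ = 2 ∧ 3 ∣ M)) (hℓ2 : ℓ ≠ 2) (h2M : 2 ∣ M) (r : ℕ)
    (hr : r.Prime) (hr4 : r % 4 = 3) (hrM : r ∣ M) (hA : A.LiesOverPrime ℓ)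
    (red' : B' →+* ↥(modularFunctionFieldFullC (IsLocalRing.ResidueField A) M)) (yh yi : B')
    (hyy : red' yh * red' yi = 1)
    (hyh : ((red' yh : ↥(modularFunctionFieldFullC (IsLocalRing.ResidueField A) M)) :
      LaurentSeries (IsLocalRing.ResidueField A)) = u1 (IsLocalRing.ResidueField A) 2) :
    Jbar (IsLocalRing.ResidueField A) M * red' yh ^ 2 = (red' yh + 256) ^ 3 ∧
      ∀ s : Place (IsLocalRing.ResidueField A)
          ↥(modularFunctionFieldFullC (IsLocalRing.ResidueField A) M),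
        (∀ y : B', 0 ≤ s.ord (red' y)) → 0 < s.ord (red' yh + 64) →
          (2 : ℤ) ∣ s.ord (red' yh + 64) :=
  hell_inputs_rel2 A M ℓ hℓ hℓM hgood hℓ2 r hr hr4 hrM hA
    (mem_laurentBaseChange_of_int KQ h2M u1_rat_mem) relA2_int red' yh yi hyy
    (by rw [hyh, coeffMap_u1])

/-- **(ELL) at `ℓ = 2` (any `ℓ ≠ 3` with `3 ∣ M`): the hypotheses `hrel`, `hE` of
`EllRel.hell_rel3` for `yh` with `red' yh = hA3` over `k`** — literal shapes. -/
theorem hell_inputs_haupt3 (M ℓ : ℕ) [NeZero M] (hℓ : ℓ.Prime) (hℓM : ¬ ℓ ∣ M)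
    (hgood : 5 ≤ ℓ ∨ (ℓ = 3 ∧ 2 ∣ M) ∨ (ℓ = 2 ∧ 3 ∣ M)) (hℓ3 : ℓ ≠ 3) (h3M : 3 ∣ M) (r : ℕ)
    (hr : r.Prime) (hr3 : r % 3 = 2) (hrM : r ∣ M) (hA : A.LiesOverPrime ℓ)
    (red' : B' →+* ↥(modularFunctionFieldFullC (IsLocalRing.ResidueField A) M)) (yh yi : B')
    (hyy : red' yh * red' yi = 1)
    (hyh : ((red' yh : ↥(modularFunctionFieldFullC (IsLocalRing.ResidueField A) M)) :
      LaurentSeries (IsLocalRing.ResidueField A)) = hA3 (IsLocalRing.ResidueField A)) :
    Jbar (IsLocalRing.ResidueField A) M * red' yh ^ 3 =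
        (red' yh + 27) * (red' yh + 243) ^ 3 ∧
      ∀ s : Place (IsLocalRing.ResidueField A)
          ↥(modularFunctionFieldFullC (IsLocalRing.ResidueField A) M),
        (∀ y : B', 0 ≤ s.ord (red' y)) → 0 < s.ord (red' yh + 27) →
          (3 : ℤ) ∣ s.ord (red' yh + 27) :=
  hell_inputs_rel3 A M ℓ hℓ hℓM hgood hℓ3 r hr hr3 hrM hA
    (mem_laurentBaseChange_of_int KQ h3M hA3_rat_mem) relA3_int red' yh yi hyy
    (by rw [hyh, coeffMap_hA3])

end Haupt

end

end Fermat.Agent.CAR.Ell.Haupt23
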