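/-
CAR, wall (ELL): the Fricke involution descends to the mod-`ℓ` function field.

`A` a valuation subring of `ℚ̄`, `π : A → k` its residue map, `N ≠ 0` in `k`.  The Fricke
involution `w` of `F = ℚ̄·F_N` (`w (J(q^d)) = J(q^(N/d))`, `S24/Fricke.lean`) preserves the Gauss
valuation ring `Ow`: by the good basis of `F / ℚ̄(x)`, `x = J(q^N)` (`Lib.Red.exists_goodBasis`),
every `y ∈ Ow` is `∑ c_i b_i` with `c_i ∈ Ow ∩ ℚ̄(x)` and `b_i` integer polynomials in the
`J(q^e)`; `w` permutes the `J(q^e)`, and `w c ∈ Ow` for `c ∈ Ow ∩ ℚ̄(x)` because both `x̄` and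
`w x = J(q)` have transcendental reduction.

* `fricke_mem_Ow` : `y ∈ Ow → w y ∈ Ow`;
* `frickeBar : F̃ ≃ₐ[k] F̃` with `frickeBar (redF y) = redF (w y)` (`frickeBar_redF`),
  `frickeBar_xk : frickeBar (xk k N) = Jbar k N`, `frickeBar_Jbar`, `frickeBar_frickeBar`;
* `ord_Jbar_sub` : `Q.ord (Jbar - c) = (frickeBar⁻¹ • Q).ord (xk - c)`;
* `two_dvd_ord_Jbar_sub_1728`, `three_dvd_ord_Jbar` : the elliptic orders of `J̄(q)` modulo
  `ℓ ≥ 5` (transport of `CAR/Ell/Inst.lean`).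
-/
import Mathlib
import Fermat.Agent.CAR.Ell.Inst
import Fermat.Agent.S24.Fricke
import Fermat.Agent.Lib.FF.ModL

set_option autoImplicit false
set_option linter.unusedSectionVars false

namespace Fermat.Agent.CAR.Ell.FrickeRed

open ModularCurve AlgebraicCurve Fermat.Agent.S28 Fermat.Agent.S24 Fermat.Agent.Lib.Red
open Fermat.Agent.S24.Fricke
open scoped IntermediateField

noncomputable section

variable (A : ValuationSubring KQ) {k : Type} [Field k] (π : A →+* k) (N : ℕ) [NeZero N]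

/-- `J(q^d)`, `d ∣ N`, is a function of `ℚ̄·F_N`. -/
theorem incl_Jd_mem {d : ℕ} (hd : d ∣ N) :
    incl A (TD.Jd A d) ∈ laurentBaseChange KQ (modularFunctionFieldFull N) := by
  rw [incl_Jd, laurentBaseChange_eq_FF]
  have := TD.Jd_mem_FF KQ (N := N) (m := 1) hd
  rwa [one_mul] at this

/-- The generator `J(q^d)` of S24 is the integral series `J(q^d)`. -/
theorem jFormal_eq (d : Dv N) :
    jFormal N d = ⟨incl A (TD.Jd A d.1), incl_Jd_mem A N d.2⟩ := by
  have : NeZero d.1 := d.neZero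
  apply Subtype.ext
  show coeffEmb KQ (qExpand ℚ d.1 jq) = incl A (TD.Jd A d.1)
  rw [incl_Jd, ← TD.Jd_rat d.1, coeffEmb, TD.coeffMap_Jd]

variable {A π N}

/-- The Fricke involution maps the ring generated by the `J(q^e)` into the Gauss ring. -/
theorem fricke_jRing_mem (hNk : (N : k) ≠ 0) (s : LaurentSeries A) (hs : s ∈ jRing A N) :
    ∃ h : incl A s ∈ laurentBaseChange KQ (modularFunctionFieldFull N),
      fricke N ⟨incl A s, h⟩ ∈ Ow A π N hNk := by
  unfold jRing at hs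
  induction hs using Subring.closure_induction with
  | mem x hx =>
    obtain ⟨e, he, rfl⟩ := hx
    refine ⟨incl_Jd_mem A N he, ?_⟩
    have h1 : (⟨incl A (TD.Jd A e), incl_Jd_mem A N he⟩ :
        ↥(laurentBaseChange KQ (modularFunctionFieldFull N))) = jFormal N ⟨e, he⟩ :=
      (jFormal_eq A N ⟨e, he⟩).symm
    rw [h1, fricke_jFormal, jFormal_eq A N]
    exact incl_mem_gaussRing A π _
  | zero =>
    refine ⟨by rw [map_zero]; exact zero_mem _, ?_⟩
    have h1 : (⟨incl A 0, by rw [map_zero]; exact zero_mem _⟩ :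
        ↥(laurentBaseChange KQ (modularFunctionFieldFull N))) = 0 := Subtype.ext (map_zero _)
    rw [h1, map_zero]
    exact zero_mem _
  | one =>
    refine ⟨by rw [map_one]; exact one_mem _, ?_⟩
    have h1 : (⟨incl A 1, by rw [map_one]; exact one_mem _⟩ :
        ↥(laurentBaseChange KQ (modularFunctionFieldFull N))) = 1 := Subtype.ext (map_one _)
    rw [h1, map_one]
    exact one_mem _
  | add x y _ _ hx hy =>
    obtain ⟨hx1, hx2⟩ := hx
    obtain ⟨hy1, hy2⟩ := hy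
    have hm : incl A (x + y) ∈ laurentBaseChange KQ (modularFunctionFieldFull N) := by
      rw [map_add]; exact add_mem hx1 hy1
    refine ⟨hm, ?_⟩
    have h1 : (⟨incl A (x + y), hm⟩ : ↥(laurentBaseChange KQ (modularFunctionFieldFull N))) =
        ⟨incl A x, hx1⟩ + ⟨incl A y, hy1⟩ := Subtype.ext (map_add _ _ _)
    rw [h1, map_add]
    exact add_mem hx2 hy2
  | neg x _ hx =>
    obtain ⟨hx1, hx2⟩ := hx
    have hm : incl A (-x) ∈ laurentBaseChange KQ (modularFunctionFieldFull N) := by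
      rw [map_neg]; exact neg_mem hx1
    refine ⟨hm, ?_⟩
    have h1 : (⟨incl A (-x), hm⟩ : ↥(laurentBaseChange KQ (modularFunctionFieldFull N))) =
        -⟨incl A x, hx1⟩ := Subtype.ext (map_neg _ _)
    rw [h1, map_neg]
    exact neg_mem hx2
  | mul x y _ _ hx hy =>
    obtain ⟨hx1, hx2⟩ := hx
    obtain ⟨hy1, hy2⟩ := hy
    have hm : incl A (x * y) ∈ laurentBaseChange KQ (modularFunctionFieldFull N) := by
      rw [map_mul]; exact mul_mem hx1 hy1
    refine ⟨hm, ?_⟩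
    have h1 : (⟨incl A (x * y), hm⟩ : ↥(laurentBaseChange KQ (modularFunctionFieldFull N))) =
        ⟨incl A x, hx1⟩ * ⟨incl A y, hy1⟩ := Subtype.ext (map_mul _ _ _)
    rw [h1, map_mul]
    exact mul_mem hx2 hy2

/-! ### The Fricke involution preserves the Gauss valuation ring -/

/-- The inverse of a unit of a valuation subring lies in it. -/
theorem inv_mem_of_isUnit {F : Type*} [Field F] {O : ValuationSubring F} {x : F} (hx : x ∈ O)
    (hu : IsUnit (⟨x, hx⟩ : O)) : x⁻¹ ∈ O := by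
  obtain ⟨w, hw⟩ := hu.exists_right_inv
  have hw' : x * (w : F) = 1 := congrArg Subtype.val hw
  rw [← eq_inv_of_mul_eq_one_right hw']
  exact w.2

/-- `J(q^N)` of the RED layer is the integral series `J(q^N)`. -/
theorem xL_eq_xF : xL KQ N = BaseFn.xF A N (TD.Jd A N) (incl_Jd_mem A N dvd_rfl) :=
  Subtype.ext (incl_Jd A N).symm

/-- `w (J(q^N)) = J(q)`. -/
theorem fricke_xL : fricke N (xL KQ N) =
    BaseFn.xF A N (TD.Jd A 1) (incl_Jd_mem A N (one_dvd N)) := by
  rw [BranchInst.xL_eq_jFormal, fricke_jFormal, jFormal_eq A N]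
  apply Subtype.ext
  show incl A (TD.Jd A (N / N)) = incl A (TD.Jd A 1)
  rw [Nat.div_self (NeZero.pos N)]

/-- A polynomial with nonzero reduction, evaluated at `J(q^d)`, is a unit of `Ow`. -/
theorem isUnit_aeval_Jd (hπ : ∀ a : A, ¬ IsUnit a → π a = 0) (hNk : (N : k) ≠ 0)
    {d : ℕ} (hd : d ∣ N) (P : Polynomial A) (hP : P.map π ≠ 0) :
    IsUnit (⟨_, BaseFn.aeval_xF_mem_Ow (π := π) hNk (TD.Jd A d) (incl_Jd_mem A N hd) P⟩ :
      Ow A π N hNk) := by
  have hd0 : d ≠ 0 := fun h => NeZero.ne N (by rw [h] at hd; exact zero_dvd_iff.mp hd)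
  have htr : ∀ p : Polynomial k,
      p.eval₂ (HahnSeries.C : k →+* LaurentSeries k) (rbar A π (TD.Jd A d)) = 0 → p = 0 := by
    intro p hp
    rw [rbar_Jd] at hp
    exact Jd_eval₂_eq_zero k hd0 p hp
  have hred := BaseFn.redF_aeval_xF hπ hNk (TD.Jd A d) (incl_Jd_mem A N hd) P
  have htrans := BaseFn.transcendental_xt hπ hNk (TD.Jd A d) (incl_Jd_mem A N hd) htr
  by_contra hnu
  have h1 := (redF_eq_zero_iff hπ hNk _).mpr hnu
  rw [hred] at h1
  exact hP ((transcendental_iff.mp htrans) _ h1)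

/-- A polynomial with nonzero reduction, evaluated at `J(q^d)`: membership, inverse, nonvanishing. -/
theorem aeval_Jd_unit (hπ : ∀ a : A, ¬ IsUnit a → π a = 0) (hNk : (N : k) ≠ 0)
    {d : ℕ} (hd : d ∣ N) (P : Polynomial A) (hP : P.map π ≠ 0) :
    Polynomial.aeval (BaseFn.xF A N (TD.Jd A d) (incl_Jd_mem A N hd))
      (P.map A.subtype) ∈ Ow A π N hNk ∧
    (Polynomial.aeval (BaseFn.xF A N (TD.Jd A d) (incl_Jd_mem A N hd))
      (P.map A.subtype))⁻¹ ∈ Ow A π N hNk ∧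
    Polynomial.aeval (BaseFn.xF A N (TD.Jd A d) (incl_Jd_mem A N hd))
      (P.map A.subtype) ≠ 0 := by
  have hu := isUnit_aeval_Jd hπ hNk hd P hP
  refine ⟨BaseFn.aeval_xF_mem_Ow (π := π) hNk (TD.Jd A d) (incl_Jd_mem A N hd) P,
    inv_mem_of_isUnit _ hu, ?_⟩
  intro h0
  have h2 : (⟨_, BaseFn.aeval_xF_mem_Ow (π := π) hNk (TD.Jd A d) (incl_Jd_mem A N hd) P⟩ :
      Ow A π N hNk) = 0 := Subtype.ext h0
  rw [h2] at hu
  exact not_isUnit_zero hu

/-- **Fricke on `Ow ∩ ℚ̄(J(q^N))`.** -/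
theorem fricke_mem_Ow_of_mem_adjoin (hπ : ∀ a : A, ¬ IsUnit a → π a = 0) (hNk : (N : k) ≠ 0)
    (c : ↥(laurentBaseChange KQ (modularFunctionFieldFull N))) (hc : c ∈ KQ⟮xL KQ N⟯)
    (hcO : c ∈ Ow A π N hNk) : fricke N c ∈ Ow A π N hNk := by
  obtain ⟨r, s, rfl⟩ := (IntermediateField.mem_adjoin_simple_iff KQ _).mp hc
  by_cases hr : r = 0
  · rw [hr, map_zero, zero_div, map_zero]
    exact zero_mem _
  by_cases hs : s = 0
  · rw [hs, map_zero, div_zero, map_zero]
    exact zero_mem _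
  obtain ⟨a₁, ha₁, P, hP, hPπ⟩ := exists_primitive_scaling π r hr
  obtain ⟨a₂, ha₂, Q, hQ, hQπ⟩ := exists_primitive_scaling π s hs
  have hα₁ : algebraMap KQ ↥(laurentBaseChange KQ (modularFunctionFieldFull N)) a₁ ≠ 0 :=
    (map_ne_zero _).mpr ha₁
  have hα₂ : algebraMap KQ ↥(laurentBaseChange KQ (modularFunctionFieldFull N)) a₂ ≠ 0 :=
    (map_ne_zero _).mpr ha₂
  -- the shape of the fraction at any point
  have key : ∀ t : ↥(laurentBaseChange KQ (modularFunctionFieldFull N)),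
      Polynomial.aeval t r / Polynomial.aeval t s =
        algebraMap KQ _ (a₂ / a₁) *
          (Polynomial.aeval t (P.map A.subtype) * (Polynomial.aeval t (Q.map A.subtype))⁻¹) := by
    intro t
    rw [hP, hQ, map_mul, map_mul, Polynomial.aeval_C, Polynomial.aeval_C, map_div₀]
    field_simp
  -- the constant lies in `A`
  obtain ⟨hPm, hPi, hP0⟩ := aeval_Jd_unit hπ hNk (dvd_refl N) P hPπ
  obtain ⟨hQm, hQi, hQ0⟩ := aeval_Jd_unit hπ hNk (dvd_refl N) Q hQπ
  rw [← xL_eq_xF] at hPm hPi hP0 hQm hQi hQ0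
  have hconst : algebraMap KQ ↥(laurentBaseChange KQ (modularFunctionFieldFull N)) (a₂ / a₁) ∈
      Ow A π N hNk := by
    have h2 : algebraMap KQ ↥(laurentBaseChange KQ (modularFunctionFieldFull N)) (a₂ / a₁) =
        (Polynomial.aeval (xL KQ N) r / Polynomial.aeval (xL KQ N) s) *
          (Polynomial.aeval (xL KQ N) (Q.map A.subtype) *
            (Polynomial.aeval (xL KQ N) (P.map A.subtype))⁻¹) := by
      rw [key (xL KQ N)]
      field_simp
    rw [h2]
    exact mul_mem hcO (mul_mem hQm hPi)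
  -- apply Fricke
  have hf : ∀ p : Polynomial KQ, fricke N (Polynomial.aeval (xL KQ N) p) =
      Polynomial.aeval (fricke N (xL KQ N)) p := fun p =>
    (Polynomial.aeval_algHom_apply (fricke N).toAlgHom (xL KQ N) p).symm
  obtain ⟨hPm', -, -⟩ := aeval_Jd_unit hπ hNk (one_dvd N) P hPπ
  obtain ⟨-, hQi', -⟩ := aeval_Jd_unit hπ hNk (one_dvd N) Q hQπ
  rw [map_div₀, hf, hf, fricke_xL (A := A), key]
  exact mul_mem hconst (mul_mem hPm' hQi')

/-- **The Fricke involution preserves the Gauss valuation ring.** -/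
theorem fricke_mem_Ow (hπ : ∀ a : A, ¬ IsUnit a → π a = 0) (hsurj : Function.Surjective π)
    (hNk : (N : k) ≠ 0) (y : ↥(laurentBaseChange KQ (modularFunctionFieldFull N)))
    (hy : y ∈ Ow A π N hNk) : fricke N y ∈ Ow A π N hNk := by
  classical
  obtain ⟨ι, hι, G, hG⟩ := exists_goodBasis hπ hsurj hNk
  have h1 := G.sum_repr_mul y
  rw [← h1, map_sum]
  refine sum_mem fun i _ => ?_
  rw [map_mul]
  refine mul_mem ?_ ?_
  · exact fricke_mem_Ow_of_mem_adjoin hπ hNk _ (G.basisF.repr y i).2 (G.repr_mem ⟨y, hy⟩ i)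
  · obtain ⟨s, hs, hsb⟩ := hG i
    obtain ⟨h, hmem⟩ := fricke_jRing_mem (π := π) hNk s hs
    have e : (⟨incl A s, h⟩ : ↥(laurentBaseChange KQ (modularFunctionFieldFull N))) =
        ((G.b i : Ow A π N hNk) : ↥(laurentBaseChange KQ (modularFunctionFieldFull N))) :=
      Subtype.ext hsb
    rw [← e]
    exact hmem

/-! ### The induced involution of the mod-`ℓ` function field -/

/-- The Fricke involution on the Gauss valuation ring. -/
def frickeO (hπ : ∀ a : A, ¬ IsUnit a → π a = 0) (hsurj : Function.Surjective π)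
    (hNk : (N : k) ≠ 0) : Ow A π N hNk →+* Ow A π N hNk :=
  (((fricke N).toAlgHom.toRingHom).comp (Ow A π N hNk).subtype).codRestrict (Ow A π N hNk)
    (fun y => fricke_mem_Ow hπ hsurj hNk _ y.2)

@[simp] theorem coe_frickeO (hπ : ∀ a : A, ¬ IsUnit a → π a = 0) (hsurj : Function.Surjective π)
    (hNk : (N : k) ≠ 0) (y : Ow A π N hNk) :
    ((frickeO hπ hsurj hNk y : Ow A π N hNk) :
      ↥(laurentBaseChange KQ (modularFunctionFieldFull N))) =
      fricke N (y : ↥(laurentBaseChange KQ (modularFunctionFieldFull N))) := rfl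

theorem frickeO_frickeO (hπ : ∀ a : A, ¬ IsUnit a → π a = 0) (hsurj : Function.Surjective π)
    (hNk : (N : k) ≠ 0) (y : Ow A π N hNk) :
    frickeO hπ hsurj hNk (frickeO hπ hsurj hNk y) = y := by
  apply Subtype.ext
  rw [coe_frickeO, coe_frickeO, fricke_fricke]

theorem redF_frickeO_eq_zero (hπ : ∀ a : A, ¬ IsUnit a → π a = 0)
    (hsurj : Function.Surjective π) (hNk : (N : k) ≠ 0) (y : Ow A π N hNk)
    (h : redF A π N hπ hNk y = 0) : redF A π N hπ hNk (frickeO hπ hsurj hNk y) = 0 := by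
  rw [redF_eq_zero_iff] at h ⊢
  intro hu
  apply h
  have h1 := hu.map (frickeO hπ hsurj hNk)
  rwa [frickeO_frickeO] at h1

/-- The Fricke involution of the mod-`ℓ` function field, as a ring endomorphism. -/
def frickeBarHom (hπ : ∀ a : A, ¬ IsUnit a → π a = 0) (hsurj : Function.Surjective π)
    (hNk : (N : k) ≠ 0) :
    ↥(modularFunctionFieldFullC k N) →+* ↥(modularFunctionFieldFullC k N) :=
  (redF A π N hπ hNk).liftOfSurjective (redF_surjective hπ hsurj hNk)
    ⟨(redF A π N hπ hNk).comp (frickeO hπ hsurj hNk), fun y hy => by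
      rw [RingHom.mem_ker] at hy ⊢
      exact redF_frickeO_eq_zero hπ hsurj hNk y hy⟩

theorem frickeBarHom_redF (hπ : ∀ a : A, ¬ IsUnit a → π a = 0) (hsurj : Function.Surjective π)
    (hNk : (N : k) ≠ 0) (y : Ow A π N hNk) :
    frickeBarHom hπ hsurj hNk (redF A π N hπ hNk y) =
      redF A π N hπ hNk (frickeO hπ hsurj hNk y) :=
  RingHom.liftOfSurjective_comp_apply _ _ _ y

theorem frickeBarHom_frickeBarHom (hπ : ∀ a : A, ¬ IsUnit a → π a = 0)
    (hsurj : Function.Surjective π) (hNk : (N : k) ≠ 0) (z : ↥(modularFunctionFieldFullC k N)) :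
    frickeBarHom hπ hsurj hNk (frickeBarHom hπ hsurj hNk z) = z := by
  obtain ⟨y, rfl⟩ := redF_surjective hπ hsurj hNk z
  rw [frickeBarHom_redF, frickeBarHom_redF, frickeO_frickeO]

theorem frickeBarHom_algebraMap (hπ : ∀ a : A, ¬ IsUnit a → π a = 0)
    (hsurj : Function.Surjective π) (hNk : (N : k) ≠ 0) (c : k) :
    frickeBarHom hπ hsurj hNk (algebraMap k ↥(modularFunctionFieldFullC k N) c) =
      algebraMap k ↥(modularFunctionFieldFullC k N) c := by
  obtain ⟨a, rfl⟩ := hsurj c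
  rw [← redF_algebraMap hπ hNk a, frickeBarHom_redF]
  congr 1
  apply Subtype.ext
  rw [coe_frickeO]
  exact (fricke N).commutes (a : KQ)

/-- **The Fricke involution of the mod-`ℓ` function field.** -/
def frickeBar (hπ : ∀ a : A, ¬ IsUnit a → π a = 0) (hsurj : Function.Surjective π)
    (hNk : (N : k) ≠ 0) :
    ↥(modularFunctionFieldFullC k N) ≃ₐ[k] ↥(modularFunctionFieldFullC k N) :=
  AlgEquiv.ofRingEquiv
    (f := RingEquiv.ofRingHom (frickeBarHom hπ hsurj hNk) (frickeBarHom hπ hsurj hNk)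
      (RingHom.ext (frickeBarHom_frickeBarHom hπ hsurj hNk))
      (RingHom.ext (frickeBarHom_frickeBarHom hπ hsurj hNk)))
    (frickeBarHom_algebraMap hπ hsurj hNk)

theorem frickeBar_apply (hπ : ∀ a : A, ¬ IsUnit a → π a = 0) (hsurj : Function.Surjective π)
    (hNk : (N : k) ≠ 0) (z : ↥(modularFunctionFieldFullC k N)) :
    frickeBar hπ hsurj hNk z = frickeBarHom hπ hsurj hNk z := rfl

/-- `w̄ (red y) = red (w y)`. -/
theorem frickeBar_redF (hπ : ∀ a : A, ¬ IsUnit a → π a = 0) (hsurj : Function.Surjective π)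
    (hNk : (N : k) ≠ 0) (y : Ow A π N hNk) :
    frickeBar hπ hsurj hNk (redF A π N hπ hNk y) =
      redF A π N hπ hNk (frickeO hπ hsurj hNk y) :=
  frickeBarHom_redF hπ hsurj hNk y

theorem frickeBar_frickeBar (hπ : ∀ a : A, ¬ IsUnit a → π a = 0) (hsurj : Function.Surjective π)
    (hNk : (N : k) ≠ 0) (z : ↥(modularFunctionFieldFullC k N)) :
    frickeBar hπ hsurj hNk (frickeBar hπ hsurj hNk z) = z :=
  frickeBarHom_frickeBarHom hπ hsurj hNk z

/-- The function `J̄(q^d)`, `d ∣ N`, of the mod-`ℓ` function field. -/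
def Jdk (k : Type) [Field k] (N : ℕ) [NeZero N] {d : ℕ} (hd : d ∣ N) :
    ↥(modularFunctionFieldFullC k N) :=
  ⟨TD.Jd k d, by
    rw [fullC_eq_FF]
    have := TD.Jd_mem_FF k (N := N) (m := 1) hd
    rwa [one_mul] at this⟩

theorem Jdk_self (k : Type) [Field k] (N : ℕ) [NeZero N] : Jdk k N (dvd_refl N) = xk k N := rfl

theorem Jdk_one (k : Type) [Field k] (N : ℕ) [NeZero N] :
    Jdk k N (one_dvd N) = Fermat.Agent.Lib.FF.ModL.Jbar k N :=
  Subtype.ext (TD.Jd_one k)

/-- The reduction of `J(q^d)` is `J̄(q^d)`. -/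
theorem redF_Jd (hπ : ∀ a : A, ¬ IsUnit a → π a = 0) (hNk : (N : k) ≠ 0) {d : ℕ} (hd : d ∣ N) :
    redF A π N hπ hNk ⟨⟨incl A (TD.Jd A d), incl_Jd_mem A N hd⟩, incl_mem_gaussRing A π _⟩ =
      Jdk k N hd := by
  apply Subtype.ext
  rw [coe_redF_incl hπ hNk, rbar_Jd]
  rfl

/-- **`w̄ (J̄(q^d)) = J̄(q^(N/d))`.** -/
theorem frickeBar_Jdk (hπ : ∀ a : A, ¬ IsUnit a → π a = 0) (hsurj : Function.Surjective π)
    (hNk : (N : k) ≠ 0) {d : ℕ} (hd : d ∣ N) :
    frickeBar hπ hsurj hNk (Jdk k N hd) = Jdk k N (Nat.div_dvd_of_dvd hd) := by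
  rw [← redF_Jd hπ hNk hd, frickeBar_redF, ← redF_Jd hπ hNk (Nat.div_dvd_of_dvd hd)]
  congr 1
  apply Subtype.ext
  rw [coe_frickeO]
  have h1 : (⟨incl A (TD.Jd A d), incl_Jd_mem A N hd⟩ :
      ↥(laurentBaseChange KQ (modularFunctionFieldFull N))) = jFormal N ⟨d, hd⟩ :=
    (jFormal_eq A N ⟨d, hd⟩).symm
  show fricke N ⟨incl A (TD.Jd A d), incl_Jd_mem A N hd⟩ = _
  rw [h1, fricke_jFormal, jFormal_eq A N]
  rfl

/-- `w̄ (J̄(q^N)) = J̄(q)`. -/
theorem frickeBar_xk (hπ : ∀ a : A, ¬ IsUnit a → π a = 0) (hsurj : Function.Surjective π)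
    (hNk : (N : k) ≠ 0) :
    frickeBar hπ hsurj hNk (xk k N) = Fermat.Agent.Lib.FF.ModL.Jbar k N := by
  rw [← Jdk_self, frickeBar_Jdk hπ hsurj hNk (dvd_refl N), ← Jdk_one]
  apply Subtype.ext
  show TD.Jd k (N / N) = TD.Jd k 1
  rw [Nat.div_self (NeZero.pos N)]

/-- `w̄ (J̄(q)) = J̄(q^N)`. -/
theorem frickeBar_Jbar (hπ : ∀ a : A, ¬ IsUnit a → π a = 0) (hsurj : Function.Surjective π)
    (hNk : (N : k) ≠ 0) :
    frickeBar hπ hsurj hNk (Fermat.Agent.Lib.FF.ModL.Jbar k N) = xk k N := by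
  rw [← frickeBar_xk hπ hsurj hNk, frickeBar_frickeBar]

/-- **Transport of orders**: `ord_Q (w̄ f) = ord_{w̄⁻¹ Q} (f)`. -/
theorem ord_frickeBar (hπ : ∀ a : A, ¬ IsUnit a → π a = 0) (hsurj : Function.Surjective π)
    (hNk : (N : k) ≠ 0) (Q : Place k ↥(modularFunctionFieldFullC k N))
    (f : ↥(modularFunctionFieldFullC k N)) :
    Q.ord (frickeBar hπ hsurj hNk f) = ((frickeBar hπ hsurj hNk)⁻¹ • Q).ord f := by
  have h := Place.ord_smul (frickeBar hπ hsurj hNk) ((frickeBar hπ hsurj hNk)⁻¹ • Q) f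
  rwa [smul_inv_smul] at h

/-- The orders of `J̄(q) - c` are the orders of `J̄(q^N) - c` at the Fricke-conjugate place. -/
theorem ord_Jbar_sub (hπ : ∀ a : A, ¬ IsUnit a → π a = 0) (hsurj : Function.Surjective π)
    (hNk : (N : k) ≠ 0) (Q : Place k ↥(modularFunctionFieldFullC k N)) (c : k) :
    Q.ord (Fermat.Agent.Lib.FF.ModL.Jbar k N - algebraMap k _ c) =
      ((frickeBar hπ hsurj hNk)⁻¹ • Q).ord (xk k N - algebraMap k _ c) := by
  rw [← ord_frickeBar, map_sub, frickeBar_xk, AlgEquiv.commutes]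

/-! ### The elliptic orders of `J̄(q)` modulo `ℓ ≥ 5` -/

section Final

variable (A)

open Fermat.Agent.ESJ

set_option synthInstance.maxHeartbeats 400000 in
set_option maxHeartbeats 1000000 in
/-- **(ELL) for `J̄(q)`, `ℓ ≥ 5`, the value `1728`.** -/
theorem two_dvd_ord_Jbar_sub_1728 (M ℓ : ℕ) [NeZero M] (hℓ : ℓ.Prime) (hℓM : ¬ ℓ ∣ M)
    (h5 : 5 ≤ ℓ) (r : ℕ) (hr : r.Prime) (hr4 : r % 4 = 3) (hrM : r ∣ M)
    (hA : A.LiesOverPrime ℓ)
    (Q : Place (IsLocalRing.ResidueField A)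
      ↥(modularFunctionFieldFullC (IsLocalRing.ResidueField A) M))
    (hQ : 0 < Q.ord (Fermat.Agent.Lib.FF.ModL.Jbar (IsLocalRing.ResidueField A) M -
      algebraMap (IsLocalRing.ResidueField A) _ 1728)) :
    (2 : ℤ) ∣ Q.ord (Fermat.Agent.Lib.FF.ModL.Jbar (IsLocalRing.ResidueField A) M -
      algebraMap (IsLocalRing.ResidueField A) _ 1728) := by
  have hNk : (M : IsLocalRing.ResidueField A) ≠ 0 := natCast_residue_ne_zero' A hℓ hA M hℓM
  have hπ := residue_eq_zero_of_not_isUnit' A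
  have hsurj : Function.Surjective (IsLocalRing.residue A) := IsLocalRing.residue_surjective
  rw [ord_Jbar_sub hπ hsurj hNk] at hQ ⊢
  exact two_dvd_ord_xk_sub_1728 A M ℓ hℓ hℓM h5 r hr hr4 hrM hA _ hQ

set_option synthInstance.maxHeartbeats 400000 in
set_option maxHeartbeats 1000000 in
/-- **(ELL) for `J̄(q)`, `ℓ ≥ 5`, the value `0`.** -/
theorem three_dvd_ord_Jbar (M ℓ : ℕ) [NeZero M] (hℓ : ℓ.Prime) (hℓM : ¬ ℓ ∣ M)
    (h5 : 5 ≤ ℓ) (r : ℕ) (hr : r.Prime) (hr3 : r % 3 = 2) (hrM : r ∣ M)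
    (hA : A.LiesOverPrime ℓ)
    (Q : Place (IsLocalRing.ResidueField A)
      ↥(modularFunctionFieldFullC (IsLocalRing.ResidueField A) M))
    (hQ : 0 < Q.ord (Fermat.Agent.Lib.FF.ModL.Jbar (IsLocalRing.ResidueField A) M)) :
    (3 : ℤ) ∣ Q.ord (Fermat.Agent.Lib.FF.ModL.Jbar (IsLocalRing.ResidueField A) M) := by
  have hNk : (M : IsLocalRing.ResidueField A) ≠ 0 := natCast_residue_ne_zero' A hℓ hA M hℓM
  have hπ := residue_eq_zero_of_not_isUnit' A
  have hsurj : Function.Surjective (IsLocalRing.residue A) := IsLocalRing.residue_surjective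
  have h0 := ord_Jbar_sub hπ hsurj hNk Q 0
  rw [map_zero, sub_zero, sub_zero] at h0
  rw [h0] at hQ ⊢
  exact three_dvd_ord_xk A M ℓ hℓ hℓM h5 r hr hr3 hrM hA _ hQ

/-! ### The Hauptmodul cases `ℓ = 3` and `ℓ = 2` -/

set_option synthInstance.maxHeartbeats 400000 in
set_option maxHeartbeats 1000000 in
/-- **(ELL), `ℓ = 3`.**  In the mod-`3` function field of level `M = m * 2` there is a function
`y` (the Fricke conjugate of the reduction of `y₂(q^m)`) with `J̄(q) y² = (y + 256)³` all of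
whose zeros of `y + 64` have even order. -/
theorem exists_haupt2 (M m : ℕ) [NeZero M] [NeZero m] (hM : M = m * 2)
    (h3M : ¬ 3 ∣ M) (r : ℕ) (hr : r.Prime) (hr4 : r % 4 = 3) (hrM : r ∣ M)
    (hA : A.LiesOverPrime 3) :
    ∃ y : ↥(modularFunctionFieldFullC (IsLocalRing.ResidueField A) M),
      Fermat.Agent.Lib.FF.ModL.Jbar (IsLocalRing.ResidueField A) M * y ^ 2 = (y + 256) ^ 3 ∧
      ∀ Q : Place (IsLocalRing.ResidueField A)
        ↥(modularFunctionFieldFullC (IsLocalRing.ResidueField A) M),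
        0 < Q.ord (y + 64) → (2 : ℤ) ∣ Q.ord (y + 64) := by
  have hNk : (M : IsLocalRing.ResidueField A) ≠ 0 :=
    natCast_residue_ne_zero' A Nat.prime_three hA M h3M
  have hπ := residue_eq_zero_of_not_isUnit' A
  have hsurj : Function.Surjective (IsLocalRing.residue A) := IsLocalRing.residue_surjective
  have h2 : (2 : IsLocalRing.ResidueField A) ≠ 0 := by
    intro h
    apply hNk
    rw [hM]
    push_cast
    rw [h, mul_zero]
  set B := BaseFn.ofHaupt2 A (IsLocalRing.residue A) M m hM h2 with hB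
  -- the relation in `Ow` and its reduction
  have hrel := BaseFn.ofHaupt2_rel (A := A) (π := IsLocalRing.residue A) M m hM h2
  have hrelO : (⟨⟨incl A (TD.Jd A M), incl_Jd_mem A M (dvd_refl M)⟩,
      incl_mem_gaussRing A (IsLocalRing.residue A) _⟩ : Ow A (IsLocalRing.residue A) M hNk) *
      (⟨B.x, B.x_mem_Ow hNk⟩ : Ow A (IsLocalRing.residue A) M hNk) ^ 2 =
      ((⟨B.x, B.x_mem_Ow hNk⟩ : Ow A (IsLocalRing.residue A) M hNk) + 256) ^ 3 := by
    apply Subtype.ext
    rw [xL_eq_xF (A := A)] at hrel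
    exact hrel
  have hred := congrArg (redF A (IsLocalRing.residue A) M hπ hNk) hrelO
  rw [map_mul, map_pow, map_pow, map_add, map_ofNat, redF_Jd hπ hNk (dvd_refl M),
    B.redF_x hπ hNk, Jdk_self] at hred
  have hfr := congrArg (frickeBar hπ hsurj hNk) hred
  rw [map_mul, map_pow, map_pow, map_add, map_ofNat, frickeBar_xk] at hfr
  refine ⟨frickeBar hπ hsurj hNk (B.xt hπ hNk), hfr, ?_⟩
  intro Q hQ
  have e : frickeBar hπ hsurj hNk (B.xt hπ hNk) + 64 =
      frickeBar hπ hsurj hNk (B.xt hπ hNk - algebraMap (IsLocalRing.ResidueField A) _ (-64)) := by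
    rw [map_sub, AlgEquiv.commutes, map_neg, sub_neg_eq_add, map_ofNat]
  rw [e, ord_frickeBar] at hQ ⊢
  exact two_dvd_ord_haupt2_add_64 A M m hM h3M r hr hr4 hrM hA h2 hπ hNk _ hQ

set_option synthInstance.maxHeartbeats 400000 in
set_option maxHeartbeats 1000000 in
/-- **(ELL), `ℓ = 2`.**  In the mod-`2` function field of level `M = m * 3` there is a function
`y` (the Fricke conjugate of the reduction of `t₃(q^m)`) with
`J̄(q) y³ = (y + 27)(y + 243)³` all of whose zeros of `y + 27` have order divisible by `3`. -/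
theorem exists_haupt3 (M m : ℕ) [NeZero M] [NeZero m] (hM : M = m * 3)
    (h2M : ¬ 2 ∣ M) (r : ℕ) (hr : r.Prime) (hr3 : r % 3 = 2) (hrM : r ∣ M)
    (hA : A.LiesOverPrime 2) :
    ∃ y : ↥(modularFunctionFieldFullC (IsLocalRing.ResidueField A) M),
      Fermat.Agent.Lib.FF.ModL.Jbar (IsLocalRing.ResidueField A) M * y ^ 3 =
        (y + 27) * (y + 243) ^ 3 ∧
      ∀ Q : Place (IsLocalRing.ResidueField A)
        ↥(modularFunctionFieldFullC (IsLocalRing.ResidueField A) M),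
        0 < Q.ord (y + 27) → (3 : ℤ) ∣ Q.ord (y + 27) := by
  have hNk : (M : IsLocalRing.ResidueField A) ≠ 0 :=
    natCast_residue_ne_zero' A Nat.prime_two hA M h2M
  have hπ := residue_eq_zero_of_not_isUnit' A
  have hsurj : Function.Surjective (IsLocalRing.residue A) := IsLocalRing.residue_surjective
  have h3 : (3 : IsLocalRing.ResidueField A) ≠ 0 := by
    intro h
    apply hNk
    rw [hM]
    push_cast
    rw [h, mul_zero]
  set B := BaseFn.ofHaupt3 A (IsLocalRing.residue A) M m hM h3 with hB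
  have hrel := BaseFn.ofHaupt3_rel (A := A) (π := IsLocalRing.residue A) M m hM h3
  have hrelO : (⟨⟨incl A (TD.Jd A M), incl_Jd_mem A M (dvd_refl M)⟩,
      incl_mem_gaussRing A (IsLocalRing.residue A) _⟩ : Ow A (IsLocalRing.residue A) M hNk) *
      (⟨B.x, B.x_mem_Ow hNk⟩ : Ow A (IsLocalRing.residue A) M hNk) ^ 3 =
      ((⟨B.x, B.x_mem_Ow hNk⟩ : Ow A (IsLocalRing.residue A) M hNk) + 27) *
        ((⟨B.x, B.x_mem_Ow hNk⟩ : Ow A (IsLocalRing.residue A) M hNk) + 243) ^ 3 := by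
    apply Subtype.ext
    rw [xL_eq_xF (A := A)] at hrel
    exact hrel
  have hred := congrArg (redF A (IsLocalRing.residue A) M hπ hNk) hrelO
  rw [map_mul, map_pow, map_mul, map_pow, map_add, map_add, map_ofNat, map_ofNat,
    redF_Jd hπ hNk (dvd_refl M), B.redF_x hπ hNk, Jdk_self] at hred
  have hfr := congrArg (frickeBar hπ hsurj hNk) hred
  rw [map_mul, map_pow, map_mul, map_pow, map_add, map_add, map_ofNat, map_ofNat,
    frickeBar_xk] at hfr
  refine ⟨frickeBar hπ hsurj hNk (B.xt hπ hNk), hfr, ?_⟩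
  intro Q hQ
  have e : frickeBar hπ hsurj hNk (B.xt hπ hNk) + 27 =
      frickeBar hπ hsurj hNk (B.xt hπ hNk - algebraMap (IsLocalRing.ResidueField A) _ (-27)) := by
    rw [map_sub, AlgEquiv.commutes, map_neg, sub_neg_eq_add, map_ofNat]
  rw [e, ord_frickeBar] at hQ ⊢
  exact three_dvd_ord_haupt3_add_27 A M m hM h2M r hr hr3 hrM hA h3 hπ hNk _ hQ

end Final

end

end Fermat.Agent.CAR.Ell.FrickeRed
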