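/-
CAR, wall (ELL) at `q = 3` and `q = 2`: the Hauptmodul units `yh`, `yi` of
`B' = integralClosure (W0[J(q^{M'})]) (K0·F_{M'})`, closed form.

* generic `(L, A, π)`, `B : BaseFn.Data A π N` with `x = J(q^N)`: any function with
  `q`-expansion `J(q)` is integral over `A[x]` (`isIntegral_AX_of_coe_eq_jq`), hence so are
  `u₁ = Δ(q)/Δ(q²)` and `hA3` (`isIntegral_AX_u1`, `isIntegral_AX_hA3`), and their inverses when
  `2` resp. `3` is invertible in `A` (`isIntegral_AX_u1inv`, `isIntegral_AX_hA3inv`);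
* `(K0 A, W0 A, resW0 A)`, `B'` and `red'` in the shape of `LiftK0.Closed.contract_lift_J`:
  **`haupt2_K0`** (`q ≠ 2`, `2 ∣ M'`; e.g. `q = 3`) and **`haupt3_K0`** (`q ≠ 3`, `3 ∣ M'`;
  e.g. `q = 2`): `Inst.EllFin.Haupt2 A M' red'` resp. `Inst.EllFin.Haupt3 A M' red'`, i.e.
  `∃ yh yi : B', red' yh * red' yi = 1 ∧ hrel ∧ hE`, the three hypotheses of
  `Local.Inst.EllRel.hell_rel2 / hell_rel3` in their literal shapes;
* **`hell_K0_closed`** : the hypothesis `hell` of the finite chart for every contract on the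
  canonical `B'` with `D = d/dJ̄`, `G = J̄⁸ (J̄ - 1728)⁶`, `x' = J(q)`, at every level `M'` prime
  to `q`, divisible by a prime `r ≡ 11 (mod 12)`, by `2` if `q = 3` and by `3` if `q = 2` —
  no hypothesis left.
-/
import Mathlib
import Fermat.Agent.CAR.Ell.Haupt23
import Fermat.Agent.CAR.LiftK0.ContractLiftJ
import Fermat.Agent.CAR.Inst.EllFinK0

set_option autoImplicit false
set_option linter.unusedSectionVars false
set_option linter.style.haveILetI false
set_option synthInstance.maxHeartbeats 400000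
set_option maxHeartbeats 1000000

namespace Fermat.Agent.CAR.Ell.Haupt23K0

open AlgebraicCurve ModularCurve HahnSeries
open Fermat.Agent.Lib.Red Fermat.Agent.Lib.Red.BaseFn Fermat.Agent.CAR.K0 Fermat.Agent.S28
open Fermat.Agent.CAR.V3.Units Fermat.Agent.CAR.Ell.HauptRelA3 Fermat.Agent.Lib.FF.ModL
open Fermat.Agent.CAR.Ell.Haupt23 Fermat.Agent.ESJ

local notation "Qb" => AlgebraicClosure ℚ

noncomputable section

/-! ### Generic `(L, A, π)`: integrality over `A[J(q^N)]` -/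

section Generic

variable {L : Type*} [Field L] [Algebra ℚ L] {A : ValuationSubring L} {k : Type} [Field k]
  {π : A →+* k} {N : ℕ} [NeZero N]

/-- A function with `q`-expansion `J(q)` is integral over `A[x]`, `x = J(q^N)`. -/
theorem isIntegral_AX_of_coe_eq_jq (B : Data A π N)
    (hBx : ((B.x : ↥(laurentBaseChange L (modularFunctionFieldFull N))) : LaurentSeries L) =
      TD.Jd L N)
    (J : ↥(laurentBaseChange L (modularFunctionFieldFull N)))
    (hJ : (J : LaurentSeries L) = jqModC L) : IsIntegral B.AX J := by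
  letI : Algebra B.AX (LaurentSeries L) :=
    ((algebraMap ↥(laurentBaseChange L (modularFunctionFieldFull N)) (LaurentSeries L)).comp
      B.AX.subtype).toAlgebra
  haveI : IsScalarTower B.AX ↥(laurentBaseChange L (modularFunctionFieldFull N))
      (LaurentSeries L) := IsScalarTower.of_algebraMap_eq fun _ => rfl
  have hinj : Function.Injective
      (algebraMap ↥(laurentBaseChange L (modularFunctionFieldFull N)) (LaurentSeries L)) :=
    (algebraMap ↥(laurentBaseChange L (modularFunctionFieldFull N)) (LaurentSeries L)).injective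
  rw [← isIntegral_algebraMap_iff hinj]
  show IsIntegral B.AX (J : LaurentSeries L)
  have h := Fermat.Agent.CAR.Ell.isIntegral_Jd_iff (R₀ := B.AX) L N (NeZero.ne N) 1 one_ne_zero
  rw [one_mul] at h
  rw [hJ, ← TD.Jd_one, h, ← hBx]
  exact isIntegral_algebraMap (R := B.AX) (A := LaurentSeries L) (x := ⟨B.x, B.x_mem_AX⟩)

/-- The function `J(q)` of `L·F_N`. -/
def jF (L : Type*) [Field L] [Algebra ℚ L] (N : ℕ) [NeZero N] :
    ↥(laurentBaseChange L (modularFunctionFieldFull N)) :=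
  ⟨TD.Jd L 1, by
    rw [laurentBaseChange_eq_FF]
    have := TD.Jd_mem_FF L (N := N) (m := 1) (d := 1) (one_dvd N)
    rwa [one_mul] at this⟩

theorem coe_jF (L : Type*) [Field L] [Algebra ℚ L] (N : ℕ) [NeZero N] :
    ((jF L N : ↥(laurentBaseChange L (modularFunctionFieldFull N))) : LaurentSeries L) =
      jqModC L := TD.Jd_one L

theorem isIntegral_AX_jF (B : Data A π N)
    (hBx : ((B.x : ↥(laurentBaseChange L (modularFunctionFieldFull N))) : LaurentSeries L) =
      TD.Jd L N) : IsIntegral B.AX (jF L N) :=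
  isIntegral_AX_of_coe_eq_jq B hBx (jF L N) (coe_jF L N)

/-- A constant of `A` inverse to `n`, as an element of `A[x]`. -/
theorem exists_AX_mul_eq_one (B : Data A π N) {a : A} {n : L} (ha : (a : L) * n = 1) :
    ∃ c : B.AX, algebraMap B.AX ↥(laurentBaseChange L (modularFunctionFieldFull N)) c *
      algebraMap L ↥(laurentBaseChange L (modularFunctionFieldFull N)) n = 1 := by
  refine ⟨⟨algebraMap L ↥(laurentBaseChange L (modularFunctionFieldFull N)) (a : L),
    B.mem_AX_iff.mpr ⟨Polynomial.C a, by rw [Polynomial.map_C, Polynomial.aeval_C]; rfl⟩⟩, ?_⟩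
  show algebraMap L ↥(laurentBaseChange L (modularFunctionFieldFull N)) (a : L) *
    algebraMap L ↥(laurentBaseChange L (modularFunctionFieldFull N)) n = 1
  rw [← map_mul, ha, map_one]

theorem isIntegral_AX_u1 (B : Data A π N)
    (hBx : ((B.x : ↥(laurentBaseChange L (modularFunctionFieldFull N))) : LaurentSeries L) =
      TD.Jd L N) (h : u1 L 2 ∈ laurentBaseChange L (modularFunctionFieldFull N)) :
    IsIntegral B.AX (⟨u1 L 2, h⟩ : ↥(laurentBaseChange L (modularFunctionFieldFull N))) :=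
  isIntegral_u1_F h (coe_jF L N) (isIntegral_AX_jF B hBx)

theorem isIntegral_AX_u1inv (B : Data A π N)
    (hBx : ((B.x : ↥(laurentBaseChange L (modularFunctionFieldFull N))) : LaurentSeries L) =
      TD.Jd L N) (h : u1 L 2 ∈ laurentBaseChange L (modularFunctionFieldFull N))
    (h' : u1inv L 2 ∈ laurentBaseChange L (modularFunctionFieldFull N)) {a : A}
    (ha : (a : L) * 2 = 1) :
    IsIntegral B.AX (⟨u1inv L 2, h'⟩ : ↥(laurentBaseChange L (modularFunctionFieldFull N))) := by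
  obtain ⟨c, hc⟩ := exists_AX_mul_eq_one B ha
  rw [map_ofNat] at hc
  exact isIntegral_u1inv_F h h' (coe_jF L N) (isIntegral_AX_jF B hBx) hc

theorem isIntegral_AX_hA3 (B : Data A π N)
    (hBx : ((B.x : ↥(laurentBaseChange L (modularFunctionFieldFull N))) : LaurentSeries L) =
      TD.Jd L N) (h : hA3 L ∈ laurentBaseChange L (modularFunctionFieldFull N)) :
    IsIntegral B.AX (⟨hA3 L, h⟩ : ↥(laurentBaseChange L (modularFunctionFieldFull N))) :=
  isIntegral_hA3_F h (coe_jF L N) (isIntegral_AX_jF B hBx)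

theorem isIntegral_AX_hA3inv (B : Data A π N)
    (hBx : ((B.x : ↥(laurentBaseChange L (modularFunctionFieldFull N))) : LaurentSeries L) =
      TD.Jd L N) (h : hA3 L ∈ laurentBaseChange L (modularFunctionFieldFull N))
    (h' : hA3inv L ∈ laurentBaseChange L (modularFunctionFieldFull N)) {a : A}
    (ha : (a : L) * 3 = 1) :
    IsIntegral B.AX (⟨hA3inv L, h'⟩ : ↥(laurentBaseChange L (modularFunctionFieldFull N))) := by
  obtain ⟨c, hc⟩ := exists_AX_mul_eq_one B ha
  rw [map_ofNat] at hc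
  exact isIntegral_hA3inv_F h h' (coe_jF L N) (isIntegral_AX_jF B hBx) hc

end Generic

/-! ### The canonical `B'` over `(K0, W0, resW0)` -/

section K0

open IsLocalRing Fermat.Agent.CAR.Local.Inst Fermat.Agent.CAR.Inst

variable {A : ValuationSubring Qb} {q : ℕ} (hq : q.Prime) (hA : A.LiesOverPrime q)
  (M' : ℕ) [NeZero M'] (hM' : (M' : ResidueField A) ≠ 0)
  (red' : ↥(integralClosure ↥((Data.ofJ (W0 A) (resW0 A) M').AX)
      ↥(laurentBaseChange ↥(K0 A) (modularFunctionFieldFull M'))) →+*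
    ↥(modularFunctionFieldFullC (ResidueField A) M'))
  (hred' : ∀ b : ↥(integralClosure ↥((Data.ofJ (W0 A) (resW0 A) M').AX)
      ↥(laurentBaseChange ↥(K0 A) (modularFunctionFieldFull M'))),
    red' b = redF (W0 A) (resW0 A) M' (resW0_eq_zero_of_not_isUnit A) hM'
      ⟨b, (Data.ofJ (W0 A) (resW0 A) M').mem_Ow_of_isIntegral_AX hM' b.2⟩)

include hq hA in
/-- A natural number prime to `q` is invertible in `W0`. -/
theorem exists_W0_mul_natCast_eq_one {n : ℕ} (hn : ¬ q ∣ n) :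
    ∃ a : W0 A, ((a : W0 A) : K0 A) * (n : K0 A) = 1 := by
  have h1 : resW0 A ((n : ℕ) : W0 A) ≠ 0 := by
    rw [map_natCast]
    exact natCast_residue_ne_zero' A hq hA n hn
  have h2 : IsUnit ((n : ℕ) : W0 A) := not_not.mp fun h => h1 ((resW0_eq_zero_iff A _).mpr h)
  obtain ⟨a, ha⟩ := h2.exists_left_inv
  refine ⟨a, ?_⟩
  have h3 := congrArg (fun x : W0 A => (x : K0 A)) ha
  simpa using h3

theorem coe_ofJ_x :
    (((Data.ofJ (W0 A) (resW0 A) M').x :
      ↥(laurentBaseChange ↥(K0 A) (modularFunctionFieldFull M'))) : LaurentSeries ↥(K0 A)) =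
      TD.Jd ↥(K0 A) M' := by
  rw [Data.ofJ_x]
  rfl

include hq hA hred' in
/-- **`Haupt2` at the canonical `B'`** (`q ≠ 2`, `2 ∣ M'`; the case `q = 3`): `yh = u₁`,
`yi = u₁⁻¹`, `u₁ = Δ(q)/Δ(q²)`. -/
theorem haupt2_K0 [IsAlgClosed (ResidueField A)] (hqM : ¬ q ∣ M') (hq2 : q ≠ 2)
    (hgood : 5 ≤ q ∨ (q = 3 ∧ 2 ∣ M') ∨ (q = 2 ∧ 3 ∣ M')) (h2M : 2 ∣ M') (r : ℕ) (hr : r.Prime)
    (hr4 : r % 4 = 3) (hrM : r ∣ M') : EllFin.Haupt2 A M' red' := by
  have h := u1_mem_F ↥(K0 A) (M := M') h2M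
  have h' := u1inv_mem_F ↥(K0 A) (M := M') h2M
  obtain ⟨a, ha⟩ := exists_W0_mul_natCast_eq_one hq hA (n := 2) (fun hd =>
    hq2 ((Nat.prime_dvd_prime_iff_eq hq Nat.prime_two).mp hd))
  have ha' : ((a : W0 A) : K0 A) * 2 = 1 := by
    rw [← ha]
    norm_num
  let yh : ↥(integralClosure ↥((Data.ofJ (W0 A) (resW0 A) M').AX)
      ↥(laurentBaseChange ↥(K0 A) (modularFunctionFieldFull M'))) :=
    ⟨⟨u1 ↥(K0 A) 2, h⟩, isIntegral_AX_u1 _ (coe_ofJ_x M') h⟩
  let yi : ↥(integralClosure ↥((Data.ofJ (W0 A) (resW0 A) M').AX)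
      ↥(laurentBaseChange ↥(K0 A) (modularFunctionFieldFull M'))) :=
    ⟨⟨u1inv ↥(K0 A) 2, h'⟩, isIntegral_AX_u1inv _ (coe_ofJ_x M') h h' ha'⟩
  have hyy : red' yh * red' yi = 1 := by
    rw [← map_mul]
    have e : yh * yi = 1 := Subtype.ext (u1_mul_u1inv_F h h')
    rw [e, map_one]
  have hyh : ((red' yh : ↥(modularFunctionFieldFullC (ResidueField A) M')) :
      LaurentSeries (ResidueField A)) = u1 (ResidueField A) 2 := by
    rw [hred' yh]
    exact coe_redF_u1 (resW0_eq_zero_of_not_isUnit A) hM' h _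
  obtain ⟨hrel, hE⟩ := hell_inputs_haupt2 A M' q hq hqM hgood hq2 h2M r hr hr4 hrM hA red' yh yi
    hyy hyh
  exact ⟨yh, yi, hyy, hrel, hE⟩

include hq hA hred' in
/-- **`Haupt3` at the canonical `B'`** (`q ≠ 3`, `3 ∣ M'`; the case `q = 2`): `yh = hA3`,
`yi = hA3⁻¹`. -/
theorem haupt3_K0 [IsAlgClosed (ResidueField A)] (hqM : ¬ q ∣ M') (hq3 : q ≠ 3)
    (hgood : 5 ≤ q ∨ (q = 3 ∧ 2 ∣ M') ∨ (q = 2 ∧ 3 ∣ M')) (h3M : 3 ∣ M') (r : ℕ) (hr : r.Prime)
    (hr3 : r % 3 = 2) (hrM : r ∣ M') : EllFin.Haupt3 A M' red' := by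
  have h := hA3_mem_F ↥(K0 A) (M := M') h3M
  have h' := hA3inv_mem_F ↥(K0 A) (M := M') h3M
  obtain ⟨a, ha⟩ := exists_W0_mul_natCast_eq_one hq hA (n := 3) (fun hd =>
    hq3 ((Nat.prime_dvd_prime_iff_eq hq Nat.prime_three).mp hd))
  have ha' : ((a : W0 A) : K0 A) * 3 = 1 := by
    rw [← ha]
    norm_num
  let yh : ↥(integralClosure ↥((Data.ofJ (W0 A) (resW0 A) M').AX)
      ↥(laurentBaseChange ↥(K0 A) (modularFunctionFieldFull M'))) :=
    ⟨⟨hA3 ↥(K0 A), h⟩, isIntegral_AX_hA3 _ (coe_ofJ_x M') h⟩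
  let yi : ↥(integralClosure ↥((Data.ofJ (W0 A) (resW0 A) M').AX)
      ↥(laurentBaseChange ↥(K0 A) (modularFunctionFieldFull M'))) :=
    ⟨⟨hA3inv ↥(K0 A), h'⟩, isIntegral_AX_hA3inv _ (coe_ofJ_x M') h h' ha'⟩
  have hyy : red' yh * red' yi = 1 := by
    rw [← map_mul]
    have e : yh * yi = 1 := Subtype.ext (hA3_mul_hA3inv_F h h')
    rw [e, map_one]
  have hyh : ((red' yh : ↥(modularFunctionFieldFullC (ResidueField A) M')) :
      LaurentSeries (ResidueField A)) = hA3 (ResidueField A) := by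
    rw [hred' yh]
    exact coe_redF_hA3 (resW0_eq_zero_of_not_isUnit A) hM' h _
  obtain ⟨hrel, hE⟩ := hell_inputs_haupt3 A M' q hq hqM hgood hq3 h3M r hr hr3 hrM hA red' yh yi
    hyy hyh
  exact ⟨yh, yi, hyy, hrel, hE⟩

include hq hA hred' in
/-- **`hell` at the `K0`-level objects, closed**: for any contract on the canonical `B'` written
with `D = d/dJ̄`, `G = J̄⁸ (J̄ - 1728)⁶` and `x' = J(q)`, at a level `M'` prime to `q`, divisible
by a prime `r ≡ 11 (mod 12)`, by `2` if `q = 3` and by `3` if `q = 2`. -/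
theorem hell_K0_closed [IsAlgClosed (ResidueField A)] (hqM : ¬ q ∣ M')
    (hr : ∃ r : ℕ, r.Prime ∧ r ≡ 11 [MOD 12] ∧ r ∣ M')
    (hq3 : q = 3 → 2 ∣ M') (hq2 : q = 2 → 3 ∣ M')
    {B F : Type*} [CommRing B] [IsDomain B] [Field F] [Algebra B F] [IsFractionRing B F]
    [IsNoetherianRing B] [IsIntegrallyClosed B]
    {O : Fin 3 → ValuationSubring F}
    {red : ∀ i, O i →+* ↥(modularFunctionFieldFullC (ResidueField A) M')}
    {hred : ∀ i, ∀ x : O i, red i x = 0 ↔ x ∈ maximalIdeal (O i)}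
    {hBO : ∀ i, ∀ b : B, algebraMap B F b ∈ O i}
    {π₀ π₂ : ↥(integralClosure ↥((Data.ofJ (W0 A) (resW0 A) M').AX)
      ↥(laurentBaseChange ↥(K0 A) (modularFunctionFieldFull M'))) →+* B}
    {q₀ : B} {x' : ↥(integralClosure ↥((Data.ofJ (W0 A) (resW0 A) M').AX)
      ↥(laurentBaseChange ↥(K0 A) (modularFunctionFieldFull M')))}
    {u u₁ v₁ h : B} {Db : ↥(modularFunctionFieldFullC (ResidueField A) M')} {N e : ℕ}
    (hx : (x' : ↥(laurentBaseChange ↥(K0 A) (modularFunctionFieldFull M'))) =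
      Fermat.Agent.ESJ.Cong.LevelGen.jLevel ↥(K0 A) M')
    (H : Contract O red hred hBO red' π₀ π₂ (Deriv.dJ (ResidueField A) M') q₀ x' u u₁ v₁ h Db
      (Deriv.GJ (ResidueField A) M') N e) :
    ∀ Vs : ValuationSubring ↥(modularFunctionFieldFullC (ResidueField A) M'),
      IsFinPlace red' Vs → ∃ y, Deriv.dJ (ResidueField A) M' (red' y) ≠ 0 ∧
        Deriv.dJ (ResidueField A) M' (red' y) ^ 12 * Deriv.GJ (ResidueField A) M' ∉
          Vs.nonunits := by
  obtain ⟨r, hrp, hr12, hrM⟩ := hr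
  obtain ⟨hr4, hr3⟩ := Fermat.Agent.CAR.Ell.mod_of_modEq_eleven hr12
  refine EllFinK0.hell_K0 hq hA M' hM' red' hred' hqM ⟨r, hrp, hr12, hrM⟩ hx H ?_ ?_
  · intro h3
    exact haupt2_K0 hq hA M' hM' red' hred' hqM (by omega) (Or.inr (Or.inl ⟨h3, hq3 h3⟩))
      (hq3 h3) r hrp hr4 hrM
  · intro h2
    exact haupt3_K0 hq hA M' hM' red' hred' hqM (by omega) (Or.inr (Or.inr ⟨h2, hq2 h2⟩))
      (hq2 h2) r hrp hr3 hrM

end K0

end

end Fermat.Agent.CAR.Ell.Haupt23K0
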