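import Mathlib
import Fermat.Agent.CAR.V3.AL3
import Fermat.Agent.Lib.Red.HauptBase

/-!
# CAR / ELL at `q ∈ {2, 3}`: the convention-(A) Hauptmodul relations, by Atkin–Lehner

For every field `L ⊇ ℚ` and every level `M` with `2 ∣ M` (resp. `3 ∣ M`) there is a function
`h ∈ L·F_M` with

* `J(q) · h² = (h + 256)³` (`exists_rel_two`), resp.
* `J(q) · t³ = (t + 27)(t + 243)³` (`exists_rel_three`),

where `J(q) = jLevel L M` (the series `J(q)`, NOT the trunk base function `J(q^M)`).

No new `q`-series identity: the trunk relation `J(q²) x² = (x + 256)³` (`x2S_rel`, level `2`)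
is transported by the Atkin–Lehner involution `W` of `L·F_2` (`AL3.exists_isAL_of_charZero`,
`W (J(q²)) = J(q)`), and `L·F_2 ⊆ L·F_M`.  Integrality of `h`, `h⁻¹` over `ℤ[J]`, `ℤ[1/2][J]` is
read off the relation (`Inst.LiftJ23.isIntegral_of_rel2`, `isIntegral_inv_of_rel2`, …).
-/

set_option autoImplicit false
set_option linter.unusedSectionVars false
set_option linter.style.haveILetI false
set_option synthInstance.maxHeartbeats 400000
set_option maxHeartbeats 1000000

namespace Fermat.Agent.CAR.Ell.HauptA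

open ModularCurve HahnSeries Fermat.Agent.S28 Fermat.Agent.Lib.Red Fermat.Agent.Lib.Red.HauptBase
open Fermat.Agent.ESJ.Cong.LevelGen Fermat.Agent.BAD.TwoVal

variable (L : Type) [Field L] [Algebra ℚ L]

/-- Monotonicity of the base change in the level. -/
theorem lbc_le_of_dvd {N M : ℕ} [NeZero N] [NeZero M] (h : N ∣ M) :
    laurentBaseChange L (modularFunctionFieldFull N) ≤
      laurentBaseChange L (modularFunctionFieldFull M) := by
  unfold laurentBaseChange
  exact IntermediateField.adjoin.mono L _ _ (Set.image_mono (full_degeneracy_le h))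

/-- Level `2`: `J(q) h² = (h + 256)³` for `h = W (x₂)`. -/
theorem exists_rel_two_base :
    ∃ h : ↥(laurentBaseChange L (modularFunctionFieldFull (1 * 2))),
      jLevel L (1 * 2) * h ^ 2 = (h + 256) ^ 3 := by
  obtain ⟨W, hW⟩ := Fermat.Agent.CAR.V3.AL3.exists_isAL_of_charZero (L := L) 1 2
    Nat.prime_two (by norm_num)
  let x : ↥(laurentBaseChange L (modularFunctionFieldFull (1 * 2))) :=
    ⟨x2S L 1, x2S_mem L (1 * 2) 1 rfl⟩
  have hrel : heckeBetaBar L 1 2 (jLevel L 1) * x ^ 2 = (x + 256) ^ 3 := by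
    apply Subtype.ext
    show ((heckeBetaBar L 1 2 (jLevel L 1) :
        ↥(laurentBaseChange L (modularFunctionFieldFull (1 * 2)))) : LaurentSeries L) *
      x2S L 1 ^ 2 = (x2S L 1 + 256) ^ 3
    rw [coe_heckeBetaBar_jLevel]
    exact x2S_rel L 1
  refine ⟨W x, ?_⟩
  have h := congrArg W hrel
  rw [map_mul, map_pow, map_pow, map_add, hW.beta,
    Fermat.Agent.CAR.V3.AL3.heckeAlphaBar_jLevel, map_ofNat] at h
  exact h

/-- Level `3`: `J(q) t³ = (t + 27)(t + 243)³` for `t = W (x₃)`. -/
theorem exists_rel_three_base :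
    ∃ t : ↥(laurentBaseChange L (modularFunctionFieldFull (1 * 3))),
      jLevel L (1 * 3) * t ^ 3 = (t + 27) * (t + 243) ^ 3 := by
  obtain ⟨W, hW⟩ := Fermat.Agent.CAR.V3.AL3.exists_isAL_of_charZero (L := L) 1 3
    Nat.prime_three (by norm_num)
  let x : ↥(laurentBaseChange L (modularFunctionFieldFull (1 * 3))) :=
    ⟨x3S L 1, x3S_mem L (1 * 3) 1 rfl⟩
  have hrel : heckeBetaBar L 1 3 (jLevel L 1) * x ^ 3 = (x + 27) * (x + 243) ^ 3 := by
    apply Subtype.ext
    show ((heckeBetaBar L 1 3 (jLevel L 1) :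
        ↥(laurentBaseChange L (modularFunctionFieldFull (1 * 3)))) : LaurentSeries L) *
      x3S L 1 ^ 3 = (x3S L 1 + 27) * (x3S L 1 + 243) ^ 3
    rw [coe_heckeBetaBar_jLevel]
    exact x3S_rel L 1
  refine ⟨W x, ?_⟩
  have h := congrArg W hrel
  rw [map_mul, map_pow, map_mul, map_pow, map_add, map_add, hW.beta,
    Fermat.Agent.CAR.V3.AL3.heckeAlphaBar_jLevel, map_ofNat, map_ofNat] at h
  exact h

/-- The inclusion `L·F_N → L·F_M` for `N ∣ M` sends `J(q)` to `J(q)`. -/
theorem inclusion_jLevel {N M : ℕ} [NeZero N] [NeZero M] (h : N ∣ M) :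
    IntermediateField.inclusion (lbc_le_of_dvd L h) (jLevel L N) = jLevel L M :=
  Subtype.ext rfl

/-- **Convention-(A) Hauptmodul relation of level 2** at every level `M` with `2 ∣ M`, over every
field `L ⊇ ℚ`: there is `h ∈ L·F_M`, `h ≠ 0`, with `J(q) h² = (h + 256)³`. -/
theorem exists_rel_two (M : ℕ) [NeZero M] (h2M : 2 ∣ M) :
    ∃ h : ↥(laurentBaseChange L (modularFunctionFieldFull M)),
      h ≠ 0 ∧ jLevel L M * h ^ 2 = (h + 256) ^ 3 := by
  obtain ⟨h₂, hrel⟩ := exists_rel_two_base L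
  have hdvd : 1 * 2 ∣ M := by rw [one_mul]; exact h2M
  have hrel' := congrArg (IntermediateField.inclusion (lbc_le_of_dvd L hdvd)) hrel
  rw [map_mul, map_pow, map_pow, map_add, map_ofNat, inclusion_jLevel L hdvd] at hrel'
  refine ⟨IntermediateField.inclusion (lbc_le_of_dvd L hdvd) h₂, fun h0 => ?_, hrel'⟩
  haveI : CharZero L := algebraRat.charZero L
  haveI : CharZero ↥(laurentBaseChange L (modularFunctionFieldFull M)) :=
    charZero_of_injective_algebraMap
      (algebraMap L ↥(laurentBaseChange L (modularFunctionFieldFull M))).injective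
  rw [h0, zero_add, zero_pow (two_ne_zero), mul_zero] at hrel'
  exact absurd hrel'.symm (pow_ne_zero 3 (OfNat.ofNat_ne_zero 256))

/-- **Convention-(A) Hauptmodul relation of level 3** at every level `M` with `3 ∣ M`, over every
field `L ⊇ ℚ`: there is `t ∈ L·F_M`, `t ≠ 0`, with `J(q) t³ = (t + 27)(t + 243)³`. -/
theorem exists_rel_three (M : ℕ) [NeZero M] (h3M : 3 ∣ M) :
    ∃ t : ↥(laurentBaseChange L (modularFunctionFieldFull M)),
      t ≠ 0 ∧ jLevel L M * t ^ 3 = (t + 27) * (t + 243) ^ 3 := by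
  obtain ⟨t₃, hrel⟩ := exists_rel_three_base L
  have hdvd : 1 * 3 ∣ M := by rw [one_mul]; exact h3M
  have hrel' := congrArg (IntermediateField.inclusion (lbc_le_of_dvd L hdvd)) hrel
  rw [map_mul, map_pow, map_mul, map_pow, map_add, map_add, map_ofNat, map_ofNat,
    inclusion_jLevel L hdvd] at hrel'
  refine ⟨IntermediateField.inclusion (lbc_le_of_dvd L hdvd) t₃, fun h0 => ?_, hrel'⟩
  haveI : CharZero L := algebraRat.charZero L
  haveI : CharZero ↥(laurentBaseChange L (modularFunctionFieldFull M)) :=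
    charZero_of_injective_algebraMap
      (algebraMap L ↥(laurentBaseChange L (modularFunctionFieldFull M))).injective
  rw [h0, zero_add, zero_add, zero_pow (three_ne_zero), mul_zero] at hrel'
  exact absurd hrel'.symm
    (mul_ne_zero (OfNat.ofNat_ne_zero 27) (pow_ne_zero 3 (OfNat.ofNat_ne_zero 243)))

end Fermat.Agent.CAR.Ell.HauptA
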