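/-
CAR, wall (ELL): wiring of the elliptic points into the points instance (abstract, against the
contract record of `CAR/Local/Inst/Contract.lean`).

For a finite place `s` of the special fibre of the good level (valuation ring `Vs` of `κ`,
discrete with uniformiser `τ`) we produce the **unit certificate**: a function `y` of the
`K₀`-rational integral ring `B'` of level `M'` with `D ȳ ≠ 0` and `(D ȳ)^12 · G` a unit at `s`
(`D = d/dx̄`, `G = (x̄ - z₁)^a₁ (x̄ - z₂)^a₂` the reduction of the certificate function).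
Then `d_y = π₂ y - π₀ y` is a uniformiser of `O_mid` whose certificate `d_y^(12e)/u` is a unit
at the point `(mid, s)`, which is the input of the regularity theorem.

* `exists_cert` : **(E-c)**, integrality of `h_y = d_y^(12 e) / u ∈ B` and its reduction
  `((D ȳ)^12 G)^e` (saturation, from the contract).
* `ord_deriv_bound` : `D ȳ = 0 ∨ 0 ≤ 12 ord_s (D ȳ) + ord_s G` for every `y : B'`.
* `exists_unit_cert` : the unit certificate at EVERY finite place, from the divisibility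
  `e₀ ∣ ord_s (x̄ - z)` at the branch values ((E-b): specialisation of the characteristic-zero
  ramification) — the bound `ord_s (x̄ - z) ≤ e₀` is `EllOrder` ((E-d)).
-/
import Mathlib
import Fermat.Agent.CAR.Local.Inst.Contract
import Fermat.Agent.CAR.Local.EllPoint
import Fermat.Agent.CAR.Ell.Deriv

set_option autoImplicit false

namespace Fermat.Agent.CAR.Ell.Wire

open IsLocalRing
open Fermat.Agent.CAR.Formal Fermat.Agent.CAR.Local Fermat.Agent.CAR.Local.Inst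
open Fermat.Agent.CAR.Local.EllOrder Fermat.Agent.CAR.Ell.Deriv

variable {B B' F κ : Type*} [CommRing B] [IsDomain B] [Field F] [Algebra B F]
  [IsFractionRing B F] [Field κ] [CommRing B']
  {O : Fin 3 → ValuationSubring F} {red : ∀ i, O i →+* κ}
  {hred : ∀ i, ∀ x : O i, red i x = 0 ↔ x ∈ maximalIdeal (O i)}
  {hBO : ∀ i, ∀ b : B, algebraMap B F b ∈ O i}
  {red' : B' →+* κ} {π₀ π₂ : B' →+* B} {D : κ → κ}
  {q : B} {x' : B'} {u u₁ v₁ h : B} {Db G : κ} {N e : ℕ}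

omit [IsFractionRing B F] in
/-- `u ≠ 0`. -/
theorem u_ne_zero (H : Contract O red hred hBO red' π₀ π₂ D q x' u u₁ v₁ h Db G N e) :
    u ≠ 0 := by
  rintro rfl
  have h1 := H.prod
  rw [zero_mul, zero_mul] at h1
  exact pow_ne_zero N H.q_ne h1.symm

omit [IsDomain B] [IsFractionRing B F] in
/-- an element of `B` with non-zero reduction on the component `i` is a unit of `O i` -/
theorem inv_mem_of_redOn_ne_zero (i : Fin 3)
    (hredi : ∀ x : O i, red i x = 0 ↔ x ∈ maximalIdeal (O i)) {a : B}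
    (ha : redOn (O i) (red i) (hBO i) a ≠ 0) : (algebraMap B F a)⁻¹ ∈ O i := by
  apply inv_mem_of_not_mem_nonunits (O i)
  intro hc
  apply ha
  rw [redOn_eq_zero_iff (O i) (red i) hredi (hBO i)]
  exact (mem_centre_iff (O i) (hBO i) a).2 hc

omit [IsFractionRing B F] in
/-- `d = π₂ x' - π₀ x' ≠ 0` (if `G ≠ 0`). -/
theorem d_ne_zero (H : Contract O red hred hBO red' π₀ π₂ D q x' u u₁ v₁ h Db G N e)
    (hG0 : G ≠ 0) : π₂ x' - π₀ x' ≠ 0 := by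
  intro hd
  have h1 := H.cert
  rw [hd, zero_pow (by have := H.e_ne; omega)] at h1
  rcases mul_eq_zero.mp h1 with h0 | h0
  · have h2 := H.red_h
    rw [h0, map_zero] at h2
    exact pow_ne_zero e hG0 h2.symm
  · exact u_ne_zero H h0

variable [IsNoetherianRing B] [IsIntegrallyClosed B]

/-- **(E-c), integrality of the certificate of `d_y`**: for every `y : B'` there is `h_y ∈ B`
with `h_y · u = d_y^(12 e)` and `red_mid h_y = ((D ȳ)^12 · G)^e`. -/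
theorem exists_cert (H : Contract O red hred hBO red' π₀ π₂ D q x' u u₁ v₁ h Db G N e)
    (hG0 : G ≠ 0) (y : B') :
    ∃ hy : B, hy * u = (π₂ y - π₀ y) ^ (12 * e) ∧
      redOn (O 1) (red 1) (hBO 1) hy = (D (red' y) ^ 12 * G) ^ e := by
  have hinj : Function.Injective (algebraMap B F) := IsFractionRing.injective B F
  have hu0 : u ≠ 0 := u_ne_zero H
  have huF : algebraMap B F u ≠ 0 := fun h0 => hu0 (hinj (by rw [h0, map_zero]))
  -- membership in `O 1` with the reduction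
  obtain ⟨hz1, hr1⟩ := EllPoint.cert_of_quot (O 1) (red 1) (hBO 1) (d_ne_zero H hG0) hu0
    H.cert H.red_h (H.cd y)
  -- `u` is a unit of `O 0` and of `O 2`
  have hu_inf : (algebraMap B F u)⁻¹ ∈ O 0 := by
    apply inv_mem_of_redOn_ne_zero 0 (hred 0)
    rw [H.u_inf]
    exact pow_ne_zero e H.Db_ne
  have hu_zero : (algebraMap B F u)⁻¹ ∈ O 2 := by
    apply inv_mem_of_redOn_ne_zero 2 (hred 2)
    rw [H.u_zero]
    exact pow_ne_zero e H.v₁_zero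
  have hz : ∀ i : Fin 3,
      algebraMap B F ((π₂ y - π₀ y) ^ (12 * e)) / algebraMap B F u ∈ O i := by
    intro i
    fin_cases i
    · show algebraMap B F ((π₂ y - π₀ y) ^ (12 * e)) / algebraMap B F u ∈ O 0
      rw [div_eq_mul_inv]
      exact (O 0).mul_mem _ _ (hBO 0 _) hu_inf
    · exact hz1
    · show algebraMap B F ((π₂ y - π₀ y) ^ (12 * e)) / algebraMap B F u ∈ O 2
      rw [div_eq_mul_inv]
      exact (O 2).mul_mem _ _ (hBO 2 _) hu_zero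
  -- saturation
  have ha : algebraMap B F ((π₂ y - π₀ y) ^ (12 * e) * (u₁ * v₁))
      = algebraMap B F q ^ N
        * (algebraMap B F ((π₂ y - π₀ y) ^ (12 * e)) / algebraMap B F u) := by
    have h1 : algebraMap B F q ^ N = algebraMap B F u * algebraMap B F (u₁ * v₁) := by
      rw [← map_pow, ← H.prod, ← map_mul]
      ring_nf
    rw [h1, map_mul]
    field_simp
  obtain ⟨hy, hhy⟩ := H.toV3Base.mem_range_of_forall_mem _ N _ ha hz
  refine ⟨hy, ?_, ?_⟩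
  · apply hinj
    rw [map_mul, hhy]
    field_simp
  · rw [redOn_apply, ← hr1]
    exact congrArg (red 1) (Subtype.ext hhy)

/-- **(E-c)**: the bound on the derivative at a finite place, for every `y : B'`. -/
theorem ord_deriv_bound (H : Contract O red hred hBO red' π₀ π₂ D q x' u u₁ v₁ h Db G N e)
    (hG0 : G ≠ 0) (Vs : ValuationSubring κ) (hVs : IsFinPlace red' Vs) {τ : κ}
    (hτ : IsUnif Vs τ) (y : B') :
    D (red' y) = 0 ∨ 0 ≤ 12 * hτ.ord (D (red' y)) + hτ.ord G := by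
  by_cases h0 : D (red' y) = 0
  · exact Or.inl h0
  · right
    obtain ⟨hy, -, hr⟩ := exists_cert H hG0 y
    have hmem : (D (red' y) ^ 12 * G) ^ e ∈ Vs := by
      rw [← hr]
      exact H.fin 1 Vs hVs hy
    have hne : D (red' y) ^ 12 * G ≠ 0 := mul_ne_zero (pow_ne_zero _ h0) hG0
    have h1 : 0 ≤ hτ.ord ((D (red' y) ^ 12 * G) ^ e) :=
      (hτ.ord_nonneg_iff (pow_ne_zero _ hne)).2 hmem
    rw [hτ.ord_pow, hτ.ord_mul (pow_ne_zero _ h0) hG0, hτ.ord_pow] at h1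
    have hepos : (0 : ℤ) < e := by exact_mod_cast Nat.pos_of_ne_zero H.e_ne
    have h2 : (0 : ℤ) ≤ ((12 : ℕ) : ℤ) * hτ.ord (D (red' y)) + hτ.ord G :=
      nonneg_of_mul_nonneg_right h1 hepos
    exact_mod_cast h2

/-- the unit certificate at a branch place: `x̄ - z` a non-unit at `s`, `G = (x̄-z)^a (x̄-z')^b`,
`e₀ a = 12 (e₀ - 1)`, `e₀ ∣ ord_s (x̄ - z)`. -/
theorem exists_unit_cert_branch
    (H : Contract O red hred hBO red' π₀ π₂ D q x' u u₁ v₁ h Db G N e)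
    (Vs : ValuationSubring κ) (hVs : IsFinPlace red' Vs) {τ : κ} (hτ : IsUnif Vs τ)
    {z z' : κ} {a b e₀ : ℕ} (hG : G = (red' x' - z) ^ a * (red' x' - z') ^ b)
    (hz : D z = 0) (hzz0 : z - z' ≠ 0) (hzz : hτ.ord (z - z') = 0)
    (hx0 : red' x' - z ≠ 0) (hxm : red' x' - z ∈ Vs.nonunits)
    (hea : e₀ * a = 12 * (e₀ - 1)) (he₀ : 0 < e₀)
    (hdvd : (e₀ : ℤ) ∣ hτ.ord (red' x' - z)) :
    ∃ y : B', D (red' y) ≠ 0 ∧ D (red' y) ^ 12 * G ∈ Vs ∧ (D (red' y) ^ 12 * G)⁻¹ ∈ Vs := by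
  obtain ⟨hG0', -⟩ := ord_pow_mul_pow hτ hx0 hxm hzz0 hzz a b
  have hG0 : G ≠ 0 := by rw [hG]; exact hG0'
  have hS : ∀ y ∈ red'.range, y ∈ Vs := by
    rintro _ ⟨y, rfl⟩
    exact hVs.2 y
  have hlift : ∀ c ∈ Vs, ∃ a ∈ red'.range, ∃ b ∈ red'.range, b ∉ Vs.nonunits ∧ a = c * b := by
    intro c hc
    obtain ⟨a, b, hb, hab⟩ := H.lift Vs hVs c hc
    exact ⟨_, ⟨a, rfl⟩, _, ⟨b, rfl⟩, hb, hab⟩
  have key := le_and_unit_certificate_pair H.deriv hτ red'.range hS hlift hea he₀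
    H.deriv_x hz hx0 hxm hzz0 hzz (by
      rintro _ ⟨y, rfl⟩
      have := ord_deriv_bound H hG0 Vs hVs hτ y
      rwa [hG] at this)
  obtain ⟨hle, -, hcert⟩ := key
  have hpos : 0 < hτ.ord (red' x' - z) := (hτ.ord_pos_iff hx0).mpr hxm
  have heq : hτ.ord (red' x' - z) = e₀ := by
    obtain ⟨c, hc⟩ := hdvd
    have he₀' : (0 : ℤ) < e₀ := by exact_mod_cast he₀
    rw [hc] at hpos hle ⊢
    have hc1 : 0 < c := by
      by_contra hcon
      push Not at hcon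
      have := mul_nonpos_of_nonneg_of_nonpos he₀'.le hcon
      omega
    have hc2 : c ≤ 1 := by
      by_contra hcon
      push Not at hcon
      have : (e₀ : ℤ) * 2 ≤ (e₀ : ℤ) * c := mul_le_mul_of_nonneg_left (by omega) he₀'.le
      omega
    have hc3 : c = 1 := by omega
    rw [hc3, mul_one]
  -- a uniformiser in `red' B'`
  obtain ⟨t, b₀, hb₀, hab₀⟩ := H.lift Vs hVs τ hτ.mem
  have hb₀V : red' b₀ ∈ Vs := hVs.2 b₀
  rw [ValuationSubring.mem_nonunits_iff_or] at hb₀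
  push Not at hb₀
  obtain ⟨hb₀0, hb₀V'⟩ := hb₀
  have ht : hτ.ord (red' t) = 1 := by
    rw [hab₀, hτ.ord_mul hτ.ne_zero hb₀0, hτ.ord_self, hτ.ord_unit hb₀V hb₀V' hb₀0, add_zero]
  obtain ⟨h1, h2, h3⟩ := hcert heq (red' t) ⟨t, rfl⟩ ht
  refine ⟨t, h1, ?_, ?_⟩
  · rw [hG]; exact h2
  · rw [hG]; exact h3

/-- **The unit certificate at every finite place.**  `G = (x̄ - z₁)^a₁ (x̄ - z₂)^a₂` with `z₁`,
`z₂` constants (`D z = 0`) such that `z₁ - z₂` is a unit at `s`; at a place over `z_j` the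
pair `(e_j, a_j)` satisfies `e_j a_j = 12 (e_j - 1)` and `e_j ∣ ord_s (x̄ - z_j)`.  Then there
is `y : B'` with `D ȳ ≠ 0` and `(D ȳ)^12 G` a unit at `s`.

For CAR: `x' = J`, `(z₁, a₁, e₁) = (0, 8, 3)`, `(z₂, a₂, e₂) = (1728, 6, 2)` (`q ≥ 5`);
`x' = y₂`, `(0, 8, -)` (no finite place over `0`), `(-64, 6, 2)` (`q = 3`);
`x' = y₃`, `(0, 6, -)`, `(-27, 8, 3)` (`q = 2`). -/
theorem exists_unit_cert
    (H : Contract O red hred hBO red' π₀ π₂ D q x' u u₁ v₁ h Db G N e)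
    (Vs : ValuationSubring κ) (hVs : IsFinPlace red' Vs) {τ : κ} (hτ : IsUnif Vs τ)
    {z₁ z₂ : κ} {a₁ a₂ e₁ e₂ : ℕ} (hG : G = (red' x' - z₁) ^ a₁ * (red' x' - z₂) ^ a₂)
    (hz₁ : D z₁ = 0) (hz₂ : D z₂ = 0) (hz₁V : z₁ ∈ Vs) (hz₂V : z₂ ∈ Vs)
    (hzz0 : z₁ - z₂ ≠ 0) (hzzV : (z₁ - z₂)⁻¹ ∈ Vs)
    (hx₁ : red' x' - z₁ ≠ 0) (hx₂ : red' x' - z₂ ≠ 0)
    (h₁ : red' x' - z₁ ∈ Vs.nonunits →
      e₁ * a₁ = 12 * (e₁ - 1) ∧ 0 < e₁ ∧ (e₁ : ℤ) ∣ hτ.ord (red' x' - z₁))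
    (h₂ : red' x' - z₂ ∈ Vs.nonunits →
      e₂ * a₂ = 12 * (e₂ - 1) ∧ 0 < e₂ ∧ (e₂ : ℤ) ∣ hτ.ord (red' x' - z₂)) :
    ∃ y : B', D (red' y) ≠ 0 ∧ D (red' y) ^ 12 * G ∈ Vs ∧ (D (red' y) ^ 12 * G)⁻¹ ∈ Vs := by
  have hzz : hτ.ord (z₁ - z₂) = 0 := hτ.ord_unit (sub_mem hz₁V hz₂V) hzzV hzz0
  have hzz0' : z₂ - z₁ ≠ 0 := fun h0 => hzz0 (by rw [← neg_sub, h0, neg_zero])
  have hzz' : hτ.ord (z₂ - z₁) = 0 := by
    refine hτ.ord_unit (sub_mem hz₂V hz₁V) ?_ hzz0'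
    have h3 : (z₂ - z₁)⁻¹ = -(z₁ - z₂)⁻¹ := by rw [← neg_sub z₁ z₂, inv_neg]
    rw [h3]
    exact neg_mem hzzV
  by_cases hm₁ : red' x' - z₁ ∈ Vs.nonunits
  · obtain ⟨hea, he₀, hdvd⟩ := h₁ hm₁
    exact exists_unit_cert_branch H Vs hVs hτ hG hz₁ hzz0 hzz hx₁ hm₁ hea he₀ hdvd
  · by_cases hm₂ : red' x' - z₂ ∈ Vs.nonunits
    · obtain ⟨hea, he₀, hdvd⟩ := h₂ hm₂
      exact exists_unit_cert_branch H Vs hVs hτ (hG.trans (mul_comm _ _)) hz₂ hzz0' hzz' hx₂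
        hm₂ hea he₀ hdvd
    · -- `G` is a unit at `s`: take `y = x'`
      refine ⟨x', ?_, ?_, ?_⟩
      · rw [H.deriv_x]; exact one_ne_zero
      · rw [H.deriv_x, one_pow, one_mul, hG]
        exact Vs.mul_mem _ _ (pow_mem (sub_mem (hVs.2 x') hz₁V) _)
          (pow_mem (sub_mem (hVs.2 x') hz₂V) _)
      · rw [H.deriv_x, one_pow, one_mul, hG, mul_inv, ← inv_pow, ← inv_pow]
        rw [ValuationSubring.mem_nonunits_iff_or] at hm₁ hm₂
        push Not at hm₁ hm₂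
        exact Vs.mul_mem _ _ (pow_mem hm₁.2 _) (pow_mem hm₂.2 _)

/-- The unit certificate in the form `∉ Vs.nonunits`. -/
theorem exists_unit_cert'
    (H : Contract O red hred hBO red' π₀ π₂ D q x' u u₁ v₁ h Db G N e)
    (Vs : ValuationSubring κ) (hVs : IsFinPlace red' Vs) {τ : κ} (hτ : IsUnif Vs τ)
    {z₁ z₂ : κ} {a₁ a₂ e₁ e₂ : ℕ} (hG : G = (red' x' - z₁) ^ a₁ * (red' x' - z₂) ^ a₂)
    (hz₁ : D z₁ = 0) (hz₂ : D z₂ = 0) (hz₁V : z₁ ∈ Vs) (hz₂V : z₂ ∈ Vs)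
    (hzz0 : z₁ - z₂ ≠ 0) (hzzV : (z₁ - z₂)⁻¹ ∈ Vs)
    (hx₁ : red' x' - z₁ ≠ 0) (hx₂ : red' x' - z₂ ≠ 0)
    (h₁ : red' x' - z₁ ∈ Vs.nonunits →
      e₁ * a₁ = 12 * (e₁ - 1) ∧ 0 < e₁ ∧ (e₁ : ℤ) ∣ hτ.ord (red' x' - z₁))
    (h₂ : red' x' - z₂ ∈ Vs.nonunits →
      e₂ * a₂ = 12 * (e₂ - 1) ∧ 0 < e₂ ∧ (e₂ : ℤ) ∣ hτ.ord (red' x' - z₂)) :
    ∃ y : B', D (red' y) ≠ 0 ∧ D (red' y) ^ 12 * G ∉ Vs.nonunits := by
  obtain ⟨y, hy0, hyV, hyV'⟩ := exists_unit_cert H Vs hVs hτ hG hz₁ hz₂ hz₁V hz₂V hzz0 hzzV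
    hx₁ hx₂ h₁ h₂
  refine ⟨y, hy0, ?_⟩
  rw [ValuationSubring.mem_nonunits_iff_or]
  push Not
  refine ⟨mul_ne_zero (pow_ne_zero _ hy0) ?_, hyV'⟩
  rw [hG]
  exact mul_ne_zero (pow_ne_zero _ hx₁) (pow_ne_zero _ hx₂)

end Fermat.Agent.CAR.Ell.Wire
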