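/-
CAR, wall (ELL): the hypothesis `hell` of `Inst.Contract.ufm_pointRing` (unit certificate at
every finite place of the middle component) in the form the concrete instance supplies:

`G = (x̄ - c₁)^a₁ (x̄ - c₂)^a₂` with `c₁ ≠ c₂` constants of the residue field `k`, and at every
finite place: the constants are regular, the place is discrete, and over `x̄ = c_j` the
divisibility `e_j ∣ ord_s (x̄ - c_j)` with `e_j a_j = 12 (e_j - 1)`.

Instances: `x' = J`: `(c, a, e) = (0, 8, 3), (1728, 6, 2)` (`q ≥ 5`); `x' = y₂` (`q = 3`):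
`(0, 8, -)` (no finite place over `0`), `(-64, 6, 2)`; `x' = y₃` (`q = 2`): `(0, 6, -)`,
`(-27, 8, 3)`.
-/
import Mathlib
import Fermat.Agent.CAR.Ell.Wire
import Fermat.Agent.CAR.Local.Inst.Points

set_option autoImplicit false

namespace Fermat.Agent.CAR.Ell.Hell

open IsLocalRing
open Fermat.Agent.CAR.Formal Fermat.Agent.CAR.Local Fermat.Agent.CAR.Local.Inst
open Fermat.Agent.CAR.Local.EllOrder

variable {B B' F κ : Type*} [CommRing B] [IsDomain B] [Field F] [Algebra B F]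
  [IsFractionRing B F] [Field κ] [CommRing B']
  {O : Fin 3 → ValuationSubring F} {red : ∀ i, O i →+* κ}
  {hred : ∀ i, ∀ x : O i, red i x = 0 ↔ x ∈ maximalIdeal (O i)}
  {hBO : ∀ i, ∀ b : B, algebraMap B F b ∈ O i}
  {red' : B' →+* κ} {π₀ π₂ : B' →+* B} {D : κ → κ}
  {q : B} {x' : B'} {u u₁ v₁ h : B} {Db G : κ} {N e : ℕ}
  [IsNoetherianRing B] [IsIntegrallyClosed B]

/-- **`hell` from constants.**  The data a finite place must supply: regular constants, a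
uniformiser, and the divisibility of the ramification index over the two branch values. -/
theorem hell_of_consts {k : Type*} [Field k] [Algebra k κ]
    (H : Contract O red hred hBO red' π₀ π₂ D q x' u u₁ v₁ h Db G N e)
    (hDk : ∀ c : k, D (algebraMap k κ c) = 0)
    (hx : ∀ c : k, red' x' ≠ algebraMap k κ c)
    {c₁ c₂ : k} (hc : c₁ ≠ c₂) {a₁ a₂ e₁ e₂ : ℕ}
    (hG : G = (red' x' - algebraMap k κ c₁) ^ a₁ * (red' x' - algebraMap k κ c₂) ^ a₂)
    (hplace : ∀ Vs : ValuationSubring κ, IsFinPlace red' Vs →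
      (∀ c : k, algebraMap k κ c ∈ Vs) ∧ ∃ (τ : κ) (hτ : IsUnif Vs τ),
        (red' x' - algebraMap k κ c₁ ∈ Vs.nonunits →
          e₁ * a₁ = 12 * (e₁ - 1) ∧ 0 < e₁ ∧
            (e₁ : ℤ) ∣ hτ.ord (red' x' - algebraMap k κ c₁)) ∧
        (red' x' - algebraMap k κ c₂ ∈ Vs.nonunits →
          e₂ * a₂ = 12 * (e₂ - 1) ∧ 0 < e₂ ∧
            (e₂ : ℤ) ∣ hτ.ord (red' x' - algebraMap k κ c₂))) :
    ∀ Vs : ValuationSubring κ, IsFinPlace red' Vs →
      ∃ y : B', D (red' y) ≠ 0 ∧ D (red' y) ^ 12 * G ∉ Vs.nonunits := by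
  intro Vs hVs
  obtain ⟨hkV, τ, hτ, h₁, h₂⟩ := hplace Vs hVs
  have hcc : c₁ - c₂ ≠ 0 := sub_ne_zero.mpr hc
  refine Wire.exists_unit_cert' H Vs hVs hτ hG (hDk c₁) (hDk c₂) (hkV c₁) (hkV c₂) ?_ ?_
    (sub_ne_zero.mpr (hx c₁)) (sub_ne_zero.mpr (hx c₂)) h₁ h₂
  · rw [← map_sub]
    exact fun h0 => hcc ((algebraMap k κ).injective (by rw [h0, map_zero]))
  · rw [← map_sub, ← map_inv₀]
    exact hkV _

/-- **Factoriality of every closed point of the finite chart** from the contract and the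
elliptic data. -/
theorem ufm_pointRing_of_consts {k : Type*} [Field k] [Algebra k κ]
    (H : Contract O red hred hBO red' π₀ π₂ D q x' u u₁ v₁ h Db G N e)
    (hDk : ∀ c : k, D (algebraMap k κ c) = 0)
    (hx : ∀ c : k, red' x' ≠ algebraMap k κ c)
    {c₁ c₂ : k} (hc : c₁ ≠ c₂) {a₁ a₂ e₁ e₂ : ℕ}
    (hG : G = (red' x' - algebraMap k κ c₁) ^ a₁ * (red' x' - algebraMap k κ c₂) ^ a₂)
    (hplace : ∀ Vs : ValuationSubring κ, IsFinPlace red' Vs →
      (∀ c : k, algebraMap k κ c ∈ Vs) ∧ ∃ (τ : κ) (hτ : IsUnif Vs τ),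
        (red' x' - algebraMap k κ c₁ ∈ Vs.nonunits →
          e₁ * a₁ = 12 * (e₁ - 1) ∧ 0 < e₁ ∧
            (e₁ : ℤ) ∣ hτ.ord (red' x' - algebraMap k κ c₁)) ∧
        (red' x' - algebraMap k κ c₂ ∈ Vs.nonunits →
          e₂ * a₂ = 12 * (e₂ - 1) ∧ 0 < e₂ ∧
            (e₂ : ℤ) ∣ hτ.ord (red' x' - algebraMap k κ c₂)))
    (𝔪 : Ideal B) [𝔪.IsMaximal] (hq : q ∈ 𝔪) :
    UniqueFactorizationMonoid (pointRing F 𝔪) :=
  H.ufm_pointRing (hell_of_consts H hDk hx hc hG hplace) 𝔪 hq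

end Fermat.Agent.CAR.Ell.Hell
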