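/-
CAR, wall (ELL): the closing wire `hell` of the finite chart WITHOUT any Hauptmodul hypothesis.

`Inst/EllFin.hell_fin` proves `hell` for `q ≥ 5` unconditionally and for `q ∈ {3, 2}` from a
Hauptmodul element `yh` of the ring `B'` (`Haupt2`, `Haupt3`).  Here the Hauptmodul is only an
element of the special-fibre function field `κ` (it need not be the reduction of an element of
`B'`): `FrickeRed.exists_haupt2 / exists_haupt3` provide `y ∈ κ` with `J̄ y² = (y + 256)³`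
(resp. `J̄ y³ = (y + 27)(y + 243)³`) and the elliptic divisibility, and

* `exists_unit_cert_switch_kappa` : the unit certificate in a switched triple `(D₂, x₂, G₂)`
  with `x₂ ∈ κ`;
* `exists_cert_of_unit` : at a finite place where `G₂` is a unit, one of the two lifts `a`, `b`
  of `x₂ = ā / b̄` has `D₂` a unit (`b̄ = D₂ ā - x₂ D₂ b̄`);
* `hell_haupt_kappa` : `hell` through a Hauptmodul `x ∈ κ` which is a unit at the finite places;
* `unit_of_rel2`, `unit_of_rel3` : a solution of the modular relation is a unit wherever `J̄` is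
  regular;
* `hell_three`, `hell_two`, **`hell_fin`** : `hell` for every prime `q ∤ M'` at a level `M'`
  divisible by a prime `r ≡ 11 (mod 12)` (and by `2` if `q = 3`, by `3` if `q = 2`);
* `ufm_pointRing_fin` : factoriality of the closed points of the finite chart.
-/
import Mathlib
import Fermat.Agent.CAR.Inst.EllFin
import Fermat.Agent.CAR.Ell.FrickeRed

set_option autoImplicit false

namespace Fermat.Agent.CAR.Ell.HellKappa

open IsLocalRing AlgebraicCurve ModularCurve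
open Fermat.Agent.CAR.Formal Fermat.Agent.CAR.Local Fermat.Agent.CAR.Local.Inst
open Fermat.Agent.CAR.Local.EllOrder Fermat.Agent.Lib.FF.ModL

section Abstract

variable {B B' F κ : Type*} [CommRing B] [IsDomain B] [Field F] [Algebra B F]
  [IsFractionRing B F] [Field κ] [CommRing B']

variable {O : Fin 3 → ValuationSubring F} {red : ∀ i, O i →+* κ}
  {hred : ∀ i, ∀ x : O i, red i x = 0 ↔ x ∈ maximalIdeal (O i)}
  {hBO : ∀ i, ∀ b : B, algebraMap B F b ∈ O i}
  {red' : B' →+* κ} {π₀ π₂ : B' →+* B} {D : κ → κ}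
  {q : B} {x' : B'} {u u₁ v₁ h : B} {Db G : κ} {N e : ℕ}

/-- At a finite place with an elliptic structure in a switched triple `(D₂, x₂, G₂)`, `x₂` any
element of `κ`, every `t : B'` whose reduction is a uniformiser has `D t̄ ≠ 0` and `(D t̄)^12 G`
a unit. -/
theorem exists_unit_cert_switch_kappa [IsNoetherianRing B] [IsIntegrallyClosed B]
    (H : Contract O red hred hBO red' π₀ π₂ D q x' u u₁ v₁ h Db G N e) (hG0 : G ≠ 0)
    (Vs : ValuationSubring κ) (hVs : IsFinPlace red' Vs) {τ : κ} (hτ : IsUnif Vs τ)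
    {D₂ : κ → κ} {G₂ : κ} (hD₂ : IsDeriv D₂) (x₂ : κ) (hx₂ : D₂ x₂ = 1)
    (hG₂0 : G₂ ≠ 0) (hsw : ∀ y : κ, D₂ y ^ 12 * G₂ = D y ^ 12 * G)
    (hS : EllC.EllStruct D₂ x₂ G₂ Vs) (t : B') (ht : hτ.ord (red' t) = 1) :
    D (red' t) ≠ 0 ∧ D (red' t) ^ 12 * G ∈ Vs ∧ (D (red' t) ^ 12 * G)⁻¹ ∈ Vs := by
  obtain ⟨z, v, e₀, a, hz, hxz0, hxz, hv0, hv, hvi, hGf, hea, hdvd⟩ := hS
  have hSub : ∀ y ∈ red'.range, y ∈ Vs := by
    rintro _ ⟨y, rfl⟩
    exact hVs.2 y
  have hliftS : ∀ c ∈ Vs, ∃ a ∈ red'.range, ∃ b ∈ red'.range, b ∉ Vs.nonunits ∧ a = c * b := by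
    intro c hc
    obtain ⟨a, b, hb, hab⟩ := H.lift Vs hVs c hc
    exact ⟨red' a, ⟨a, rfl⟩, red' b, ⟨b, rfl⟩, hb, hab⟩
  have hbd : ∀ y ∈ red'.range, D₂ y = 0 ∨ 0 ≤ 12 * hτ.ord (D₂ y) + hτ.ord G₂ := by
    rintro _ ⟨y, rfl⟩
    exact EllSwitch.bound_switch H hG0 Vs hVs hτ hG₂0 hsw y
  have hG : (e₀ : ℤ) * hτ.ord G₂ = 12 * ((e₀ : ℤ) - 1) * hτ.ord (x₂ - z) :=
    Ell.ord_eq_mul_of_eq_pow_mul hτ hxz0 hv0 hv hvi hGf hea
  obtain ⟨hle, -, hE⟩ := le_and_unit_certificate hD₂ hτ red'.range hSub hliftS hx₂ hz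
    hxz0 hxz hG₂0 hG hbd
  have hord : hτ.ord (x₂ - z) = e₀ := Ell.ord_eq_of_dvd hτ hxz0 hxz hle (hdvd τ hτ)
  obtain ⟨h1, h2, h3⟩ := hE hord (red' t) ⟨t, rfl⟩ ht
  have h4 : D₂ (red' t) ^ 12 * G₂ = D (red' t) ^ 12 * G := hsw _
  rw [h4] at h2 h3
  refine ⟨?_, h2, h3⟩
  intro h0
  have h5 : D₂ (red' t) ^ 12 * G₂ = 0 := by
    rw [h4, h0]
    simp
  exact mul_ne_zero (pow_ne_zero _ h1) hG₂0 h5

/-- At a finite place where the switched certificate function `G₂` is a unit, some element of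
`B'` has a certificate: writing `x₂ = ā / b̄` with `b̄` a unit at the place,
`b̄ = D₂ ā - x₂ D₂ b̄`, so `D₂ ā` or `D₂ b̄` is a unit. -/
theorem exists_cert_of_unit [IsNoetherianRing B] [IsIntegrallyClosed B]
    (H : Contract O red hred hBO red' π₀ π₂ D q x' u u₁ v₁ h Db G N e) (hG0 : G ≠ 0)
    (Vs : ValuationSubring κ) (hVs : IsFinPlace red' Vs) {τ : κ} (hτ : IsUnif Vs τ)
    {D₂ : κ → κ} {G₂ : κ} (hD₂ : IsDeriv D₂) (x₂ : κ) (hx₂ : D₂ x₂ = 1) (hx₂V : x₂ ∈ Vs)
    (hG₂0 : G₂ ≠ 0) (hG₂V : G₂ ∈ Vs) (hG₂i : G₂⁻¹ ∈ Vs)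
    (hsw : ∀ y : κ, D₂ y ^ 12 * G₂ = D y ^ 12 * G) :
    ∃ y : B', D (red' y) ≠ 0 ∧ D (red' y) ^ 12 * G ∉ Vs.nonunits := by
  obtain ⟨a, b, hb, hab⟩ := H.lift Vs hVs x₂ hx₂V
  have hmem : ∀ y : B', D₂ (red' y) ∈ Vs := by
    intro y
    by_cases hy0 : D₂ (red' y) = 0
    · rw [hy0]
      exact Vs.zero_mem
    · rcases EllSwitch.bound_switch H hG0 Vs hVs hτ hG₂0 hsw y with h0 | h0
      · exact absurd h0 hy0
      · rw [hτ.ord_unit hG₂V hG₂i hG₂0, add_zero] at h0
        exact (hτ.ord_nonneg_iff hy0).1 (by omega)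
  have hL : D₂ (red' a) = x₂ * D₂ (red' b) + red' b := by
    rw [hab, hD₂.mul, hx₂, one_mul]
  have key : ∃ y : B', D₂ (red' y) ∉ Vs.nonunits := by
    by_contra hcon
    push Not at hcon
    apply hb
    have e1 : red' b = D₂ (red' a) - D₂ (red' b) * x₂ := by
      rw [hL]
      ring
    rw [e1]
    exact Vs.nonunits.sub_mem (hcon a) (LThm.mul_mem_nonunits_of_mem Vs (hcon b) hx₂V)
  obtain ⟨y, hy⟩ := key
  obtain ⟨hy0, hyi⟩ := Ell.ne_zero_and_inv_mem_of_notMem_nonunits Vs hy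
  have hne : D₂ (red' y) ^ 12 * G₂ ≠ 0 := mul_ne_zero (pow_ne_zero _ hy0) hG₂0
  refine ⟨y, ?_, ?_⟩
  · intro h0
    apply hne
    rw [hsw, h0]
    simp
  · rw [← hsw]
    apply Ell.notMem_nonunits_of_inv_mem Vs hne
    rw [mul_inv, ← inv_pow]
    exact Vs.mul_mem _ _ (Vs.pow_mem hyi 12) hG₂i

/-- A solution `x` of `J x² = (x + c)³`, `c` a unit, is a unit wherever `J` is regular. -/
theorem unit_of_rel2 {Vs : ValuationSubring κ} {τ : κ} (hτ : IsUnif Vs τ) {J x c : κ}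
    (hJ : J ∈ Vs) (hJ0 : J ≠ 0) (hx0 : x ≠ 0) (hc : c ∈ Vs) (hci : c⁻¹ ∈ Vs) (hc0 : c ≠ 0)
    (hrel : J * x ^ 2 = (x + c) ^ 3) : x ∈ Vs ∧ x⁻¹ ∈ Vs := by
  have hJn : 0 ≤ hτ.ord J := (hτ.ord_nonneg_iff hJ0).2 hJ
  have hcn : hτ.ord c = 0 := hτ.ord_unit hc hci hc0
  have h1 := congrArg hτ.ord hrel
  rw [hτ.ord_mul hJ0 (pow_ne_zero 2 hx0), hτ.ord_pow, hτ.ord_pow] at h1
  push_cast at h1
  have h0 : hτ.ord x = 0 := by
    rcases lt_trichotomy (hτ.ord x) 0 with hlt | heq | hgt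
    · have h2 : hτ.ord (x + c) = hτ.ord x :=
        hτ.ord_add_eq_of_lt hx0 hc0 (by omega)
      rw [h2] at h1
      omega
    · exact heq
    · have h2 : hτ.ord (c + x) = hτ.ord c :=
        hτ.ord_add_eq_of_lt hc0 hx0 (by omega)
      rw [add_comm] at h2
      rw [h2] at h1
      omega
  refine ⟨(hτ.ord_nonneg_iff hx0).1 (by omega), (hτ.ord_nonneg_iff (inv_ne_zero hx0)).1 ?_⟩
  rw [hτ.ord_inv]
  omega

/-- A solution `x` of `J x³ = (x + c)(x + c')³`, `c`, `c'` units, is a unit wherever `J` is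
regular. -/
theorem unit_of_rel3 {Vs : ValuationSubring κ} {τ : κ} (hτ : IsUnif Vs τ) {J x c c' : κ}
    (hJ : J ∈ Vs) (hJ0 : J ≠ 0) (hx0 : x ≠ 0) (hc : c ∈ Vs) (hci : c⁻¹ ∈ Vs) (hc0 : c ≠ 0)
    (hc' : c' ∈ Vs) (hci' : c'⁻¹ ∈ Vs) (hc0' : c' ≠ 0)
    (hxc : x + c ≠ 0) (hxc' : x + c' ≠ 0) (hrel : J * x ^ 3 = (x + c) * (x + c') ^ 3) :
    x ∈ Vs ∧ x⁻¹ ∈ Vs := by
  have hJn : 0 ≤ hτ.ord J := (hτ.ord_nonneg_iff hJ0).2 hJ
  have hcn : hτ.ord c = 0 := hτ.ord_unit hc hci hc0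
  have hcn' : hτ.ord c' = 0 := hτ.ord_unit hc' hci' hc0'
  have h1 := congrArg hτ.ord hrel
  rw [hτ.ord_mul hJ0 (pow_ne_zero 3 hx0), hτ.ord_pow, hτ.ord_mul hxc (pow_ne_zero 3 hxc'),
    hτ.ord_pow] at h1
  push_cast at h1
  have h0 : hτ.ord x = 0 := by
    rcases lt_trichotomy (hτ.ord x) 0 with hlt | heq | hgt
    · have h2 : hτ.ord (x + c) = hτ.ord x := hτ.ord_add_eq_of_lt hx0 hc0 (by omega)
      have h2' : hτ.ord (x + c') = hτ.ord x := hτ.ord_add_eq_of_lt hx0 hc0' (by omega)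
      rw [h2, h2'] at h1
      omega
    · exact heq
    · have h2 : hτ.ord (c + x) = hτ.ord c := hτ.ord_add_eq_of_lt hc0 hx0 (by omega)
      have h2' : hτ.ord (c' + x) = hτ.ord c' := hτ.ord_add_eq_of_lt hc0' hx0 (by omega)
      rw [add_comm] at h2 h2'
      rw [h2, h2'] at h1
      omega
  refine ⟨(hτ.ord_nonneg_iff hx0).1 (by omega), (hτ.ord_nonneg_iff (inv_ne_zero hx0)).1 ?_⟩
  rw [hτ.ord_inv]
  omega

end Abstract

section Kappa

open IntermediateField Fermat.Agent.CAR.Local.ThetaJ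

variable (k : Type*) [Field k] [IsAlgClosed k] (N : ℕ) [NeZero N]

variable {B B' F : Type*} [CommRing B] [IsDomain B] [Field F] [Algebra B F]
  [IsFractionRing B F] [CommRing B']

variable {O : Fin 3 → ValuationSubring F} {red : ∀ i, O i →+* modularFunctionFieldFullC k N}
  {hred : ∀ i, ∀ x : O i, red i x = 0 ↔ x ∈ maximalIdeal (O i)}
  {hBO : ∀ i, ∀ b : B, algebraMap B F b ∈ O i}
  {red' : B' →+* modularFunctionFieldFullC k N} {π₀ π₂ : B' →+* B}
  {D : modularFunctionFieldFullC k N → modularFunctionFieldFullC k N}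
  {q : B} {x' : B'} {u u₁ v₁ h : B} {Db G : modularFunctionFieldFullC k N} {N' e : ℕ}

/-- **`hell` through a Hauptmodul of the special fibre.**  The contract is written with
`D = d/dJ̄`, `G = J̄^8 (J̄ - 1728)^6` (series characterisations `hD`, `hG`); `x ∈ κ` is a unit at
every finite place, `x^b (x - c)^a · Δ̄² = (θ x)^12` with `e₀ a = 12 (e₀ - 1)`, and the zeros of
`x - c` at the finite places have order divisible by `e₀`.  No element of `B'` reducing to `x`
is needed. -/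
theorem hell_haupt_kappa [IsNoetherianRing B] [IsIntegrallyClosed B]
    (H : Contract O red hred hBO red' π₀ π₂ D q x' u u₁ v₁ h Db G N' e)
    (hD : ∀ y : modularFunctionFieldFullC k N,
      thetaL k (y : LaurentSeries k) = (D y : LaurentSeries k) * thetaL k (jqModC k))
    (hG : (G : LaurentSeries k) * deltaL k ^ 2 = thetaL k (jqModC k) ^ 12)
    (hk : ∀ Vs : ValuationSubring (modularFunctionFieldFullC k N), IsFinPlace red' Vs →
      ∀ c : k, algebraMap k (modularFunctionFieldFullC k N) c ∈ Vs)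
    (x : modularFunctionFieldFullC k N)
    (hxV : ∀ Vs : ValuationSubring (modularFunctionFieldFullC k N), IsFinPlace red' Vs →
      x ∈ Vs ∧ x⁻¹ ∈ Vs)
    (c : k) (a b e₀ : ℕ) (hea : (e₀ : ℤ) * a = 12 * ((e₀ : ℤ) - 1))
    (hG₂ : ((x ^ b * (x - algebraMap k (modularFunctionFieldFullC k N) c) ^ a :
        modularFunctionFieldFullC k N) : LaurentSeries k) * deltaL k ^ 2 =
      thetaL k (x : LaurentSeries k) ^ 12)
    (hθ : thetaL k (x : LaurentSeries k) ≠ 0)
    (hE : ∀ s : Place k (modularFunctionFieldFullC k N), (∀ y : B', 0 ≤ s.ord (red' y)) →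
      0 < s.ord (x - algebraMap k (modularFunctionFieldFullC k N) c) →
      (e₀ : ℤ) ∣ s.ord (x - algebraMap k (modularFunctionFieldFullC k N) c)) :
    ∀ Vs : ValuationSubring (modularFunctionFieldFullC k N), IsFinPlace red' Vs →
      ∃ y : B', D (red' y) ≠ 0 ∧ D (red' y) ^ 12 * G ∉ Vs.nonunits := by
  have hDeq := EllSwitch.eq_dJ_of_series k N D hD
  have hGeq := EllSwitch.eq_GJ_of_series k N G hG
  have hfd : FiniteDimensional k⟮Jbar k N⟯ (modularFunctionFieldFullC k N) :=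
    finiteDimensional_Jbar k N
  have hx' : Deriv.dJ k N x ≠ 0 := fun h0 => hθ ((Deriv.dJ_eq_zero_iff k N x).1 h0)
  have hxc0 : x - algebraMap k (modularFunctionFieldFullC k N) c ≠ 0 := by
    intro h0
    apply hx'
    rw [sub_eq_zero.1 h0]
    exact Deriv.dJ_algebraMap k N c
  have hx0 : x ≠ 0 := by
    intro h0
    apply hx'
    rw [h0]
    exact (Deriv.isDeriv_dJ k N).zero
  have hG0 : G ≠ 0 := hGeq ▸ Deriv.GJ_ne_zero k N
  have hG₂0 : x ^ b * (x - algebraMap k (modularFunctionFieldFullC k N) c) ^ a ≠ 0 :=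
    mul_ne_zero (pow_ne_zero _ hx0) (pow_ne_zero _ hxc0)
  have hsw : ∀ y : modularFunctionFieldFullC k N,
      Deriv.dX k N x y ^ 12 *
        (x ^ b * (x - algebraMap k (modularFunctionFieldFullC k N) c) ^ a) =
      D y ^ 12 * G := by
    intro y
    rw [hDeq, hGeq]
    exact EllSwitch.dX_pow_mul_eq k N hθ _ hG₂ y
  intro Vs hVs
  obtain ⟨τ, hτ⟩ := EllJ.exists_isUnif_of_ne_top (Jbar k N) Vs (hk Vs hVs) hVs.1
  obtain ⟨hxV', hxiV⟩ := hxV Vs hVs
  by_cases hxc : x - algebraMap k (modularFunctionFieldFullC k N) c ∈ Vs.nonunits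
  · have hSt : EllC.EllStruct (Deriv.dX k N x) x
        (x ^ b * (x - algebraMap k (modularFunctionFieldFullC k N) c) ^ a) Vs := by
      refine EllSwitch.ellStruct_of_factor_fin k N red' x _ _ c a e₀ (x ^ b)
        (Deriv.dX_algebraMap k N x c) (mul_comm _ _) hea hE Vs hVs (hk Vs hVs) hxc0 hxc
        (pow_ne_zero _ hx0) (Vs.pow_mem hxV' b) ?_
      rw [← inv_pow]
      exact Vs.pow_mem hxiV b
    obtain ⟨t, ht⟩ := OffMid.exists_lift_unif red' hτ hVs.2 (H.lift Vs hVs)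
    obtain ⟨h1, -, h3⟩ := exists_unit_cert_switch_kappa H hG0 Vs hVs hτ
      (Deriv.isDeriv_dX k N x) x (Deriv.dX_self k N hx') hG₂0 hsw hSt t ht
    exact ⟨t, h1, Ell.notMem_nonunits_of_inv_mem Vs (mul_ne_zero (pow_ne_zero _ h1) hG0) h3⟩
  · obtain ⟨-, hci⟩ := Ell.ne_zero_and_inv_mem_of_notMem_nonunits Vs hxc
    have hxcV : x - algebraMap k (modularFunctionFieldFullC k N) c ∈ Vs :=
      sub_mem hxV' (hk Vs hVs c)
    refine exists_cert_of_unit H hG0 Vs hVs hτ (Deriv.isDeriv_dX k N x) x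
      (Deriv.dX_self k N hx') hxV' hG₂0
      (Vs.mul_mem _ _ (Vs.pow_mem hxV' b) (Vs.pow_mem hxcV a)) ?_ hsw
    rw [mul_inv, ← inv_pow, ← inv_pow]
    exact Vs.mul_mem _ _ (Vs.pow_mem hxiV b) (Vs.pow_mem hci a)

end Kappa

section Final

open Fermat.Agent.ESJ

variable (A : ValuationSubring (AlgebraicClosure ℚ)) [IsAlgClosed (ResidueField A)]
variable (M' : ℕ) [NeZero M']

variable {B B' F : Type*} [CommRing B] [IsDomain B] [Field F] [Algebra B F]
  [IsFractionRing B F] [CommRing B']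

variable {O : Fin 3 → ValuationSubring F}
  {red : ∀ i, O i →+* modularFunctionFieldFullC (ResidueField A) M'}
  {hred : ∀ i, ∀ x : O i, red i x = 0 ↔ x ∈ maximalIdeal (O i)}
  {hBO : ∀ i, ∀ b : B, algebraMap B F b ∈ O i}
  {red' : B' →+* modularFunctionFieldFullC (ResidueField A) M'} {π₀ π₂ : B' →+* B}
  {q₀ : B} {x' : B'} {u u₁ v₁ h : B} {Db : modularFunctionFieldFullC (ResidueField A) M'}
  {N e : ℕ}

omit [IsAlgClosed (ResidueField A)] [NeZero M'] in
/-- `J̄ ≠ 0`. -/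
theorem Jbar_ne_zero' : Jbar (ResidueField A) M' ≠ 0 := fun h0 =>
  transcendental_Jbar (ResidueField A) M' (h0 ▸ isAlgebraic_zero)

/-- **`hell` for `q = 3`, no Hauptmodul hypothesis**: level `M'` even, prime to `3`, divisible
by a prime `r ≡ 3 (mod 4)`. -/
theorem hell_three [IsNoetherianRing B] [IsIntegrallyClosed B]
    (hA : A.LiesOverPrime 3) (h3M : ¬ 3 ∣ M') (h2M : 2 ∣ M')
    {r : ℕ} (hr : r.Prime) (hr4 : r % 4 = 3) (hrM : r ∣ M')
    (H : Contract O red hred hBO red' π₀ π₂ (Deriv.dJ (ResidueField A) M') q₀ x' u u₁ v₁ h Db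
      (Deriv.GJ (ResidueField A) M') N e)
    (hx' : red' x' = Jbar (ResidueField A) M')
    (hk : ∀ Vs : ValuationSubring (modularFunctionFieldFullC (ResidueField A) M'),
      IsFinPlace red' Vs → ∀ c : ResidueField A,
        algebraMap (ResidueField A) (modularFunctionFieldFullC (ResidueField A) M') c ∈ Vs) :
    ∀ Vs : ValuationSubring (modularFunctionFieldFullC (ResidueField A) M'),
      IsFinPlace red' Vs → ∃ y : B', Deriv.dJ (ResidueField A) M' (red' y) ≠ 0 ∧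
        Deriv.dJ (ResidueField A) M' (red' y) ^ 12 * Deriv.GJ (ResidueField A) M' ∉
          Vs.nonunits := by
  obtain ⟨m, hm⟩ := h2M
  have hm0 : NeZero m := ⟨by
    rintro rfl
    exact NeZero.ne M' (by rw [hm, mul_zero])⟩
  have hM : M' = m * 2 := by rw [hm, mul_comm]
  obtain ⟨y, hrel, hdiv⟩ := FrickeRed.exists_haupt2 A M' m hM h3M r hr hr4 hrM hA
  have h2 : (2 : ResidueField A) ≠ 0 := by
    have := natCast_residue_ne_zero' A Nat.prime_three hA 2 (by norm_num)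
    exact_mod_cast this
  have h256 : (256 : modularFunctionFieldFullC (ResidueField A) M') =
      algebraMap (ResidueField A) _ (2 ^ 8) := by
    rw [map_pow, map_ofNat]
    norm_num
  have h256' : (256 : modularFunctionFieldFullC (ResidueField A) M') ≠ 0 := by
    rw [h256]
    exact (map_ne_zero _).2 (pow_ne_zero _ h2)
  have hy0 : y ≠ 0 := by
    rintro rfl
    rw [zero_pow two_ne_zero, mul_zero, zero_add] at hrel
    exact pow_ne_zero 3 h256' hrel.symm
  obtain ⟨hG₂, hθ⟩ := EllRel.cert_rel2 (ResidueField A) M' hy0 hrel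
  have hfd : FiniteDimensional (IntermediateField.adjoin (ResidueField A)
      {Jbar (ResidueField A) M'}) (modularFunctionFieldFullC (ResidueField A) M') :=
    finiteDimensional_Jbar (ResidueField A) M'
  have hc : y - algebraMap (ResidueField A) (modularFunctionFieldFullC (ResidueField A) M')
      (-64) = y + 64 := by
    rw [map_neg, sub_neg_eq_add, map_ofNat]
  refine hell_haupt_kappa (ResidueField A) M' H
    (Deriv.thetaL_eq_dJ_mul (ResidueField A) M') (Deriv.GJ_mul_delta_sq (ResidueField A) M')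
    hk y ?_ (-64) 6 8 2 (by norm_num) ?_ hθ ?_
  · intro Vs hVs
    obtain ⟨τ, hτ⟩ := EllJ.exists_isUnif_of_ne_top (Jbar (ResidueField A) M') Vs (hk Vs hVs)
      hVs.1
    have hJ : Jbar (ResidueField A) M' ∈ Vs := hx' ▸ hVs.2 x'
    refine unit_of_rel2 hτ hJ (Jbar_ne_zero' A M') hy0 (c := 256) ?_ ?_ h256' hrel
    · rw [h256]
      exact hk Vs hVs _
    · rw [h256, ← map_inv₀]
      exact hk Vs hVs _
  · rw [hc]
    exact hG₂
  · intro s _ hs
    rw [hc] at hs ⊢
    exact hdiv s hs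

/-- **`hell` for `q = 2`, no Hauptmodul hypothesis**: level `M'` divisible by `3`, odd, divisible
by a prime `r ≡ 2 (mod 3)`. -/
theorem hell_two [IsNoetherianRing B] [IsIntegrallyClosed B]
    (hA : A.LiesOverPrime 2) (h2M : ¬ 2 ∣ M') (h3M : 3 ∣ M')
    {r : ℕ} (hr : r.Prime) (hr3 : r % 3 = 2) (hrM : r ∣ M')
    (H : Contract O red hred hBO red' π₀ π₂ (Deriv.dJ (ResidueField A) M') q₀ x' u u₁ v₁ h Db
      (Deriv.GJ (ResidueField A) M') N e)
    (hx' : red' x' = Jbar (ResidueField A) M')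
    (hk : ∀ Vs : ValuationSubring (modularFunctionFieldFullC (ResidueField A) M'),
      IsFinPlace red' Vs → ∀ c : ResidueField A,
        algebraMap (ResidueField A) (modularFunctionFieldFullC (ResidueField A) M') c ∈ Vs) :
    ∀ Vs : ValuationSubring (modularFunctionFieldFullC (ResidueField A) M'),
      IsFinPlace red' Vs → ∃ y : B', Deriv.dJ (ResidueField A) M' (red' y) ≠ 0 ∧
        Deriv.dJ (ResidueField A) M' (red' y) ^ 12 * Deriv.GJ (ResidueField A) M' ∉
          Vs.nonunits := by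
  obtain ⟨m, hm⟩ := h3M
  have hm0 : NeZero m := ⟨by
    rintro rfl
    exact NeZero.ne M' (by rw [hm, mul_zero])⟩
  have hM : M' = m * 3 := by rw [hm, mul_comm]
  obtain ⟨y, hrel, hdiv⟩ := FrickeRed.exists_haupt3 A M' m hM h2M r hr hr3 hrM hA
  have h3 : (3 : ResidueField A) ≠ 0 := by
    have := natCast_residue_ne_zero' A Nat.prime_two hA 3 (by norm_num)
    exact_mod_cast this
  have h27 : (27 : modularFunctionFieldFullC (ResidueField A) M') =
      algebraMap (ResidueField A) _ (3 ^ 3) := by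
    rw [map_pow, map_ofNat]
    norm_num
  have h243 : (243 : modularFunctionFieldFullC (ResidueField A) M') =
      algebraMap (ResidueField A) _ (3 ^ 5) := by
    rw [map_pow, map_ofNat]
    norm_num
  have h27' : (27 : modularFunctionFieldFullC (ResidueField A) M') ≠ 0 := by
    rw [h27]
    exact (map_ne_zero _).2 (pow_ne_zero _ h3)
  have h243' : (243 : modularFunctionFieldFullC (ResidueField A) M') ≠ 0 := by
    rw [h243]
    exact (map_ne_zero _).2 (pow_ne_zero _ h3)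
  have hy0 : y ≠ 0 := by
    rintro rfl
    rw [zero_pow three_ne_zero, mul_zero, zero_add, zero_add] at hrel
    exact mul_ne_zero h27' (pow_ne_zero 3 h243') hrel.symm
  have htr := EllRel.transcendental_of_rel3 (ResidueField A) M' hy0 hrel
  obtain ⟨hG₂, hθ⟩ := EllRel.cert_rel3 (ResidueField A) M' hy0 hrel
  have hfd : FiniteDimensional (IntermediateField.adjoin (ResidueField A)
      {Jbar (ResidueField A) M'}) (modularFunctionFieldFullC (ResidueField A) M') :=
    finiteDimensional_Jbar (ResidueField A) M'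
  have hc : y - algebraMap (ResidueField A) (modularFunctionFieldFullC (ResidueField A) M')
      (-27) = y + 27 := by
    rw [map_neg, sub_neg_eq_add, map_ofNat]
  refine hell_haupt_kappa (ResidueField A) M' H
    (Deriv.thetaL_eq_dJ_mul (ResidueField A) M') (Deriv.GJ_mul_delta_sq (ResidueField A) M')
    hk y ?_ (-27) 8 6 3 (by norm_num) ?_ hθ ?_
  · intro Vs hVs
    obtain ⟨τ, hτ⟩ := EllJ.exists_isUnif_of_ne_top (Jbar (ResidueField A) M') Vs (hk Vs hVs)
      hVs.1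
    have hJ : Jbar (ResidueField A) M' ∈ Vs := hx' ▸ hVs.2 x'
    refine unit_of_rel3 hτ hJ (Jbar_ne_zero' A M') hy0 (c := 27) (c' := 243) ?_ ?_ h27' ?_ ?_
      h243' (EllRel.add_ne_zero_of_transcendental htr (EllRel.isAlgebraic_ofNat_aux 27))
      (EllRel.add_ne_zero_of_transcendental htr (EllRel.isAlgebraic_ofNat_aux 243)) hrel
    · rw [h27]
      exact hk Vs hVs _
    · rw [h27, ← map_inv₀]
      exact hk Vs hVs _
    · rw [h243]
      exact hk Vs hVs _
    · rw [h243, ← map_inv₀]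
      exact hk Vs hVs _
  · rw [hc]
    exact hG₂
  · intro s _ hs
    rw [hc] at hs ⊢
    exact hdiv s hs

/-- **The closing wire of (ELL), with no Hauptmodul hypothesis**: the hypothesis `hell` of
`Glue.LInst.hlocal_of_contract` / `Core.pointPkg_of_contract` for any contract of the finite
chart written with `D = d/dJ̄`, `G = J̄⁸ (J̄ - 1728)⁶`, `x̄' = J̄`, at a level `M'` prime to the
residue characteristic `q`, divisible by a prime `r ≡ 11 (mod 12)`, by `2` if `q = 3` and by `3`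
if `q = 2`. -/
theorem hell_fin [IsNoetherianRing B] [IsIntegrallyClosed B] {q : ℕ} (hq : q.Prime)
    (hA : A.LiesOverPrime q) (hqM : ¬ q ∣ M')
    (hr : ∃ r : ℕ, r.Prime ∧ r ≡ 11 [MOD 12] ∧ r ∣ M')
    (H : Contract O red hred hBO red' π₀ π₂ (Deriv.dJ (ResidueField A) M') q₀ x' u u₁ v₁ h Db
      (Deriv.GJ (ResidueField A) M') N e)
    (hx' : red' x' = Jbar (ResidueField A) M')
    (hk : ∀ Vs : ValuationSubring (modularFunctionFieldFullC (ResidueField A) M'),
      IsFinPlace red' Vs → ∀ c : ResidueField A,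
        algebraMap (ResidueField A) (modularFunctionFieldFullC (ResidueField A) M') c ∈ Vs)
    (h3 : q = 3 → 2 ∣ M') (h2 : q = 2 → 3 ∣ M') :
    ∀ Vs : ValuationSubring (modularFunctionFieldFullC (ResidueField A) M'),
      IsFinPlace red' Vs → ∃ y : B', Deriv.dJ (ResidueField A) M' (red' y) ≠ 0 ∧
        Deriv.dJ (ResidueField A) M' (red' y) ^ 12 * Deriv.GJ (ResidueField A) M' ∉
          Vs.nonunits := by
  obtain ⟨r, hr, hr12, hrM⟩ := hr
  obtain ⟨hr4, hr3⟩ := Fermat.Agent.CAR.Ell.mod_of_modEq_eleven hr12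
  by_cases hq5 : 5 ≤ q
  · exact Fermat.Agent.CAR.Inst.EllFin.hell_of_five_le A M' hq hA hqM hq5 hr hr12 hrM H hx' hk
  · have hq23 : q = 2 ∨ q = 3 := by
      have h1 : q < 5 := Nat.lt_of_not_le hq5
      have h2 := hq.two_le
      interval_cases q
      · exact Or.inl rfl
      · exact Or.inr rfl
      · exact absurd hq (by decide)
    rcases hq23 with hq2 | hq3
    · subst hq2
      exact hell_two A M' hA hqM (h2 rfl) hr hr3 hrM H hx' hk
    · subst hq3
      exact hell_three A M' hA hqM (h3 rfl) hr hr4 hrM H hx' hk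

/-- **Factoriality of the closed points of the finite chart over `q`**, with no Hauptmodul
hypothesis. -/
theorem ufm_pointRing_fin [IsNoetherianRing B] [IsIntegrallyClosed B] {q : ℕ} (hq : q.Prime)
    (hA : A.LiesOverPrime q) (hqM : ¬ q ∣ M')
    (hr : ∃ r : ℕ, r.Prime ∧ r ≡ 11 [MOD 12] ∧ r ∣ M')
    (H : Contract O red hred hBO red' π₀ π₂ (Deriv.dJ (ResidueField A) M') q₀ x' u u₁ v₁ h Db
      (Deriv.GJ (ResidueField A) M') N e)
    (hx' : red' x' = Jbar (ResidueField A) M')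
    (hk : ∀ Vs : ValuationSubring (modularFunctionFieldFullC (ResidueField A) M'),
      IsFinPlace red' Vs → ∀ c : ResidueField A,
        algebraMap (ResidueField A) (modularFunctionFieldFullC (ResidueField A) M') c ∈ Vs)
    (h3 : q = 3 → 2 ∣ M') (h2 : q = 2 → 3 ∣ M')
    (𝔪 : Ideal B) [𝔪.IsMaximal] (hq₀ : q₀ ∈ 𝔪) :
    UniqueFactorizationMonoid (pointRing F 𝔪) :=
  H.ufm_pointRing (hell_fin A M' hq hA hqM hr H hx' hk h3 h2) 𝔪 hq₀

end Final

end Fermat.Agent.CAR.Ell.HellKappa
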