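import Mathlib
import Fermat.Agent.CAR.V3.UnitRel
import Fermat.Agent.CAR.Local.Inst.EllJ
import Fermat.Agent.Lib.Red.Basis
import Fermat.Agent.Lib.FF.ModLBase

/-!
# CAR / ELL (ruling #6, R4 — trunk route): the modular unit `Δ(q^N)/Δ(q)`

## Series level (any commutative ring `A`, any `d ≥ 1`)

`u1 A d = Δ(q)/Δ(q^d)` and `u1inv A d = Δ(q^d)/Δ(q)` (helper98's series, used here for an
arbitrary `d`, not only for primes).

* `u1_mul`, `u1inv_mul` : the telescoping identities along `d = b * p`;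
* `isIntegral_all` : over any ring `R₀` over which `j(q)` is integral, `j(q^d)`, `Δ(q)/Δ(q^d)`
  and `d^12 Δ(q^d)/Δ(q)` are integral (helper98's prime relations transported along `q ↦ q^b`).
-/

set_option autoImplicit false
set_option linter.unusedSectionVars false
set_option linter.style.haveILetI false

noncomputable section

namespace Fermat.Agent.CAR.Ell.ModUnit

open ModularCurve Fermat.Agent.S28.ModEq Fermat.Agent.CAR.V3.Units

/-! ### Series level -/

section Series

variable (A : Type*) [CommRing A]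

theorem DAinv_mul_DA : DAinv A * DA A = 1 := by rw [mul_comm, DA_mul_DAinv]

theorem u1_one : u1 A 1 = 1 := by
  unfold u1
  rw [qExpand_one_apply, DA_mul_DAinv]

theorem u1inv_one : u1inv A 1 = 1 := by
  unfold u1inv
  rw [qExpand_one_apply, DAinv_mul_DA]

/-- `Δ(q)/Δ(q^(b p)) = Δ(q)/Δ(q^b) · (Δ(q)/Δ(q^p))(q^b)`. -/
theorem u1_mul (b p : ℕ) [NeZero b] [NeZero p] [NeZero (b * p)] :
    u1 A (b * p) = u1 A b * qExpand A b (u1 A p) := by
  unfold u1
  rw [map_mul, qExpand_qExpand]
  calc DA A * qExpand A (b * p) (DAinv A)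
      = DA A * qExpand A b (DAinv A * DA A) * qExpand A (b * p) (DAinv A) := by
        rw [DAinv_mul_DA, map_one, mul_one]
    _ = DA A * qExpand A b (DAinv A) * (qExpand A b (DA A) * qExpand A (b * p) (DAinv A)) := by
        rw [map_mul]; ring

/-- `Δ(q^(b p))/Δ(q) = Δ(q^b)/Δ(q) · (Δ(q^p)/Δ(q))(q^b)`. -/
theorem u1inv_mul (b p : ℕ) [NeZero b] [NeZero p] [NeZero (b * p)] :
    u1inv A (b * p) = u1inv A b * qExpand A b (u1inv A p) := by
  unfold u1inv
  rw [map_mul, qExpand_qExpand]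
  calc DAinv A * qExpand A (b * p) (DA A)
      = DAinv A * qExpand A b (DA A * DAinv A) * qExpand A (b * p) (DA A) := by
        rw [DA_mul_DAinv, map_one, mul_one]
    _ = DAinv A * qExpand A b (DA A) * (qExpand A b (DAinv A) * qExpand A (b * p) (DA A)) := by
        rw [map_mul]; ring

theorem jqNModC_mul (b p : ℕ) [NeZero b] [NeZero p] [NeZero (b * p)] :
    jqNModC A (b * p) = qExpand A b (jqNModC A p) := by
  unfold jqNModC
  rw [qExpand_qExpand]

variable {R₀ : Type*} [CommRing R₀] [Algebra R₀ (LaurentSeries A)]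

/-- One prime step of the integrality induction. -/
theorem isIntegral_step (b p : ℕ) [NeZero b] [NeZero p] [NeZero (b * p)] (hp : p.Prime)
    (h : IsIntegral R₀ (jqNModC A b) ∧ IsIntegral R₀ (u1 A b) ∧
      IsIntegral R₀ (HahnSeries.C ((b : A) ^ 12) * u1inv A b)) :
    IsIntegral R₀ (jqNModC A (b * p)) ∧ IsIntegral R₀ (u1 A (b * p)) ∧
      IsIntegral R₀ (HahnSeries.C (((b * p : ℕ) : A) ^ 12) * u1inv A (b * p)) := by
  obtain ⟨hJ, hu, hv⟩ := h
  obtain ⟨D⟩ := exists_unitData p hp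
  have hb1 : qExpand A b (jqModC A) = jqNModC A b := rfl
  -- `j(q^(b p))`
  have hJ' : IsIntegral R₀ (jqNModC A (b * p)) := by
    have h1 := congrArg (qExpand A b) (biEval_Phi_J1 A D.toModEqData)
    rw [map_biEval, map_zero, ← jqNModC_mul, hb1] at h1
    exact isIntegral_of_biEval D.Φ D.Φ_monic hJ h1
  refine ⟨hJ', ?_, ?_⟩
  · -- `Δ(q)/Δ(q^(b p))`
    rw [u1_mul]
    refine hu.mul ?_
    have h1 := congrArg (qExpand A b) (biEval_Psi_u1 A D)
    rw [map_biEval, map_zero, ← jqNModC_mul] at h1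
    exact isIntegral_of_biEval D.Ψ D.Ψ_monic hJ' h1
  · -- `(b p)^12 Δ(q^(b p))/Δ(q)`
    have h1 := congrArg (qExpand A b) (biEval_Psi_yInf A D.toModEqData)
    rw [map_biEval, map_zero, hb1] at h1
    have h2 : IsIntegral R₀ (qExpand A b (yInf A p)) :=
      isIntegral_of_biEval D.Ψ D.Ψ_monic hJ h1
    have h3 : HahnSeries.C (((b * p : ℕ) : A) ^ 12) * u1inv A (b * p) =
        (HahnSeries.C ((b : A) ^ 12) * u1inv A b) * qExpand A b (yInf A p) := by
      rw [u1inv_mul, yInf_eq, map_mul, qExpand_C, Nat.cast_mul, mul_pow, map_mul]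
      ring
    rw [h3]
    exact hv.mul h2

/-- **Integrality of the modular units of arbitrary level.**  Over any ring `R₀` over which
`j(q)` is integral, `j(q^d)`, `Δ(q)/Δ(q^d)` and `d^12 Δ(q^d)/Δ(q)` are integral. -/
theorem isIntegral_all (h : IsIntegral R₀ (jqModC A)) :
    ∀ (d : ℕ) [NeZero d], IsIntegral R₀ (jqNModC A d) ∧ IsIntegral R₀ (u1 A d) ∧
      IsIntegral R₀ (HahnSeries.C ((d : A) ^ 12) * u1inv A d) := by
  intro d
  induction d using Nat.strong_induction_on with
  | _ d ih =>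
    intro hd
    by_cases hd1 : d = 1
    · subst hd1
      rw [jqNModC_one, u1_one, u1inv_one, Nat.cast_one, one_pow, map_one, one_mul]
      exact ⟨h, isIntegral_one, isIntegral_one⟩
    · obtain ⟨p, hp, hpd⟩ := Nat.exists_prime_and_dvd hd1
      obtain ⟨b, rfl⟩ : ∃ b, d = b * p := ⟨d / p, (Nat.div_mul_cancel hpd).symm⟩
      have hb0 : b ≠ 0 := fun h0 => NeZero.ne (b * p) (by rw [h0, zero_mul])
      haveI : NeZero b := ⟨hb0⟩
      haveI : NeZero p := ⟨hp.ne_zero⟩
      have hlt : b < b * p := by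
        calc b = b * 1 := (mul_one b).symm
          _ < b * p := Nat.mul_lt_mul_of_pos_left hp.one_lt (Nat.pos_of_ne_zero hb0)
      exact isIntegral_step A b p hp (ih b hlt)

end Series

/-! ### The function field level -/

section Field

open Fermat.Agent.CAR.Local.ThetaJ Fermat.Agent.CAR.Local.Inst Fermat.Agent.Lib.FF.ModL
  Fermat.Agent.Lib.Red Fermat.Agent.S28 IntermediateField

variable (k : Type*) [Field k] (N : ℕ) [NeZero N]

theorem coe_xk_eq :
    ((xk k N : modularFunctionFieldFullC k N) : LaurentSeries k) = jqNModC k N := by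
  rw [coe_xk, TD.Jd_eq_jqNModC]

theorem xk_eq_JNbar : xk k N = JNbar k N :=
  Subtype.ext (coe_JNbar k N).symm

theorem transcendental_xk : Transcendental k (xk k N) := by
  rw [xk_eq_JNbar]
  exact transcendental_JNbar k N

theorem finiteDimensional_xk :
    FiniteDimensional k⟮xk k N⟯ (modularFunctionFieldFullC k N) := by
  rw [xk_eq_JNbar]
  exact finiteDimensional_JNbar k N

/-- `θ x̄ = N · (θ J̄)(q^N)` for `x̄ = J̄(q^N)`. -/
theorem thetaL_xk :
    thetaL k ((xk k N : modularFunctionFieldFullC k N) : LaurentSeries k) =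
      HahnSeries.C (N : k) * qExpand k N (thetaL k (jqModC k)) := by
  rw [coe_xk_eq]
  exact thetaL_qExpand N (jqModC k)

theorem natCast_series_ne_zero (hN : (N : k) ≠ 0) :
    (HahnSeries.C (N : k) : LaurentSeries k) ≠ 0 := fun h =>
  hN (HahnSeries.C_injective (by rw [h, map_zero]))

theorem thetaL_xk_ne_zero (hN : (N : k) ≠ 0) :
    thetaL k ((xk k N : modularFunctionFieldFullC k N) : LaurentSeries k) ≠ 0 := by
  rw [thetaL_xk]
  refine mul_ne_zero (natCast_series_ne_zero k N hN) fun h => ?_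
  exact thetaL_jq_ne_zero k (qExpand_injective N (by rw [h, map_zero]))

/-- `(θ x̄)^12 = N^12 · x̄^8 (x̄ - 1728)^6 · Δ(q^N)^2` for `x̄ = J̄(q^N)`. -/
theorem thetaL_xk_pow :
    thetaL k ((xk k N : modularFunctionFieldFullC k N) : LaurentSeries k) ^ 12 =
      HahnSeries.C ((N : k) ^ 12) * (jqNModC k N ^ 8 * (jqNModC k N - 1728) ^ 6) *
        qExpand k N (deltaL k) ^ 2 := by
  have h : thetaL k (jqModC k) ^ 12 = jqModC k ^ 8 * (jqModC k - 1728) ^ 6 * deltaL k ^ 2 := by
    have h6 := theta_jq_pow_six k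
    calc thetaL k (jqModC k) ^ 12 = (thetaL k (jqModC k) ^ 6) ^ 2 := by ring
      _ = jqModC k ^ 8 * (jqModC k - 1728) ^ 6 * deltaL k ^ 2 := by rw [h6]; ring
  have e : qExpand k N (jqModC k ^ 8 * (jqModC k - 1728) ^ 6 * deltaL k ^ 2) =
      (jqNModC k N ^ 8 * (jqNModC k N - 1728) ^ 6) * qExpand k N (deltaL k) ^ 2 := by
    unfold jqNModC
    simp only [map_mul, map_pow, map_sub, map_ofNat]
  rw [thetaL_xk, mul_pow, ← map_pow (HahnSeries.C : k →+* LaurentSeries k),
    ← map_pow (qExpand k N), h, e]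
  ring

theorem jqNModC_sub_ne_zero (c : k) : jqNModC k N - HahnSeries.C c ≠ 0 := by
  intro h
  apply jqModC_sub_ne_zero k c
  apply qExpand_injective N
  rw [map_sub, qExpand_C, map_zero]
  exact h

theorem jqNModC_ne_zero : jqNModC k N ≠ 0 := by
  have h := jqNModC_sub_ne_zero k N 0
  rwa [map_zero, sub_zero] at h

theorem jqNModC_sub_1728_ne_zero : jqNModC k N - 1728 ≠ 0 := by
  have h := jqNModC_sub_ne_zero k N 1728
  rwa [map_ofNat] at h

theorem xk_ne_zero : xk k N ≠ 0 := fun h =>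
  transcendental_xk k N (h ▸ isAlgebraic_zero)

theorem xk_sub_1728_ne_zero : xk k N - 1728 ≠ 0 := by
  intro h
  apply transcendental_xk k N
  rw [sub_eq_zero.1 h, ← map_ofNat (algebraMap k (modularFunctionFieldFullC k N)) 1728]
  exact isAlgebraic_algebraMap _

theorem natCast_ne_zero' (hN : (N : k) ≠ 0) : (N : modularFunctionFieldFullC k N) ≠ 0 := by
  rw [← map_natCast (algebraMap k (modularFunctionFieldFullC k N)) N]
  exact fun h => hN ((algebraMap k (modularFunctionFieldFullC k N)).injective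
    (by rw [h, map_zero]))

variable [IsAlgClosed k]

/-- `dx̄/dJ̄ ≠ 0` for the trunk base function `x̄ = J̄(q^N)`, `N` prime to the characteristic. -/
theorem dJ_xk_ne_zero (hN : (N : k) ≠ 0) : Deriv.dJ k N (xk k N) ≠ 0 := by
  rw [Ne, Deriv.dJ_eq_zero_iff]
  exact thetaL_xk_ne_zero k N hN

/-- **The modular unit** `(Δ(q^N)/Δ(q))²` as an element of the mod-`q` function field. -/
def modUnit : modularFunctionFieldFullC k N :=
  Deriv.dJ k N (xk k N) ^ 12 * Deriv.GJ k N /
    ((N : modularFunctionFieldFullC k N) ^ 12 * (xk k N ^ 8 * (xk k N - 1728) ^ 6))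

theorem den_ne_zero (hN : (N : k) ≠ 0) :
    (N : modularFunctionFieldFullC k N) ^ 12 * (xk k N ^ 8 * (xk k N - 1728) ^ 6) ≠ 0 :=
  mul_ne_zero (pow_ne_zero _ (natCast_ne_zero' k N hN))
    (mul_ne_zero (pow_ne_zero _ (xk_ne_zero k N)) (pow_ne_zero _ (xk_sub_1728_ne_zero k N)))

/-- **The trunk `G`-identity**: `(dx̄/dJ̄)^12 · J̄^8 (J̄ - 1728)^6 = N^12 · x̄^8 (x̄ - 1728)^6 · U`
with `U = (Δ(q^N)/Δ(q))²`. -/
theorem dJ_xk_pow_mul_GJ (hN : (N : k) ≠ 0) :
    Deriv.dJ k N (xk k N) ^ 12 * Deriv.GJ k N =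
      (N : modularFunctionFieldFullC k N) ^ 12 * (xk k N ^ 8 * (xk k N - 1728) ^ 6) *
        modUnit k N := by
  unfold modUnit
  rw [mul_div_cancel₀ _ (den_ne_zero k N hN)]

/-- The series of the modular unit: `(Δ(q^N)/Δ(q))²`. -/
theorem coe_modUnit (hN : (N : k) ≠ 0) :
    ((modUnit k N : modularFunctionFieldFullC k N) : LaurentSeries k) = u1inv k N ^ 2 := by
  have h1 := dJ_xk_pow_mul_GJ k N hN
  have h2 := congrArg (fun z : modularFunctionFieldFullC k N => (z : LaurentSeries k)) h1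
  have hN' : ((N : modularFunctionFieldFullC k N) : LaurentSeries k) = HahnSeries.C (N : k) := by
    rw [map_natCast]
    norm_cast
  have h1728 : ((1728 : modularFunctionFieldFullC k N) : LaurentSeries k) = 1728 := by
    norm_cast
  have h3 : (Deriv.dJ k N (xk k N) : LaurentSeries k) ^ 12 * (Deriv.GJ k N : LaurentSeries k) =
      ((N : modularFunctionFieldFullC k N) : LaurentSeries k) ^ 12 *
          ((xk k N : LaurentSeries k) ^ 8 *
            ((xk k N : LaurentSeries k) -
              ((1728 : modularFunctionFieldFullC k N) : LaurentSeries k)) ^ 6) *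
          (modUnit k N : LaurentSeries k) := h2
  rw [hN', h1728, coe_xk_eq, ← map_pow] at h3
  -- `(θ x̄)^12` computed in two ways
  have h6 : thetaL k ((xk k N : modularFunctionFieldFullC k N) : LaurentSeries k) ^ 12 =
      (Deriv.dJ k N (xk k N) : LaurentSeries k) ^ 12 * (Deriv.GJ k N : LaurentSeries k) *
        deltaL k ^ 2 := by
    rw [Deriv.thetaL_eq_dJ_mul k N (xk k N), mul_pow, mul_assoc, Deriv.GJ_mul_delta_sq]
  rw [thetaL_xk_pow, h3] at h6
  have hc : HahnSeries.C ((N : k) ^ 12) * (jqNModC k N ^ 8 * (jqNModC k N - 1728) ^ 6) ≠ 0 := by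
    refine mul_ne_zero ?_ (mul_ne_zero (pow_ne_zero _ (jqNModC_ne_zero k N))
      (pow_ne_zero _ (jqNModC_sub_1728_ne_zero k N)))
    rw [map_pow]
    exact pow_ne_zero _ (natCast_series_ne_zero k N hN)
  have h7 : qExpand k N (deltaL k) ^ 2 = (modUnit k N : LaurentSeries k) * deltaL k ^ 2 := by
    apply mul_left_cancel₀ hc
    rw [h6]
    ring
  have hD : deltaL k = DA k := rfl
  rw [hD] at h7
  calc ((modUnit k N : modularFunctionFieldFullC k N) : LaurentSeries k)
      = ((modUnit k N : LaurentSeries k) * DA k ^ 2) * DAinv k ^ 2 := by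
        rw [mul_assoc, ← mul_pow, DA_mul_DAinv, one_pow, mul_one]
    _ = u1inv k N ^ 2 := by
        rw [← h7]
        unfold u1inv
        ring

/-! ### Integrality over `k[J̄]` and the finite places -/

/-- A valuation subring of a field contains every element integral over a ring mapping into
it. -/
theorem mem_of_isIntegral_of_forall {F : Type*} [Field F] (V : ValuationSubring F) {R : Type*}
    [CommRing R] [Algebra R F] (hR : ∀ r : R, algebraMap R F r ∈ V) {y : F}
    (hy : IsIntegral R y) : y ∈ V := by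
  obtain ⟨p, hp, hpy⟩ := hy
  let g : R →+* V := (algebraMap R F).codRestrict V.toSubring hR
  have h1 : IsIntegral V y := by
    refine ⟨p.map g, hp.map g, ?_⟩
    rw [Polynomial.eval₂_map]
    exact hpy
  obtain ⟨a, ha⟩ := (IsIntegrallyClosed.isIntegral_iff (R := V) (K := F)).1 h1
  rw [← ha]
  exact a.2

omit [IsAlgClosed k] in
/-- `j(q)` is integral over `k[J̄]` (trivially). -/
theorem isIntegral_jq :
    IsIntegral ↥(Algebra.adjoin k {Jbar k N}) (jqModC k) := by
  have h : jqModC k = algebraMap ↥(Algebra.adjoin k {Jbar k N}) (LaurentSeries k)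
      ⟨Jbar k N, Algebra.subset_adjoin (Set.mem_singleton _)⟩ := rfl
  rw [h]
  exact isIntegral_algebraMap

omit [IsAlgClosed k] in
/-- Constants are integral over `k[J̄]`. -/
theorem isIntegral_C (c : k) :
    IsIntegral ↥(Algebra.adjoin k {Jbar k N}) (HahnSeries.C c : LaurentSeries k) := by
  have h : (HahnSeries.C c : LaurentSeries k) =
      algebraMap ↥(Algebra.adjoin k {Jbar k N}) (LaurentSeries k)
        (algebraMap k ↥(Algebra.adjoin k {Jbar k N}) c) := by
    rw [← IsScalarTower.algebraMap_apply k ↥(Algebra.adjoin k {Jbar k N}) (LaurentSeries k) c,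
      algebraMap_laurentSeries_eq_single, HahnSeries.C_apply]
  rw [h]
  exact isIntegral_algebraMap

omit [IsAlgClosed k] in
/-- An element of the function field whose series is integral over `k[J̄]` lies in every
valuation subring containing `k` and `J̄`. -/
theorem mem_of_isIntegral_series (Vs : ValuationSubring (modularFunctionFieldFullC k N))
    (hk : ∀ c : k, algebraMap k (modularFunctionFieldFullC k N) c ∈ Vs) (hJ : Jbar k N ∈ Vs)
    {y : modularFunctionFieldFullC k N}
    (hy : IsIntegral ↥(Algebra.adjoin k {Jbar k N}) (y : LaurentSeries k)) : y ∈ Vs := by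
  have h1 : IsIntegral ↥(Algebra.adjoin k {Jbar k N}) y :=
    (isIntegral_algebraMap_iff
      (algebraMap (modularFunctionFieldFullC k N) (LaurentSeries k)).injective).1 hy
  refine mem_of_isIntegral_of_forall Vs (fun r => ?_) h1
  have hr := r.2
  refine Algebra.adjoin_induction (p := fun r _ => r ∈ Vs) ?_ ?_ ?_ ?_ hr
  · intro z hz
    rw [Set.mem_singleton_iff] at hz
    rw [hz]
    exact hJ
  · exact hk
  · intro a b _ _ ha hb
    exact Vs.add_mem _ _ ha hb
  · intro a b _ _ ha hb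
    exact Vs.mul_mem _ _ ha hb

omit [IsAlgClosed k] in
/-- `x̄ = J̄(q^N)` is regular at every finite place. -/
theorem xk_mem (Vs : ValuationSubring (modularFunctionFieldFullC k N))
    (hk : ∀ c : k, algebraMap k (modularFunctionFieldFullC k N) c ∈ Vs) (hJ : Jbar k N ∈ Vs) :
    xk k N ∈ Vs := by
  refine mem_of_isIntegral_series k N Vs hk hJ ?_
  rw [coe_xk_eq]
  exact (isIntegral_all k (isIntegral_jq k N) N).1

omit [IsAlgClosed k] in
/-- `Δ(q^N)/Δ(q)` is integral over `k[J̄]` when `N` is prime to the characteristic. -/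
theorem isIntegral_u1inv (hN : (N : k) ≠ 0) :
    IsIntegral ↥(Algebra.adjoin k {Jbar k N}) (u1inv k N) := by
  have h := (isIntegral_all k (isIntegral_jq k N) N).2.2
  have h2 : u1inv k N = HahnSeries.C (((N : k) ^ 12)⁻¹) *
      (HahnSeries.C ((N : k) ^ 12) * u1inv k N) := by
    rw [← mul_assoc, ← map_mul, inv_mul_cancel₀ (pow_ne_zero _ hN), map_one, one_mul]
  rw [h2]
  exact (isIntegral_C k N _).mul h

omit [IsAlgClosed k] in
/-- `Δ(q)/Δ(q^N)` is integral over `k[J̄]`. -/
theorem isIntegral_u1 :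
    IsIntegral ↥(Algebra.adjoin k {Jbar k N}) (u1 k N) :=
  (isIntegral_all k (isIntegral_jq k N) N).2.1

/-- **The modular unit is regular at every finite place.** -/
theorem modUnit_mem (hN : (N : k) ≠ 0) (Vs : ValuationSubring (modularFunctionFieldFullC k N))
    (hk : ∀ c : k, algebraMap k (modularFunctionFieldFullC k N) c ∈ Vs) (hJ : Jbar k N ∈ Vs) :
    modUnit k N ∈ Vs := by
  refine mem_of_isIntegral_series k N Vs hk hJ ?_
  rw [coe_modUnit k N hN]
  exact (isIntegral_u1inv k N hN).pow 2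

theorem modUnit_ne_zero (hN : (N : k) ≠ 0) : modUnit k N ≠ 0 := by
  intro h
  have h1 := coe_modUnit k N hN
  rw [h] at h1
  have h2 : ((0 : modularFunctionFieldFullC k N) : LaurentSeries k) = 0 := rfl
  rw [h2] at h1
  have h3 : u1 k N ^ 2 * u1inv k N ^ 2 = 1 := by
    rw [← mul_pow, u1_mul_u1inv, one_pow]
  rw [← h1, mul_zero] at h3
  exact zero_ne_one h3

/-- **The inverse of the modular unit is regular at every finite place.** -/
theorem modUnit_inv_mem (hN : (N : k) ≠ 0)
    (Vs : ValuationSubring (modularFunctionFieldFullC k N))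
    (hk : ∀ c : k, algebraMap k (modularFunctionFieldFullC k N) c ∈ Vs) (hJ : Jbar k N ∈ Vs) :
    (modUnit k N)⁻¹ ∈ Vs := by
  refine mem_of_isIntegral_series k N Vs hk hJ ?_
  have h1 : (((modUnit k N)⁻¹ : modularFunctionFieldFullC k N) : LaurentSeries k) =
      ((modUnit k N : modularFunctionFieldFullC k N) : LaurentSeries k)⁻¹ := rfl
  have h3 : u1 k N ^ 2 * u1inv k N ^ 2 = 1 := by
    rw [← mul_pow, u1_mul_u1inv, one_pow]
  rw [h1, coe_modUnit k N hN, ← eq_inv_of_mul_eq_one_left h3]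
  exact (isIntegral_u1 k N).pow 2

/-- The modular unit is a unit at every finite place. -/
theorem modUnit_notMem_nonunits (hN : (N : k) ≠ 0)
    (Vs : ValuationSubring (modularFunctionFieldFullC k N))
    (hk : ∀ c : k, algebraMap k (modularFunctionFieldFullC k N) c ∈ Vs) (hJ : Jbar k N ∈ Vs) :
    modUnit k N ∉ Vs.nonunits :=
  Ell.notMem_nonunits_of_inv_mem Vs (modUnit_ne_zero k N hN) (modUnit_inv_mem k N hN Vs hk hJ)

/-! ### Consumer forms: the trunk base function at the finite places -/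

section Units

variable {F : Type*} [Field F] (V : ValuationSubring F)

/-- `a` is a unit of the valuation ring `V`. -/
def IsU (a : F) : Prop := a ≠ 0 ∧ a ∈ V ∧ a⁻¹ ∈ V

variable {V}

theorem IsU.mul {a b : F} (ha : IsU V a) (hb : IsU V b) : IsU V (a * b) :=
  ⟨mul_ne_zero ha.1 hb.1, V.mul_mem _ _ ha.2.1 hb.2.1, by
    rw [mul_inv]
    exact V.mul_mem _ _ ha.2.2 hb.2.2⟩

theorem IsU.pow {a : F} (ha : IsU V a) (n : ℕ) : IsU V (a ^ n) :=
  ⟨pow_ne_zero _ ha.1, pow_mem ha.2.1 n, by
    rw [← inv_pow]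
    exact pow_mem ha.2.2 n⟩

theorem IsU.notMem_nonunits {a : F} (ha : IsU V a) : a ∉ V.nonunits :=
  Ell.notMem_nonunits_of_inv_mem V ha.1 ha.2.2

theorem isU_of_notMem_nonunits {a : F} (ha : a ∈ V) (h : a ∉ V.nonunits) : IsU V a :=
  ⟨(Ell.ne_zero_and_inv_mem_of_notMem_nonunits V h).1, ha,
    (Ell.ne_zero_and_inv_mem_of_notMem_nonunits V h).2⟩

end Units

omit [NeZero N] [IsAlgClosed k] in
theorem isU_const (Vs : ValuationSubring (modularFunctionFieldFullC k N))
    (hk : ∀ c : k, algebraMap k (modularFunctionFieldFullC k N) c ∈ Vs) {c : k} (hc : c ≠ 0) :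
    IsU Vs (algebraMap k (modularFunctionFieldFullC k N) c) :=
  ⟨fun h => hc ((algebraMap k (modularFunctionFieldFullC k N)).injective (by rw [h, map_zero])),
    hk c, by
      rw [← map_inv₀]
      exact hk c⁻¹⟩

omit [NeZero N] [IsAlgClosed k] in
theorem isU_natCast (hN : (N : k) ≠ 0) (Vs : ValuationSubring (modularFunctionFieldFullC k N))
    (hk : ∀ c : k, algebraMap k (modularFunctionFieldFullC k N) c ∈ Vs) :
    IsU Vs (N : modularFunctionFieldFullC k N) := by
  rw [← map_natCast (algebraMap k (modularFunctionFieldFullC k N)) N]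
  exact isU_const k N Vs hk hN

theorem isU_modUnit (hN : (N : k) ≠ 0) (Vs : ValuationSubring (modularFunctionFieldFullC k N))
    (hk : ∀ c : k, algebraMap k (modularFunctionFieldFullC k N) c ∈ Vs) (hJ : Jbar k N ∈ Vs) :
    IsU Vs (modUnit k N) :=
  ⟨modUnit_ne_zero k N hN, modUnit_mem k N hN Vs hk hJ, modUnit_inv_mem k N hN Vs hk hJ⟩

omit [IsAlgClosed k] in
theorem xk_sub_1728_mem (Vs : ValuationSubring (modularFunctionFieldFullC k N))
    (hk : ∀ c : k, algebraMap k (modularFunctionFieldFullC k N) c ∈ Vs) (hJ : Jbar k N ∈ Vs) :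
    xk k N - 1728 ∈ Vs := by
  rw [← map_ofNat (algebraMap k (modularFunctionFieldFullC k N)) 1728]
  exact sub_mem (xk_mem k N Vs hk hJ) (hk 1728)

/-- **(a) Non-elliptic finite places.**  At a finite place where `x̄ = J̄(q^N)` avoids `0` and
`1728`, the trunk base function itself certifies `hell`:
`D x̄ ≠ 0` and `(D x̄)^12 · G` is a unit (`D = d/dJ̄`, `G = J̄^8 (J̄ - 1728)^6`). -/
theorem cert_xk_of_notMem (hN : (N : k) ≠ 0)
    (Vs : ValuationSubring (modularFunctionFieldFullC k N))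
    (hk : ∀ c : k, algebraMap k (modularFunctionFieldFullC k N) c ∈ Vs) (hJ : Jbar k N ∈ Vs)
    (hG : xk k N ^ 8 * (xk k N - 1728) ^ 6 ∉ Vs.nonunits) :
    Deriv.dJ k N (xk k N) ≠ 0 ∧
      Deriv.dJ k N (xk k N) ^ 12 * Deriv.GJ k N ∉ Vs.nonunits := by
  refine ⟨dJ_xk_ne_zero k N hN, ?_⟩
  rw [dJ_xk_pow_mul_GJ k N hN]
  have hGm : xk k N ^ 8 * (xk k N - 1728) ^ 6 ∈ Vs :=
    Vs.mul_mem _ _ (pow_mem (xk_mem k N Vs hk hJ) 8) (pow_mem (xk_sub_1728_mem k N Vs hk hJ) 6)
  exact (((isU_natCast k N hN Vs hk).pow 12).mul (isU_of_notMem_nonunits hGm hG)).mul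
    (isU_modUnit k N hN Vs hk hJ) |>.notMem_nonunits

/-- **(b) Elliptic finite places.**  At a finite place where `x̄ = J̄(q^N)` takes the value `0` or
`1728`, the place has the elliptic structure with respect to the derivation `d/dx̄`, the base
function `x̄` and the certificate function `(dx̄/dJ̄)^12 · G`; the divisibilities `hE0`, `hE1728`
are (E-a) + (E-b) for the trunk base function (helper91's `three_dvd_ord_xk`,
`two_dvd_ord_xk_sub_1728`). -/
theorem ellStruct_xk (hN : (N : k) ≠ 0) (h2 : (2 : k) ≠ 0) (h3 : (3 : k) ≠ 0)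
    (hE0 : ∀ s : AlgebraicCurve.Place k (modularFunctionFieldFullC k N),
      0 < s.ord (xk k N - algebraMap k (modularFunctionFieldFullC k N) 0) →
      ((3 : ℕ) : ℤ) ∣ s.ord (xk k N - algebraMap k (modularFunctionFieldFullC k N) 0))
    (hE1728 : ∀ s : AlgebraicCurve.Place k (modularFunctionFieldFullC k N),
      0 < s.ord (xk k N - algebraMap k (modularFunctionFieldFullC k N) 1728) →
      ((2 : ℕ) : ℤ) ∣ s.ord (xk k N - algebraMap k (modularFunctionFieldFullC k N) 1728))
    (Vs : ValuationSubring (modularFunctionFieldFullC k N))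
    (hk : ∀ c : k, algebraMap k (modularFunctionFieldFullC k N) c ∈ Vs) (htop : Vs ≠ ⊤)
    (hJ : Jbar k N ∈ Vs)
    (hG : xk k N ^ 8 * (xk k N - 1728) ^ 6 ∈ Vs.nonunits) :
    EllC.EllStruct (Deriv.dX k N (xk k N)) (xk k N)
      (Deriv.dJ k N (xk k N) ^ 12 * Deriv.GJ k N) Vs := by
  have hfd : FiniteDimensional k⟮xk k N⟯ (modularFunctionFieldFullC k N) :=
    finiteDimensional_xk k N
  have h1728 : (1728 : k) ≠ 0 := by
    have h : (1728 : k) = 2 ^ 6 * 3 ^ 3 := by norm_num
    rw [h]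
    exact mul_ne_zero (pow_ne_zero _ h2) (pow_ne_zero _ h3)
  have hc1728 : algebraMap k (modularFunctionFieldFullC k N) 1728 = 1728 := map_ofNat _ 1728
  have hc0 : algebraMap k (modularFunctionFieldFullC k N) 0 = 0 := map_zero _
  have hx : xk k N ∈ Vs := xk_mem k N Vs hk hJ
  have hx1 : xk k N - 1728 ∈ Vs := xk_sub_1728_mem k N Vs hk hJ
  have hnot : ¬ (xk k N ∈ Vs.nonunits ∧ xk k N - 1728 ∈ Vs.nonunits) := by
    rintro ⟨ha, hb⟩
    have h : algebraMap k (modularFunctionFieldFullC k N) 1728 ∈ Vs.nonunits := by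
      have h' : algebraMap k (modularFunctionFieldFullC k N) 1728 =
          xk k N - (xk k N - 1728) := by
        rw [hc1728]
        ring
      rw [h']
      exact Vs.nonunits.sub_mem ha hb
    exact (isU_const k N Vs hk h1728).notMem_nonunits h
  have hUN : IsU Vs ((N : modularFunctionFieldFullC k N) ^ 12) := (isU_natCast k N hN Vs hk).pow 12
  have hUU : IsU Vs (modUnit k N) := isU_modUnit k N hN Vs hk hJ
  rcases EllJ.mem_nonunits_or_of_mul Vs hG with h | h
  · -- `x̄(s) = 0`
    have hxm : xk k N ∈ Vs.nonunits := EllJ.mem_nonunits_of_pow Vs h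
    have hx1u : IsU Vs (xk k N - 1728) :=
      isU_of_notMem_nonunits hx1 (fun hb => hnot ⟨hxm, hb⟩)
    have hv : IsU Vs ((N : modularFunctionFieldFullC k N) ^ 12 * (xk k N - 1728) ^ 6 *
        modUnit k N) := (hUN.mul (hx1u.pow 6)).mul hUU
    refine EllJ.ellStruct_of_factor (xk k N) (Deriv.dX k N (xk k N))
      (Deriv.dJ k N (xk k N) ^ 12 * Deriv.GJ k N) 0 8 3
      ((N : modularFunctionFieldFullC k N) ^ 12 * (xk k N - 1728) ^ 6 * modUnit k N)
      (Deriv.dX_algebraMap k N (xk k N) 0) ?_ (by norm_num) hE0 Vs hk htop ?_ ?_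
      hv.1 hv.2.1 hv.2.2
    · rw [dJ_xk_pow_mul_GJ k N hN, hc0, sub_zero]
      ring
    · rw [hc0, sub_zero]
      exact xk_ne_zero k N
    · rw [hc0, sub_zero]
      exact hxm
  · -- `x̄(s) = 1728`
    have hx1m : xk k N - 1728 ∈ Vs.nonunits := EllJ.mem_nonunits_of_pow Vs h
    have hxu : IsU Vs (xk k N) := isU_of_notMem_nonunits hx (fun ha => hnot ⟨ha, hx1m⟩)
    have hv : IsU Vs ((N : modularFunctionFieldFullC k N) ^ 12 * xk k N ^ 8 * modUnit k N) :=
      (hUN.mul (hxu.pow 8)).mul hUU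
    refine EllJ.ellStruct_of_factor (xk k N) (Deriv.dX k N (xk k N))
      (Deriv.dJ k N (xk k N) ^ 12 * Deriv.GJ k N) 1728 6 2
      ((N : modularFunctionFieldFullC k N) ^ 12 * xk k N ^ 8 * modUnit k N)
      (Deriv.dX_algebraMap k N (xk k N) 1728) ?_ (by norm_num) hE1728 Vs hk htop ?_ ?_
      hv.1 hv.2.1 hv.2.2
    · rw [dJ_xk_pow_mul_GJ k N hN, hc1728]
      ring
    · rw [hc1728]
      exact xk_sub_1728_ne_zero k N
    · rw [hc1728]
      exact hx1m

end Field

end Fermat.Agent.CAR.Ell.ModUnit
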